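import Fermat.Agent.S40.Top
import Fermat.Agent.S40.Geo.B

/-!
# ML / AtP / Lower : (G1) removal of `p` from an EVEN level when `W` has good reduction at `p`

`lower_p_good` : `S40.top40` + `geoA_of_newP` + `geoB_even`; every odd prime `p`.
-/

set_option autoImplicit false

namespace Fermat.Agent.ML

open WeierstrassCurve

/-- **(G1) [P-LOWER]** -/
theorem lower_p_good (W : WeierstrassCurve ℤ) (hΔ : W.Δ ≠ 0) {p M' : ℕ} [NeZero M']
    (hp : p.Prime) (hp2 : p ≠ 2) (hgood : W.IsGoodPrimeFor p) (hirr : W.ModRepIsIrreducible p)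
    (hpM' : ¬ p ∣ M') (h2 : 2 ∣ M') (h : W.IsResiduallyModularOfLevel p (M' * p)) :
    W.IsResiduallyModularOfLevel p M' :=
  haveI : NeZero p := ⟨hp.ne_zero⟩
  S40.top40 W hΔ hp hp2 hgood hirr
    (S40.geoA_of_newP hp hpM' (fun _ _ _ hpM h49 => NP.newP hpM h49))
    (S40.geoB_even hp hp2 hpM' h2) h

end Fermat.Agent.ML
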