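import Fermat.Agent.ML.AtP.EInst
import Fermat.Agent.ML.Main.Cell
import Fermat.Agent.ML.Deg.Comm

/-!
# ML / AtP / Cell : the field `atp` of `IsCell` (layer 2b of S59)

`G` a Galois stable subgroup of the `θ`-part of `J₀(N)`, `N = M * p`, `p ∤ M`, `M` rigid, `p^a G = 0`, `G` NEW at `p`
(killed by `pushA`, `pushB`);  `W` multiplicative at `p` with the sign character `eP` (`SignP W p eP`).   Then `LocPSt p eP a G`.

* `sign_eq` : the sign of a strict structure over a local ring is determined by any quotient with `det ρ δ ≠ 1`;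
* `smul_eq_of_mul_eq_zero` : from `M₂(R)` back to the points;
* `locPSt_new`, `locPSt_of_new` (free level), `LCtx.locPSt_of_new` (all the data from `LCtx`).
-/

set_option autoImplicit false
set_option linter.unusedSectionVars false

open IsLocalRing ModularCurve

namespace Fermat.Agent.ML.AtP

open Fermat.Agent.S33 Fermat.Agent.S53 Fermat.Agent.SS Fermat.Agent.ML.ESide

local notation "Qbar" => AlgebraicClosure ℚ

/-- `(ρ σ - a)(ρ τ - b) = 0` from the operator identity on `Y`. -/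
theorem Ann.mul_eq_zero' {Y : Type*} [AddCommGroup Y] [DistribMulAction GQ Y] {R : Type}
    [CommRing R] {ρ : GQ →* M2 R} (h : Ann Y ρ) {σ τ : GQ} {a b : ℤ}
    (hY : ∀ y : Y, σ • (τ • y - b • y) = a • (τ • y - b • y)) :
    (ρ σ - (a : R) • (1 : M2 R)) * (ρ τ - (b : R) • (1 : M2 R)) = 0 := by
  have h1 := h.lift_eq_zero
    (f := (MonoidAlgebra.of ℤ GQ σ - a • 1) * (MonoidAlgebra.of ℤ GQ τ - b • 1)) (by
      refine LinearMap.ext fun y => ?_
      rw [map_mul, map_sub, map_sub, map_zsmul, map_zsmul, map_one, Module.End.mul_apply,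
        LinearMap.sub_apply, LinearMap.sub_apply, actY_of, LinearMap.smul_apply,
        Module.End.one_apply, actY_of, LinearMap.smul_apply, Module.End.one_apply, hY, sub_self]
      rfl)
  rw [map_mul, map_sub, map_sub, map_zsmul, map_zsmul, map_one, MonoidAlgebra.lift_of,
    MonoidAlgebra.lift_of] at h1
  rw [← h1, Int.cast_smul_eq_zsmul, Int.cast_smul_eq_zsmul]

/-- the sign of a strict structure is determined by any quotient in which `det ρ δ ≠ 1`. -/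
theorem sign_eq {R Λ : Type} [CommRing R] [IsLocalRing R] [CommRing Λ] (h2 : IsUnit (2 : R))
    (π : R →+* Λ) {ρ : GQ →* M2 R} {δ τ : GQ} {e : R} {e' : ℤ} (he : e * e = 1)
    (he' : e' = 1 ∨ e' = -1)
    (hs : (ρ δ - (ρ δ).det • (1 : M2 R)) * (ρ τ - e • (1 : M2 R)) = 0)
    (hs' : ((ρ δ).map π - (π (ρ δ).det) • (1 : M2 Λ)) * ((ρ τ).map π - (e' : Λ) • (1 : M2 Λ)) = 0)
    (hδ : π (ρ δ).det ≠ 1) : e = (e' : R) := by
  have hpm : e = 1 ∨ e = -1 := by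
    have h0 : (e + 1) * (1 - e) = 0 := by linear_combination -he
    have h3 : IsUnit ((e + 1) + (1 - e)) := by
      have : (e + 1) + (1 - e) = 2 := by ring
      rwa [this]
    rcases IsLocalRing.isUnit_or_isUnit_of_isUnit_add h3 with h | h
    · left
      have := (h.mul_right_eq_zero).1 h0
      linear_combination -this
    · right
      have := (h.mul_left_eq_zero).1 h0
      linear_combination this
  by_contra hne
  have hneg : e = -(e' : R) := by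
    rcases hpm with h | h <;> rcases he' with h' | h' <;> subst h h'
    · exact absurd (by simp) hne
    · simp
    · simp
    · exact absurd (by simp) hne
  set A : M2 Λ := (ρ δ).map π - (π (ρ δ).det) • (1 : M2 Λ) with hA
  have h4 : A * ((ρ τ).map π - (π e) • (1 : M2 Λ)) = 0 := by
    have := congrArg π.mapMatrix hs
    rw [map_mul, map_sub, map_sub, map_zero] at this
    rw [← this, hA]
    congr 2
    · ext i j
      fin_cases i <;> fin_cases j <;> simp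
    · ext i j
      fin_cases i <;> fin_cases j <;> simp
  have h5 : ((2 * e' : ℤ) : Λ) • A = 0 := by
    have h6 : π e = -(e' : Λ) := by rw [hneg, map_neg, map_intCast]
    rw [h6] at h4
    have h7 : A * ((ρ τ).map π - (-(e' : Λ)) • (1 : M2 Λ)) - A * ((ρ τ).map π - (e' : Λ) • (1 : M2 Λ))
        = ((2 * e' : ℤ) : Λ) • A := by
      rw [← mul_sub]
      have : ((ρ τ).map π - (-(e' : Λ)) • (1 : M2 Λ)) - ((ρ τ).map π - (e' : Λ) • (1 : M2 Λ))
          = ((2 * e' : ℤ) : Λ) • (1 : M2 Λ) := by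
        rw [neg_smul]
        push_cast
        rw [mul_smul, two_smul]
        abel
      rw [this, mul_smul_comm, mul_one]
    rw [← h7, h4, hs', sub_zero]
  have hu : IsUnit ((2 * e' : ℤ) : Λ) := by
    have h8 : IsUnit (2 : Λ) := by
      have := h2.map π
      rwa [map_ofNat] at this
    have h9 : IsUnit ((e' : ℤ) : Λ) := by
      rcases he' with h' | h' <;> subst h' <;> simp
    push_cast
    exact h8.mul h9
  have hA0 : A = 0 := by
    obtain ⟨u, hu⟩ := hu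
    rw [← hu] at h5
    have := congrArg (fun X => (↑u⁻¹ : Λ) • X) h5
    simpa [smul_smul] using this
  have h10 : (ρ δ).map π = (π (ρ δ).det) • (1 : M2 Λ) := sub_eq_zero.1 hA0
  have h11 : π (ρ δ).det = π (ρ δ).det * π (ρ δ).det := by
    have e1 : ((ρ δ).map π).det = π (ρ δ).det := (RingHom.map_det π (ρ δ)).symm
    rw [h10, Matrix.det_smul, Matrix.det_one, Fintype.card_fin, mul_one, pow_two] at e1
    exact e1.symm
  have h12 : IsUnit (π (ρ δ).det) := by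
    have : (ρ δ).det * (ρ δ⁻¹).det = 1 := by
      rw [← Matrix.det_mul, ← map_mul, mul_inv_cancel, map_one, Matrix.det_one]
    exact (IsUnit.of_mul_eq_one _ this).map π
  apply hδ
  obtain ⟨u, hu⟩ := h12
  rw [← hu] at h11 ⊢
  have := congrArg (fun x => (↑u⁻¹ : Λ) * x) h11
  simpa using this.symm


/-- two exponents of `σ` on `μ_(p^k)` act in the same way on `p^k`-torsion. -/
theorem nsmul_eq_of_pow {Y : Type*} [AddCommGroup Y] {n : ℕ} (hn : n ≠ 0) {σ : GQ} {a b : ℕ}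
    (ha : ∀ μ : Qbar, μ ^ n = 1 → σ μ = μ ^ a) (hb : ∀ μ : Qbar, μ ^ n = 1 → σ μ = μ ^ b)
    {y : Y} (hy : n • y = 0) : a • y = b • y := by
  obtain ⟨ζ, hζ⟩ := MAZ.exists_primitiveRoot_Qb (r := n) hn
  have hfin : IsOfFinOrder ζ :=
    isOfFinOrder_iff_pow_eq_one.mpr ⟨_, Nat.pos_of_ne_zero hn, hζ.pow_eq_one⟩
  have h3 := hfin.pow_eq_pow_iff_modEq.mp ((ha ζ hζ.pow_eq_one).symm.trans (hb ζ hζ.pow_eq_one))
  rw [← hζ.eq_orderOf] at h3
  exact nsmul_eq_nsmul_of_modEq h3 hy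

section Back

variable {L m : ℕ} [NeZero L] [NeZero m] {X : AddSubgroup (JZero L)} {rE : GQ →* M2 (ZMod m)}
  {R : Type} [CommRing R] [Algebra (ZMod m) R] [Module R ↥X] {πE : R →ₐ[ZMod m] ZMod m}
  {ρ : GQ →* M2 R} {Φ : M2 R →ₐ[R] Module.End R ↥X}

/-- from `M₂(R)` back to the points. -/
theorem smul_eq_of_mul_eq_zero (H : Rho.IsRhoK L m X rE πE ρ Φ) {σ τ : GQ} {c c' : ℤ}
    (h : (ρ σ - ((ρ σ).det * (c : R)) • (1 : M2 R)) * (ρ τ - (c' : R) • (1 : M2 R)) = 0)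
    {x : JZero L} (hx : x ∈ X) :
    σ • (τ • x - c' • x) =
      (((GAL.cycloChar m σ : (ZMod m)ˣ) : ZMod m).val : ℤ) • c • (τ • x - c' • x) := by
  set x' : ↥X := ⟨x, hx⟩ with hx'
  set y : ↥X := Φ (ρ τ - (c' : R) • (1 : M2 R)) x' with hy
  have hy1 : (y : JZero L) = τ • x - c' • x := by
    rw [hy, map_sub, map_smul, map_one, LinearMap.sub_apply, LinearMap.smul_apply,
      Module.End.one_apply, Int.cast_smul_eq_zsmul, AddSubgroup.coe_sub, H.act,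
      AddSubgroup.coe_zsmul]
  have h1 : Φ (ρ σ - ((ρ σ).det * (c : R)) • (1 : M2 R)) y = 0 := by
    rw [hy, ← Module.End.mul_apply, ← map_mul, h, map_zero, LinearMap.zero_apply]
  rw [map_sub, map_smul, map_one, LinearMap.sub_apply, LinearMap.smul_apply,
    Module.End.one_apply, sub_eq_zero, mul_smul, Int.cast_smul_eq_zsmul, H.det] at h1
  have h2 := congrArg (Subtype.val) h1
  rw [H.act, H.alg, AddSubgroup.coe_zsmul, hy1, RIB.Rho.chiM_apply] at h2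
  rw [h2, natCast_zsmul]

end Back


section New

open Fermat.Agent.S56.Flat ExtCitation

variable {W : WeierstrassCurve ℤ} {M p K : ℕ} [NeZero M] [hp : Fact p.Prime] [NeZero (M * p)]
  [NeZero (p ^ (K + 1))]

local notation "mm" => p ^ (K + 1)

/-- **the field `atp` of a cell**, level `M * p`, `G` new at `p`. -/
theorem locPSt_new (hΔ : W.Δ ≠ 0) (hp2 : p ≠ 2) (hirr : W.ModRepIsIrreducible p)
    (hpΔ : (p : ℤ) ∣ W.Δ) (hc₄ : ¬ (p : ℤ) ∣ W.c₄) (hpM : ¬ p ∣ M) (h49 : 4 ∣ M ∨ 9 ∣ M)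
    (B : Module.Basis (Fin 2) (ZMod (p ^ (K + 1))) (TorsW W (p ^ (K + 1)))) (S : Finset ℕ)
    (hS : ∀ r : ℕ, r.Prime → r ∣ M * p * p → r ∈ S)
    (E : Rho.EK (p ^ (K + 1)) S W.apOfModel (rEB B)) {eP : GQ → ℤ} (hP : SignP W p eP)
    {G : AddSubgroup (JZero (M * p))} (hG : ∀ g : GQ, ∀ x ∈ G, g • x ∈ G) {a : ℕ}
    (haK : a ≤ K + 1) (hGa : ∀ x ∈ G, p ^ a • x = 0)
    (hnil : ∀ r : Nat.Primes, (r : ℕ) ∉ S → ∀ x ∈ G,
      ∃ n : ℕ, (RIB.hk (M * p) W.apOfModel r ^ n) x = 0)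
    (hnew : ∀ x ∈ G, pushA M p x = 0 ∧ pushB M p x = 0) :
    LocPSt p eP a (G : Set (JZero (M * p))) := by
  have hm : mm = p ^ (K + 1) := rfl
  have hpm : p ∣ mm := dvd_pow_self p (Nat.succ_ne_zero K)
  have ham : p ^ a ∣ mm := pow_dvd_pow p haK
  have hXm : ∀ x ∈ G, mm • x = 0 := fun x hx => by
    obtain ⟨d, hd⟩ := ham
    rw [hd, mul_comm (p ^ a) d, mul_smul, hGa x hx, smul_zero]
  obtain ⟨R, _, _, _, _, _, πE, ρ, Φ, H⟩ :=
    Rho.exists_rhoK hp.out (k := K + 1) hm hpm S hS W.apOfModel E G hG hXm hnil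
  have hAp : (Ap p).LiesOverPrime p := S56.liesOverPrime_primeLocalPlace (pPrime p)
  obtain ⟨e, he1, he2, hs⟩ := exists_strict_Ma hΔ hp2 hirr hpΔ hc₄ hpM h49 B E.cont H
    (fun x hx => ⟨hXm x hx, hnew x hx⟩) hAp
  obtain ⟨hP1, hP2, -, hP4⟩ := hP
  have hID := inertia_le_decomposition (Ap p)
  obtain ⟨δ, hδ, a₀, ha₀, ha₀1⟩ := exists_inertia_pow hp.out hp2 (Ap p) hAp
  have h2R : IsUnit (2 : R) := by
    have h1 : IsUnit (((2 : ℕ) : ZMod mm)) := by
      rw [ZMod.isUnit_iff_coprime, hm]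
      exact Nat.Coprime.pow_right _ ((Nat.coprime_primes Nat.prime_two hp.out).2 (Ne.symm hp2))
    have := h1.map (algebraMap (ZMod mm) R)
    rwa [map_natCast, Nat.cast_ofNat] at this
  have hdetE : ∀ σ : GQ, πE (ρ σ).det
      = (((((GAL.cycloChar mm σ : (ZMod mm)ˣ) : ZMod mm).val : ℕ) : ℤ) : ZMod mm) := fun σ => by
    rw [H.det, πE.commutes, RIB.Rho.chiM_apply, Int.cast_natCast, ZMod.natCast_zmod_val]
    rfl
  -- the `E`-side
  have hE : ∀ σ ∈ (Ap p).decompositionSubgroup ℚ, ∀ τ ∈ (Ap p).decompositionSubgroup ℚ,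
      (rEB B σ - (((((GAL.cycloChar mm σ : (ZMod mm)ˣ) : ZMod mm).val : ℤ) * eP σ : ℤ) : ZMod mm) •
        (1 : M2 (ZMod mm))) * (rEB B τ - ((eP τ : ℤ) : ZMod mm) • (1 : M2 (ZMod mm))) = 0 :=
    fun σ hσ τ hτ => (ann_torsW B).mul_eq_zero' fun y => Subtype.ext
      (hP4 (K + 1) σ hσ τ hτ y.1 (nsmul_coe_torsW W y) _ fun μ hμ => GAL.cycloChar_spec mm σ hμ)
  have hsign : ∀ τ ∈ (Ap p).decompositionSubgroup ℚ, e τ = ((eP τ : ℤ) : R) := fun τ hτ => by
    refine sign_eq h2R (πE : R →+* ZMod mm) (ρ := ρ) (δ := δ) (τ := τ) (he2 τ hτ) (hP1 τ) ?_ ?_ ?_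
    · have := hs δ (hID hδ) τ hτ
      rwa [he1 δ hδ, mul_one] at this
    · have := hE δ (hID hδ) τ hτ
      rw [hP2 δ hδ, mul_one] at this
      have e1 : ∀ g, (ρ g).map (πE : R →+* ZMod mm) = rEB B g := H.toE
      rw [e1, e1]
      show (_ - (πE (ρ δ).det) • _) * _ = 0
      rw [hdetE]
      exact this
    · show πE (ρ δ).det ≠ 1
      rw [hdetE, Int.cast_natCast]
      intro h1
      apply cycloChar_val_not_modEq hp.out hpm ha₀ ha₀1
      have h3 : ((((GAL.cycloChar mm δ : (ZMod mm)ˣ) : ZMod mm).val : ℕ) : ZMod mm) = ((1 : ℕ) : ZMod mm) := by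
        rw [h1, Nat.cast_one]
      exact ((ZMod.natCast_eq_natCast_iff _ _ _).1 h3).of_dvd hpm
  intro s₁ h₁ s₂ h₂ x hx a' ha'
  have hmat := hs s₁ h₁ s₂ h₂
  rw [hsign s₁ h₁, hsign s₂ h₂] at hmat
  rw [smul_eq_of_mul_eq_zero H hmat hx, mul_smul, natCast_zsmul, natCast_zsmul]
  have hz : eP s₁ • (s₂ • x - eP s₂ • x) ∈ G :=
    G.zsmul_mem (G.sub_mem (hG s₂ x hx) (G.zsmul_mem hx _)) _
  refine nsmul_eq_of_pow (n := p ^ a) (pow_ne_zero _ hp.out.ne_zero) (σ := s₁) (fun μ hμ => ?_) ha'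
    (hGa _ hz)
  refine GAL.cycloChar_spec mm s₁ ?_
  obtain ⟨d, hd⟩ := ham
  rw [hd, pow_mul, hμ, one_pow]

end New

section Free

open Fermat.Agent.RIB

variable {W : WeierstrassCurve ℤ} {N M p : ℕ} [NeZero N] [NeZero M] [hp : Fact p.Prime]

/-- the same with a free level `N = M * p`. -/
theorem locPSt_of_new {K : ℕ} [NeZero (p ^ (K + 1))] (hN : N = M * p) (hΔ : W.Δ ≠ 0) (hp2 : p ≠ 2)
    (hirr : W.ModRepIsIrreducible p)
    (hpΔ : (p : ℤ) ∣ W.Δ) (hc₄ : ¬ (p : ℤ) ∣ W.c₄) (hpM : ¬ p ∣ M) (h49 : 4 ∣ M ∨ 9 ∣ M)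
    (B : Module.Basis (Fin 2) (ZMod (p ^ (K + 1))) (TorsW W (p ^ (K + 1)))) (S : Finset ℕ)
    (hS : ∀ r : ℕ, r.Prime → r ∣ N * p → r ∈ S)
    (E : Rho.EK (p ^ (K + 1)) S W.apOfModel (rEB B)) {eP : GQ → ℤ} (hP : SignP W p eP)
    {G : AddSubgroup (JZero N)} (hG : ∀ g : GQ, ∀ x ∈ G, g • x ∈ G) {a : ℕ}
    (haK : a ≤ K + 1) (hGa : ∀ x ∈ G, p ^ a • x = 0)
    (hnil : ∀ r : Nat.Primes, (r : ℕ) ∉ S → ∀ x ∈ G,
      ∃ n : ℕ, (RIB.hk N W.apOfModel r ^ n) x = 0)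
    (hnew : ∀ x ∈ G, pushA M p (castJ hN x) = 0 ∧ pushB M p (castJ hN x) = 0) :
    LocPSt p eP a (G : Set (JZero N)) := by
  subst hN
  exact locPSt_new hΔ hp2 hirr hpΔ hc₄ hpM h49 B S hS E hP hG haK hGa hnil hnew

/-- enlarging the set of excluded primes. -/
theorem ek_mono_sub {m : ℕ} [NeZero m] {T S : Finset ℕ} {a : ℕ → ℤ}
    {rE : GQ →* M2 (ZMod m)} (E : Rho.EK m T a rE) (h : T ⊆ S) : Rho.EK m S a rE where
  cont := E.cont
  det := E.det
  frob := fun r hr hrS => E.frob r hr fun h' => hrS (h h')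
  nf := E.nf

/-- **the field `atp` of `IsCell`** for a Galois stable subgroup `G` of the `θ`-part at a level `N = M * p`, killed by `p^a`
and NEW at `p`. -/
theorem _root_.Fermat.Agent.ML.LCtx.locPSt_of_new {T : Finset ℕ}
    {b : Module.Basis (Fin 2) (ZMod p) (TorsW W p)} {L₀ : ℕ} [NeZero L₀] {eps : ℕ → ℤ}
    {eP : GQ → ℤ} (X : LCtx W p T b L₀ eps eP) (hpΔ : (p : ℤ) ∣ W.Δ) (hN : N = M * p)
    (hpM : ¬ p ∣ M) (h49 : 4 ∣ M ∨ 9 ∣ M) {S : Finset ℕ} (hTS : T ⊆ S)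
    (hS : ∀ r : ℕ, r.Prime → r ∣ N * p → r ∈ S) {G : AddSubgroup (JZero N)}
    (hle : G ≤ thetaPart N p (↑S : Set ℕ) W.apOfModel) (hG : ∀ g : GQ, ∀ x ∈ G, g • x ∈ G)
    {a : ℕ} (hGa : ∀ x ∈ G, p ^ a • x = 0)
    (hnew : ∀ x ∈ G, pushA M p (castJ hN x) = 0 ∧ pushB M p (castJ hN x) = 0) :
    LocPSt p eP a (G : Set (JZero N)) := by
  obtain ⟨B, -, E, -⟩ := exists_EK X.H.hΔ X.C.hp2 X.H.hirr T
    (fun r hr hrT => ⟨fun h => hrT (X.hbadT r hr h), fun h => hrT (h ▸ X.C.p_mem)⟩) b X.C.nf a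
  exact AtP.locPSt_of_new hN X.H.hΔ X.C.hp2 X.H.hirr hpΔ (X.H.hss p hp.out hpΔ) hpM h49 B S hS
    (ek_mono_sub E hTS) (X.sgnP hpΔ) hG (Nat.le_succ a) hGa
    (fun r hr x hx => (hle hx).2 r fun h => hr (Finset.mem_coe.1 h)) hnew

end Free

end Fermat.Agent.ML.AtP
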