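import Fermat.Agent.ML.Main.Spec1
import Fermat.Agent.ML.Ihara.Theta
import Fermat.Agent.ML.Ihara.Tors

/-!
# ML / AtP / NewRaised : in the case (Ma) the system `θ` stays `p`-new at the RAISED levels

* `MCtx.WS_ne_bot_mul_prime`, `MCtx.WS_ne_bot_mul_prod`, `MCtx.WS_ne_bot_of_dvd_sq` : occurrence of `θ` passes from the level `N` to the
  levels `N q`, `N ∏ q` (`pullA` is injective on the `θ`-part: Ihara).
* `MCtx.ws_raised_eq_bot` : if `θ` does not occur at the level `M' * 4` (`M'` odd, squarefree, prime to `p`) then it does not occur at the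
  level `M' * 4 * ∏_{q ∈ P} q` either, for every set `P` of primes at which `rbar0` is unramified   (pure logic on `LowerStmt`).
* `BasePre.ws_raised_eq_bot` : the form which is used for `IsCell.atp` : `L₀ = L₁ * p`.
-/

set_option autoImplicit false
set_option linter.style.haveILetI false

noncomputable section

open AlgebraicCurve ModularCurve

namespace Fermat.Agent.ML

open Fermat.Agent.RIB Fermat.Agent.ML.ESide

local notation "Qbar" => AlgebraicClosure ℚ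
local notation "GQ" => (AlgebraicClosure ℚ ≃ₐ[ℚ] AlgebraicClosure ℚ)
local notation "M₂" => Matrix (Fin 2) (Fin 2)

variable {p : ℕ} [Fact p.Prime] {T : Finset ℕ} {θ : ℕ → ℤ} {rbar0 : GQ →* M₂ (ZMod p)}

/-- transport along an equality of levels. -/
theorem WS_ne_bot_congr' {L L' : ℕ} [NeZero L] [NeZero L'] (h : L = L') (p : ℕ) (S : Set ℕ)
    (θ : ℕ → ℤ) : WS L p S θ ≠ ⊥ ↔ WS L' p S θ ≠ ⊥ := by
  subst h
  exact Iff.rfl

/-- occurrence at `N` implies occurrence at `N q`. -/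
theorem MCtx.WS_ne_bot_mul_prime (C : MCtx p T θ rbar0) {N q : ℕ} [NeZero N] [NeZero q]
    (hq : q.Prime) (hqN : ¬ q ∣ N) (hT : ∀ r : ℕ, r.Prime → r ∣ N * q * p → r ∈ T)
    (h : WS N p (↑T : Set ℕ) θ ≠ ⊥) : WS (N * q) p (↑T : Set ℕ) θ ≠ ⊥ := by
  have hp : p.Prime := Fact.out
  obtain ⟨x, hx, hx0⟩ : ∃ x ∈ WS N p (↑T : Set ℕ) θ, x ≠ 0 := by
    obtain ⟨x, hx⟩ := AddSubgroup.ne_bot_iff_exists_ne_zero.1 h
    exact ⟨(x : JZero N), x.2, fun h0 => hx (Subtype.ext h0)⟩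
  intro hbot
  have hS : ∀ r : ℕ, r.Prime → r ∉ (↑T : Set ℕ) → ¬ r ∣ N * q * p := fun r hr hrT hd =>
    hrT (Finset.mem_coe.2 (hT r hr hd))
  have hmem : pullA N q x ∈ WS (N * q) p (↑T : Set ℕ) θ :=
    ⟨pullA_mem_thetaPart hS hx.1, by rw [← map_nsmul, hx.2, map_zero]⟩
  rw [hbot, AddSubgroup.mem_bot] at hmem
  have hqT : q ∈ (↑T : Set ℕ) :=
    Finset.mem_coe.2 (hT q hq ((Dvd.intro_left N rfl).mul_right p))
  exact hx0 (ihara_theta hp (iharaTors hq hqN) (C.nonEis T) hqT hx.1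
    (thetaPart N p (↑T : Set ℕ) θ).zero_mem (by rw [hmem, map_zero, add_zero])).1

/-- occurrence at `N` implies occurrence at `N ∏ q`. -/
theorem MCtx.WS_ne_bot_mul_prod (C : MCtx p T θ rbar0) {N : ℕ} [NeZero N]
    (h : WS N p (↑T : Set ℕ) θ ≠ ⊥) (s : Finset ℕ) :
    (∀ q ∈ s, q.Prime ∧ ¬ q ∣ N) → (∀ r : ℕ, r.Prime → r ∣ N * (∏ q ∈ s, q) * p → r ∈ T) →
    ∀ (N' : ℕ) [NeZero N'], N' = N * ∏ q ∈ s, q → WS N' p (↑T : Set ℕ) θ ≠ ⊥ := by
  classical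
  induction s using Finset.induction_on with
  | empty =>
    intro _ _ N' _ hN'
    rw [Finset.prod_empty, mul_one] at hN'
    exact (WS_ne_bot_congr' hN' p _ θ).2 h
  | insert a s ha ih =>
    intro hs hT N' _ hN'
    rw [Finset.prod_insert ha] at hN' hT
    have hap : a.Prime := (hs a (Finset.mem_insert_self a s)).1
    have hs' : ∀ q ∈ s, q.Prime ∧ ¬ q ∣ N := fun q hq => hs q (Finset.mem_insert_of_mem hq)
    have hprod0 : ∏ q ∈ s, q ≠ 0 := Finset.prod_ne_zero_iff.2 fun q hq => (hs' q hq).1.ne_zero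
    haveI : NeZero (N * ∏ q ∈ s, q) := ⟨mul_ne_zero (NeZero.ne N) hprod0⟩
    haveI : NeZero a := ⟨hap.ne_zero⟩
    have h1 : WS (N * ∏ q ∈ s, q) p (↑T : Set ℕ) θ ≠ ⊥ :=
      ih hs' (fun r hr hd => hT r hr (hd.trans (Nat.mul_dvd_mul_right
        (Nat.mul_dvd_mul_left N (Dvd.intro_left a rfl)) p))) _ rfl
    have hna : ¬ a ∣ N * ∏ q ∈ s, q := by
      intro hd
      rcases (Nat.Prime.dvd_mul hap).1 hd with hd | hd
      · exact (hs a (Finset.mem_insert_self a s)).2 hd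
      · obtain ⟨q, hq, haq⟩ := (Prime.dvd_finsetProd_iff hap.prime _).1 hd
        exact ha (((Nat.prime_dvd_prime_iff_eq hap (hs' q hq).1).1 haq) ▸ hq)
    have h2 := C.WS_ne_bot_mul_prime hap hna (fun r hr hd => hT r hr (by
      have e : N * (a * ∏ q ∈ s, q) * p = N * (∏ q ∈ s, q) * a * p := by ring
      rw [e]; exact hd)) h1
    exact (WS_ne_bot_congr' (show N' = N * (∏ q ∈ s, q) * a by rw [hN']; ring) p _ θ).2 h2

/-- occurrence at `M * 4` implies occurrence at `M' * 4`, `M ∣ M'`, `M'` odd and squarefree. -/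
theorem MCtx.WS_ne_bot_of_dvd_sq (C : MCtx p T θ rbar0) {M M' : ℕ} [NeZero (M * 4)]
    [NeZero (M' * 4)] (hd : M ∣ M') (hodd : Odd M') (hsq : Squarefree M')
    (hT : ∀ r : ℕ, r.Prime → r ∣ M' → r ∈ T) (h : WS (M * 4) p (↑T : Set ℕ) θ ≠ ⊥) :
    WS (M' * 4) p (↑T : Set ℕ) θ ≠ ⊥ := by
  obtain ⟨d, rfl⟩ := hd
  have hd0 : d ≠ 0 := by
    rintro rfl
    exact NeZero.ne (M * 0 * 4) (by simp)
  have hdsq : Squarefree d := hsq.squarefree_of_dvd (Dvd.intro_left M rfl)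
  have hprod : ∏ q ∈ d.primeFactors, q = d := Nat.prod_primeFactors_of_squarefree hdsq
  refine C.WS_ne_bot_mul_prod h d.primeFactors ?_ ?_ _ (by rw [hprod]; ring)
  · intro q hq
    have hqp : q.Prime := Nat.prime_of_mem_primeFactors hq
    have hqd : q ∣ d := Nat.dvd_of_mem_primeFactors hq
    refine ⟨hqp, fun hdv => ?_⟩
    rcases (Nat.Prime.dvd_mul hqp).1 hdv with hdv | hdv
    · exact hqp.one_lt.ne' (Nat.isUnit_iff.1 (hsq q (Nat.mul_dvd_mul hdv hqd)))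
    · have h2 : q ∣ 2 ^ 2 := by simpa using hdv
      have h3 : q = 2 := (Nat.prime_dvd_prime_iff_eq hqp Nat.prime_two).1 (hqp.dvd_of_dvd_pow h2)
      exact (Nat.not_even_iff_odd.2 hodd) (even_iff_two_dvd.2 (h3 ▸ hqd.mul_left M))
  · intro r hr hdv
    rw [hprod] at hdv
    rcases (Nat.Prime.dvd_mul hr).1 hdv with hdv | hdv
    · rcases (Nat.Prime.dvd_mul hr).1 hdv with hdv | hdv
      · rcases (Nat.Prime.dvd_mul hr).1 hdv with hdv | hdv
        · exact hT r hr (hdv.mul_right d)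
        · have h2 : r ∣ 2 ^ 2 := by simpa using hdv
          rw [(Nat.prime_dvd_prime_iff_eq hr Nat.prime_two).1 (hr.dvd_of_dvd_pow h2)]
          exact C.two_mem
      · exact hT r hr (hdv.mul_left M)
    · rw [(Nat.prime_dvd_prime_iff_eq hr Fact.out).1 hdv]
      exact C.p_mem

/-- **[NEW-RAISED]** : `θ` does not occur at `M' * 4` `⟹` it does not occur at `M' * 4 * ∏_{q ∈ P} q`, the `q ∈ P` unramified in `rbar0`. -/
theorem MCtx.ws_raised_eq_bot (hLow : LowerStmt) (hp35 : p = 3 ∨ p = 5) (C : MCtx p T θ rbar0)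
    {M' : ℕ} [NeZero (M' * 4)] (hodd : Odd M') (hsq : Squarefree M') (hpM' : ¬ p ∣ M')
    (hT : ∀ r : ℕ, r.Prime → r ∣ M' → r ∈ T) (hvan : WS (M' * 4) p (↑T : Set ℕ) θ = ⊥)
    (P : Finset ℕ)
    (hP : ∀ q ∈ P, q.Prime ∧ q ∈ T ∧ q ≠ 2 ∧ q ≠ p ∧ ¬ q ∣ M' ∧ ¬ Ram rbar0 q)
    (L' : ℕ) [NeZero L'] (hL' : L' = M' * 4 * ∏ q ∈ P, q) : WS L' p (↑T : Set ℕ) θ = ⊥ := by
  classical
  have hp : p.Prime := Fact.out
  by_contra hne
  have hpr : ∀ q ∈ P, q.Prime := fun q hq => (hP q hq).1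
  set Pr : ℕ := ∏ q ∈ P, q with hPr
  have hPr0 : Pr ≠ 0 := Finset.prod_ne_zero_iff.2 fun q hq => (hpr q hq).ne_zero
  have hM'0 : M' ≠ 0 := by
    rintro rfl
    exact NeZero.ne (0 * 4) (by simp)
  haveI : NeZero (M' * Pr * 4) := ⟨mul_ne_zero (mul_ne_zero hM'0 hPr0) (by norm_num)⟩
  have hne' : WS (M' * Pr * 4) p (↑T : Set ℕ) θ ≠ ⊥ :=
    (WS_ne_bot_congr' (show L' = M' * Pr * 4 by rw [hL']; ring) p _ θ).1 hne
  have hPrsq : Squarefree Pr := squarefree_prod_primes P hpr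
  have hcop : Nat.Coprime M' Pr := by
    refine Nat.Coprime.prod_right fun q hq => ?_
    exact Nat.Coprime.symm ((hpr q hq).coprime_iff_not_dvd.2 (hP q hq).2.2.2.2.1)
  have hsq1 : Squarefree (M' * Pr) := (Nat.squarefree_mul_iff).2 ⟨hcop, hsq, hPrsq⟩
  have hodd1 : Odd (M' * Pr) := by
    refine hodd.mul ?_
    rw [← Nat.not_even_iff_odd, even_iff_two_dvd, prime_dvd_prod_iff hpr Nat.prime_two]
    exact fun h2 => (hP 2 h2).2.2.1 rfl
  have hpPr : ¬ p ∣ Pr := by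
    rw [prime_dvd_prod_iff hpr hp]
    exact fun h => (hP p h).2.2.2.1 rfl
  have hp1 : ¬ p ∣ M' * Pr := fun h => ((Nat.Prime.dvd_mul hp).1 h).elim hpM' hpPr
  obtain ⟨M, _, hMd, hMsq, hMocc, hMram⟩ := hLow p hp35 T θ rbar0 C (M' * Pr) hodd1
    (fun q hq h => hq.one_lt.ne' (Nat.isUnit_iff.1 (hsq1 q
      ((Dvd.intro q (by ring) : q * q ∣ q ^ 3).trans h))))
    (fun h => hp1 ((Dvd.intro p (by ring) : p ∣ p ^ 2).trans h))
    (fun q hq hd => by
      rcases (Nat.Prime.dvd_mul hq).1 hd with hd | hd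
      · exact hT q hq hd
      · exact (hP q ((prime_dvd_prod_iff hpr hq).1 hd)).2.1) hne'
  have hMcop : Nat.Coprime M Pr := by
    refine Nat.Coprime.prod_right fun q hq => ?_
    refine Nat.Coprime.symm ((hpr q hq).coprime_iff_not_dvd.2 fun hd => ?_)
    exact (hP q hq).2.2.2.2.2 (hMram q (hpr q hq) hd (hP q hq).2.2.2.1)
  have hMM' : M ∣ M' := hMcop.dvd_of_dvd_mul_right hMd
  exact C.WS_ne_bot_of_dvd_sq hMM' hodd hsq hT hMocc hvan

/-- the form used for `IsCell.atp` : `L₀ = L₁ * p`, `P` a set of raised primes. -/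
theorem BasePre.ws_raised_eq_bot (hLow : LowerStmt) (hp35 : p = 3 ∨ p = 5)
    {W : WeierstrassCurve ℤ} (C : MCtx p T W.apOfModel rbar0) {L₀ : ℕ} [NeZero L₀]
    (B : BasePre W p T rbar0 L₀) {L₁ : ℕ} (hL : L₀ = L₁ * p) (P : Finset ℕ)
    (hP : ∀ q ∈ P, q.Prime ∧ q ∈ T ∧ q ≠ 2 ∧ q ≠ p ∧ ¬ q ∣ L₀ ∧ ¬ Ram rbar0 q)
    (L' : ℕ) [NeZero L'] (hL' : L' = L₁ * ∏ q ∈ P, q) :
    WS L' p (↑T : Set ℕ) W.apOfModel = ⊥ := by
  have hp : p.Prime := Fact.out
  obtain ⟨M, hM, hodd, hsq⟩ := B.shape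
  have hpM4 : p ∣ M * 4 := hM ▸ (Dvd.intro_left L₁ hL.symm)
  have hpM : p ∣ M := by
    rcases (Nat.Prime.dvd_mul hp).1 hpM4 with h | h
    · exact h
    · exfalso
      have h2 : p ∣ 2 ^ 2 := by simpa using h
      exact C.hp2 ((Nat.prime_dvd_prime_iff_eq hp Nat.prime_two).1 (hp.dvd_of_dvd_pow h2))
  obtain ⟨M', rfl⟩ := hpM
  have hL₁ : L₁ = M' * 4 := by
    have h1 : L₁ * p = (M' * 4) * p := by rw [← hL, hM]; ring
    exact Nat.eq_of_mul_eq_mul_right hp.pos h1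
  subst hL₁
  have hL0 : L₀ ≠ 0 := NeZero.ne L₀
  haveI : NeZero (M' * 4) := ⟨fun h0 => hL0 (by rw [hL, h0, zero_mul])⟩
  have hd : M' ∣ p * M' := Dvd.intro_left p rfl
  refine C.ws_raised_eq_bot hLow hp35 (Nat.odd_mul.1 hodd).2 (hsq.squarefree_of_dvd hd)
    (fun h => hp.one_lt.ne' (Nat.isUnit_iff.1 (hsq p (Nat.mul_dvd_mul_left p h))))
    (fun r hr hrd => B.levT r hr (by rw [hL]; exact ((hrd.mul_right 4).mul_right p).mul_right p))
    (B.newp (M' * 4) hL) P (fun q hq => ?_) L' hL'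
  obtain ⟨h1, h2, h3, h4, h5, h6⟩ := hP q hq
  exact ⟨h1, h2, h3, h4, fun h => h5 (by rw [hL]; exact (h.mul_right 4).mul_right p), h6⟩

end Fermat.Agent.ML
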