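import Fermat.Agent.ML.Main.StepSplit
import Fermat.Agent.ML.AtP.NewRaised
import Fermat.Agent.ML.Low.Up.VanishMain
import Fermat.Agent.ML.Low.Blocks
import Fermat.Agent.ML.Low.Step
import Fermat.Agent.ML.Deg.CommTower

/-!
# ML / AtP / MaNew : case (Ma) (`p ∣ L₀`) : every cell level is `p`-new   ([P5] of the P-STAGE split)

`L₀ = L₁ * p`, `P ⊆ Pfin` a set of raised primes, `L' = cellLevel L₁ P` (so `cellLevel L₀ P = L' * p`).

* `LCtx.ws_cell_old_eq_bot`        : `WS L' p T a_W = ⊥`                                   (`LowerStmt`, helper47's `NewRaised`);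
* `LCtx.thetaPart_cell_old_eq_bot` : `thetaPart (lvl L' (extP qv) t) p (cutS T qv) a_W = ⊥`  (S-independence + `Low.vanish'`);
* `LCtx.push_eq_zero`              : `pushA = pushB = 0` on `thetaPart (lvl L' (extP qv) t * p)`;
* `LCtx.dn_eq_zero`                : `dnA = dnB = 0` on `thetaPart (lvl (L' * p) (extP qv) t)`   (tower form, `ML/Deg/CommTower`);
* `LCtx.cell_push_eq_zero`         : the same on `thetaPart (lvl Lc (extP qv) t)`, `Lc = cellLevel L₀ P` a VARIABLE, through `castJ`.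
-/

set_option autoImplicit false
set_option linter.style.haveILetI false

noncomputable section

open AlgebraicCurve ModularCurve

namespace Fermat.Agent.ML

open Fermat.Agent.RIB Fermat.Agent.ML.ESide

local notation "Qbar" => AlgebraicClosure ℚ
local notation "GQ" => (AlgebraicClosure ℚ ≃ₐ[ℚ] AlgebraicClosure ℚ)
local notation "M₂" => Matrix (Fin 2) (Fin 2)

variable {W : WeierstrassCurve ℤ} {p : ℕ} [Fact p.Prime] {T : Finset ℕ}
  {b : Module.Basis (Fin 2) (ZMod p) (TorsW W p)} {L₀ : ℕ} [NeZero L₀] {eps : ℕ → ℤ} {eP : GQ → ℤ}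

/-- `cellLevel (L₁ * p) P = cellLevel L₁ P * p`. -/
theorem cellLevel_mul (L₁ p : ℕ) (P : Finset ℕ) : cellLevel (L₁ * p) P = cellLevel L₁ P * p := by
  unfold cellLevel
  ring

/-- in the case (Ma) the prime `p` is not a raising prime. -/
theorem LCtx.p_not_mem_Pfin (X : LCtx W p T b L₀ eps eP) (hp : p ∣ L₀) :
    p ∉ Pfin W (rbarB b) L₀ := fun h => X.not_dvd_of_mem_Pfin h X.C.hp2 hp

/-- the hypotheses of `BasePre.ws_raised_eq_bot` for the odd primes of a subset of `Pfin`. -/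
theorem LCtx.raised_spec (X : LCtx W p T b L₀ eps eP) (hp : p ∣ L₀) {P : Finset ℕ}
    (hP : P ⊆ Pfin W (rbarB b) L₀) :
    ∀ q ∈ P.erase 2, q.Prime ∧ q ∈ T ∧ q ≠ 2 ∧ q ≠ p ∧ ¬ q ∣ L₀ ∧ ¬ Ram (rbarB b) q := by
  intro q hq
  have hq2 : q ≠ 2 := Finset.ne_of_mem_erase hq
  have hqP : q ∈ Pfin W (rbarB b) L₀ := hP (Finset.mem_of_mem_erase hq)
  have hqp : q ≠ p := fun h => X.p_not_mem_Pfin hp (h ▸ hqP)
  exact ⟨X.prime_of_mem_Pfin hqP, X.hbadT q (X.prime_of_mem_Pfin hqP) (X.dvd_of_mem_Pfin hqP), hq2,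
    hqp, X.not_dvd_of_mem_Pfin hqP hq2, X.not_ram_of_mem_Pfin hqP hqp⟩

/-- **(Ma)** : `θ` does not occur at the level `cellLevel L₁ P`. -/
theorem LCtx.ws_cell_old_eq_bot (hLow : LowerStmt) (X : LCtx W p T b L₀ eps eP) {L₁ : ℕ}
    (hL : L₀ = L₁ * p) {P : Finset ℕ} (hP : P ⊆ Pfin W (rbarB b) L₀) (L' : ℕ) [NeZero L']
    (hL' : L' = cellLevel L₁ P) : WS L' p (↑T : Set ℕ) W.apOfModel = ⊥ :=
  X.BP.toBasePre.ws_raised_eq_bot hLow X.H.hp35 X.C hL (P.erase 2)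
    (X.raised_spec (Dvd.intro_left L₁ hL.symm) hP) L' hL'

/-- **(Ma)** : the `θ`-part vanishes on the whole Taylor-Wiles tower over `cellLevel L₁ P`. -/
theorem LCtx.thetaPart_cell_old_eq_bot (hLow : LowerStmt) (X : LCtx W p T b L₀ eps eP) {L₁ : ℕ}
    (hL : L₀ = L₁ * p) {P : Finset ℕ} (hP : P ⊆ Pfin W (rbarB b) L₀) (L' : ℕ) [NeZero L']
    (hL' : L' = cellLevel L₁ P) {t n : ℕ} {qv : Fin t → Nat.Primes}
    (TC : MTW p T W.apOfModel L' t n qv) :
    thetaPart (lvl L' (extP qv) t) p (↑(cutS T qv) : Set ℕ) W.apOfModel = ⊥ := by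
  refine thetaPart_eq_bot_of_WS_eq_bot (Low.vanish' X.C TC ?_)
  rw [X.C.WS_eq (subset_cutS T qv) TC.lev]
  exact X.ws_cell_old_eq_bot hLow hL hP L' hL'

/-- **(Ma)** : the two push-forwards at `p` kill the `θ`-part of the level `lvl L' (extP qv) t * p`. -/
theorem LCtx.push_eq_zero (hLow : LowerStmt) (X : LCtx W p T b L₀ eps eP) {L₁ : ℕ}
    (hL : L₀ = L₁ * p) {P : Finset ℕ} (hP : P ⊆ Pfin W (rbarB b) L₀) (L' : ℕ) [NeZero L']
    (hL' : L' = cellLevel L₁ P) {t n : ℕ} {qv : Fin t → Nat.Primes}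
    (TC : MTW p T W.apOfModel L' t n qv) {x : JZero (lvl L' (extP qv) t * p)}
    (hx : x ∈ thetaPart (lvl L' (extP qv) t * p) p (↑(cutS T qv) : Set ℕ) W.apOfModel) :
    SS.pushA (lvl L' (extP qv) t) p x = 0 ∧ SS.pushB (lvl L' (extP qv) t) p x = 0 := by
  have hp : p.Prime := Fact.out
  have hbot := X.thetaPart_cell_old_eq_bot hLow hL hP L' hL' TC
  have hS : ∀ r : ℕ, r.Prime → r ∉ (↑(cutS T qv) : Set ℕ) → ¬ r ∣ lvl L' (extP qv) t * p * p := by
    intro r hr hrS hd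
    refine hrS (Finset.mem_coe.2 (TC.mem_cutS t hr ?_))
    rcases (Nat.Prime.dvd_mul hr).1 hd with h | h
    · exact h
    · exact h.mul_left _
  have hA := pushA_mem_thetaPart hS hx
  have hB := pushB_mem_thetaPart hS hx
  rw [hbot, AddSubgroup.mem_bot] at hA hB
  exact ⟨hA, hB⟩

/-- **(Ma)**, tower form : `dnA = dnB = 0` on the `θ`-part of the level `lvl (L' * p) (extP qv) t`. -/
theorem LCtx.dn_eq_zero (hLow : LowerStmt) (X : LCtx W p T b L₀ eps eP) {L₁ : ℕ}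
    (hL : L₀ = L₁ * p) {P : Finset ℕ} (hP : P ⊆ Pfin W (rbarB b) L₀) (L' : ℕ) [NeZero L']
    (hL' : L' = cellLevel L₁ P) {t n : ℕ} {qv : Fin t → Nat.Primes}
    (TC : MTW p T W.apOfModel L' t n qv) {x : JZero (lvl (L' * p) (extP qv) t)}
    (hx : x ∈ thetaPart (lvl (L' * p) (extP qv) t) p (↑(cutS T qv) : Set ℕ) W.apOfModel) :
    dnA L' p (extP qv) t x = 0 ∧ dnB L' p (extP qv) t x = 0 := by
  rw [dnA_apply, dnB_apply]
  refine X.push_eq_zero hLow hL hP L' hL' TC ?_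
  rw [castJ_symm_apply, castJ_mem_thetaPart]
  exact hx

/-- **(Ma)**, cell form : `Lc = cellLevel L₀ P` is a variable; `M = lvl L' (extP qv) t`. -/
theorem LCtx.cell_push_eq_zero (hLow : LowerStmt) (X : LCtx W p T b L₀ eps eP) {L₁ : ℕ}
    (hL : L₀ = L₁ * p) {P : Finset ℕ} (hP : P ⊆ Pfin W (rbarB b) L₀) (L' : ℕ) [NeZero L']
    (hL' : L' = cellLevel L₁ P) {t n : ℕ} {qv : Fin t → Nat.Primes}
    (TC : MTW p T W.apOfModel L' t n qv) (Lc : ℕ) [NeZero Lc] (hLc : Lc = cellLevel L₀ P) :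
    ∃ h : lvl Lc (extP qv) t = lvl L' (extP qv) t * p,
      ∀ x ∈ thetaPart (lvl Lc (extP qv) t) p (↑(cutS T qv) : Set ℕ) W.apOfModel,
        SS.pushA (lvl L' (extP qv) t) p (castJ h x) = 0 ∧
        SS.pushB (lvl L' (extP qv) t) p (castJ h x) = 0 := by
  have h : lvl Lc (extP qv) t = lvl L' (extP qv) t * p := by
    rw [lvl_mul, hLc, hL, cellLevel_mul, hL']
  exact ⟨h, fun x hx => X.push_eq_zero hLow hL hP L' hL' TC ((castJ_mem_thetaPart h).2 hx)⟩

end Fermat.Agent.ML
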