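import Fermat.Agent.ML.AtP.MaNew
import Fermat.Agent.ML.AtP.Cell
import Fermat.Agent.RIB.Main.Step

/-!
# ML / AtP / MaAtp : the field `atp` of `IsCell` at EVERY cell level, in the case (Ma) (`p ∣ L₀`)

* `LCtx.cellLevel_spec` : the primes of `cellLevel L₀ P * p` are in `T`, `4 ∣ cellLevel L₀ P`   (any `P ⊆ Pfin`; no hypothesis on `p`);
* `LCtx.atp_of_Ma` : `p ∣ L₀`, `P ⊆ Pfin`, `Lc = cellLevel L₀ P`, `G ≤ thetaPart (lvl Lc (extP qv) t)` Galois stable, `p^a G = 0`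
  `⟹ LocPSt p eP a G`   (`MaNew.cell_push_eq_zero` + helper62's `LCtx.locPSt_of_new`);
* `LCtx.atp_of_Ma_frm` : the same with the Taylor-Wiles data taken from a frame `Frm`.
-/

set_option autoImplicit false
set_option linter.style.haveILetI false

noncomputable section

open AlgebraicCurve ModularCurve

namespace Fermat.Agent.ML

open Fermat.Agent.RIB Fermat.Agent.ML.ESide

local notation "Qbar" => AlgebraicClosure ℚ
local notation "GQ" => (AlgebraicClosure ℚ ≃ₐ[ℚ] AlgebraicClosure ℚ)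
local notation "M₂" => Matrix (Fin 2) (Fin 2)

variable {W : WeierstrassCurve ℤ} {p : ℕ} [Fact p.Prime] {T : Finset ℕ}
  {b : Module.Basis (Fin 2) (ZMod p) (TorsW W p)} {L₀ : ℕ} [NeZero L₀] {eps : ℕ → ℤ} {eP : GQ → ℤ}

/-- a prime dividing `cellLevel L P` divides `L` or belongs to `P.erase 2`. -/
theorem dvd_cellLevel_cases {L : ℕ} {P : Finset ℕ} (hP : ∀ q ∈ P, q.Prime) {r : ℕ} (hr : r.Prime)
    (hd : r ∣ cellLevel L P) : r ∣ L ∨ r ∈ P.erase 2 := by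
  rcases (Nat.Prime.dvd_mul hr).1 hd with h | h
  · exact Or.inl h
  · exact Or.inr ((prime_dvd_prod_iff (fun q hq => hP q (Finset.mem_of_mem_erase hq)) hr).1 h)

/-- the level of a cell is supported in `T` and is rigid. -/
theorem LCtx.cellLevel_spec (X : LCtx W p T b L₀ eps eP) {P : Finset ℕ}
    (hP : P ⊆ Pfin W (rbarB b) L₀) :
    (∀ r : ℕ, r.Prime → r ∣ cellLevel L₀ P * p → r ∈ T) ∧ 4 ∣ cellLevel L₀ P := by
  have hp : p.Prime := Fact.out
  refine ⟨fun r hr hd => ?_, ?_⟩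
  · rcases (Nat.Prime.dvd_mul hr).1 hd with h | h
    · rcases dvd_cellLevel_cases (fun q hq => X.prime_of_mem_Pfin (hP hq)) hr h with h | h
      · exact X.BP.levT r hr (h.mul_right p)
      · have hrP := hP (Finset.mem_of_mem_erase h)
        exact X.hbadT r hr (X.dvd_of_mem_Pfin hrP)
    · rw [(Nat.prime_dvd_prime_iff_eq hr hp).1 h]
      exact X.C.p_mem
  · obtain ⟨M, hM, -, -⟩ := X.BP.shape
    exact (hM ▸ Dvd.intro_left M rfl : 4 ∣ L₀).mul_right _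

/-- **the field `atp` in the case (Ma)**. -/
theorem LCtx.atp_of_Ma (hLow : LowerStmt) (X : LCtx W p T b L₀ eps eP) (hpL : p ∣ L₀)
    {P : Finset ℕ} (hP : P ⊆ Pfin W (rbarB b) L₀) (Lc : ℕ) [NeZero Lc]
    (hLc : Lc = cellLevel L₀ P) {t n : ℕ} {qv : Fin t → Nat.Primes}
    (htw : ∀ L₁ : ℕ, (∀ r : ℕ, r.Prime → r ∣ L₁ * p → r ∈ T) → 4 ∣ L₁ →
      MTW p T W.apOfModel L₁ t n qv)
    {G : AddSubgroup (JZero (lvl Lc (extP qv) t))}
    (hle : G ≤ thetaPart (lvl Lc (extP qv) t) p (↑(cutS T qv) : Set ℕ) W.apOfModel)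
    (hG : ∀ g : GQ, ∀ x ∈ G, g • x ∈ G) {a : ℕ} (hGa : ∀ x ∈ G, p ^ a • x = 0) :
    LocPSt p eP a (G : Set (JZero (lvl Lc (extP qv) t))) := by
  have hp : p.Prime := Fact.out
  obtain ⟨L₁, hL⟩ : ∃ L₁, L₀ = L₁ * p := by
    obtain ⟨c, hc⟩ := hpL
    exact ⟨c, by rw [hc, mul_comm]⟩
  have hspec := X.cellLevel_spec hP
  have hcl : cellLevel L₀ P = cellLevel L₁ P * p := by rw [hL, cellLevel_mul]
  have hL'0 : cellLevel L₁ P ≠ 0 := by
    intro h0
    apply NeZero.ne Lc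
    rw [hLc, hcl, h0, zero_mul]
  haveI : NeZero (cellLevel L₁ P) := ⟨hL'0⟩
  have hc4 : Nat.Coprime 4 p := by
    have : Nat.Coprime 2 p := (Nat.coprime_primes Nat.prime_two hp).2 (Ne.symm X.C.hp2)
    simpa using Nat.Coprime.pow_left 2 this
  have h4 : 4 ∣ cellLevel L₁ P := hc4.dvd_of_dvd_mul_right (hcl ▸ hspec.2)
  have TC : MTW p T W.apOfModel (cellLevel L₁ P) t n qv :=
    htw _ (fun r hr hd => hspec.1 r hr (by rw [hcl]; exact hd.mul_right p)) h4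
  have TCc : MTW p T W.apOfModel Lc t n qv :=
    htw _ (fun r hr hd => hspec.1 r hr (hLc ▸ hd)) (hLc ▸ hspec.2)
  have hpΔ : (p : ℤ) ∣ W.Δ := by
    by_contra h
    exact X.BP.goodp h hpL
  -- `p` does not divide the level `lvl (cellLevel L₁ P) (extP qv) t`
  have hpL₁ : ¬ p ∣ L₁ := by
    obtain ⟨M, hM, -, hsq⟩ := X.BP.shape
    intro hd
    have h1 : p * p ∣ M * 4 := by rw [← hM, hL]; exact Nat.mul_dvd_mul_right hd p
    have h2 : Nat.Coprime (p * p) 4 := (Nat.Coprime.mul_right hc4 hc4).symm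
    exact hp.one_lt.ne' (Nat.isUnit_iff.1 (hsq p (h2.dvd_of_dvd_mul_right h1)))
  have hpM : ¬ p ∣ lvl (cellLevel L₁ P) (extP qv) t := by
    intro hd
    rcases dvd_lvl_cases_lt t hp hd with h | ⟨j, -, hj⟩
    · rcases dvd_cellLevel_cases (fun q hq => X.prime_of_mem_Pfin (hP hq)) hp h with h | h
      · exact hpL₁ h
      · exact X.p_not_mem_Pfin hpL (hP (Finset.mem_of_mem_erase h))
    · exact TC.notT j (hj ▸ X.C.p_mem)
  obtain ⟨hN, hnew⟩ := X.cell_push_eq_zero hLow hL hP (cellLevel L₁ P) rfl TC Lc hLc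
  exact X.locPSt_of_new hpΔ hN hpM (Or.inl (h4.trans (dvd_lvl _ _ _))) (subset_cutS T qv)
    (fun r hr hd => TCc.mem_cutS t hr hd) hle hG hGa (fun x hx => hnew x (hle hx))

/-- the same, with a frame. -/
theorem LCtx.atp_of_Ma_frm (hLow : LowerStmt) (X : LCtx W p T b L₀ eps eP) (hpL : p ∣ L₀)
    {P : Finset ℕ} (hP : P ⊆ Pfin W (rbarB b) L₀) (Lc : ℕ) [NeZero Lc]
    (hLc : Lc = cellLevel L₀ P) {t F C₀ a m n K : ℕ} {qv : Fin t → Nat.Primes}
    (hF : Frm p X.C.hp2 T W.apOfModel (rbarB b) t F C₀ a m n K qv)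
    {G : AddSubgroup (JZero (lvl Lc (extP qv) t))}
    (hle : G ≤ thetaPart (lvl Lc (extP qv) t) p (↑(cutS T qv) : Set ℕ) W.apOfModel)
    (hG : ∀ g : GQ, ∀ x ∈ G, g • x ∈ G) (hbox : ∀ x ∈ G, InBox p qv a x) :
    LocPSt p eP a (G : Set (JZero (lvl Lc (extP qv) t))) :=
  X.atp_of_Ma hLow hpL hP Lc hLc hF.tw hle hG fun x hx => (hbox x hx).1

end Fermat.Agent.ML
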