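import Fermat.Agent.ML.Ihara.A2
import Fermat.Agent.SS.Z1.Transport

/-!
# ML / AtP / A2p : `β_* α^* = T_q` on ALL of `J₀(N)`, for EVERY prime `q ∤ N` (`q = p` allowed)

`w` the Atkin-Lehner swap of level `N q` (`SS.swAlg`): `w ∘ α = β`, `w ∘ β = α`, `w_* w^* = 1`.  So
`β_* α^* = α_* w_* w^* β^* = α_* β^* = T_q`.
-/

set_option autoImplicit false
set_option linter.unusedSectionVars false
set_option linter.style.haveILetI false

noncomputable section

open AlgebraicCurve ModularCurve

namespace Fermat.Agent.ML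

open Fermat.Agent.S24 Fermat.Agent.RIB Fermat.Agent.GAL Fermat.Agent.SS

theorem finrankAlong_of_surjective {K F F' : Type*} [Field K] [Field F] [Field F'] [Algebra K F]
    [Algebra K F'] (φ : F →ₐ[K] F') (h : Function.Surjective φ) : finrankAlong K φ = 1 := by
  unfold finrankAlong
  letI := algebraAlong φ
  have hs : Function.Surjective (algebraMap F F') := h
  exact (finrank_eq_one_iff_of_nonzero' (1 : F') one_ne_zero).2 fun w => by
    obtain ⟨c, hc⟩ := hs w
    exact ⟨c, by rw [Algebra.smul_def, mul_one, hc]⟩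

/-- `β_* α^* = T_q`, all `x`, all primes `q ∤ N`. -/
theorem pushB_pullA_all (N q : ℕ) [NeZero N] [hq : Fact q.Prime] (hqN : ¬ q ∣ N) (x : JZero N) :
    haveI : NeZero q := ⟨hq.out.ne_zero⟩
    SS.pushB N q (pullA N q x) = heckeOperatorBar N ⟨q, hq.out⟩ x := by
  haveI : NeZero q := ⟨hq.out.ne_zero⟩
  have e1 : heckeBetaBar Kb N q = (swAlg N q hqN).comp (heckeAlphaBar Kb N q) :=
    AlgHom.ext fun f => (swAlg_alpha N q hqN f).symm
  have e2 : heckeAlphaBar Kb N q = (swAlg N q hqN).comp (heckeBetaBar Kb N q) :=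
    AlgHom.ext fun f => (swAlg_beta N q hqN f).symm
  rw [← pushA_pullB N q hq.out x, pushB_eq_jPush, pullA_eq_jPull, pushA_eq_jPush, pullB_eq_jPull]
  have h1 : ∀ y, jPush (heckeBetaBar Kb N q) y
      = jPush (heckeAlphaBar Kb N q) (jPush (swAlg N q hqN) y) := fun y => by
    rw [← jPush_comp, ← e1]
  have h2 : ∀ y, jPull (heckeAlphaBar Kb N q) y
      = jPull (swAlg N q hqN) (jPull (heckeBetaBar Kb N q) y) := fun y => by
    rw [← jPull_comp, ← e2]
  rw [h1, h2, jPush_jPull, finrankAlong_of_surjective _ (swAlg_surjective hqN), one_smul]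

end Fermat.Agent.ML
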