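import Fermat.Agent.FFG.Core
import Fermat.Agent.MAZ.Geo.HopfMod
import Fermat.Agent.MAZ.Geo.HeqG
import Fermat.Agent.MAZ.Geo.Basic
import Fermat.Agent.S33.Ray.Main
import Fermat.Agent.S32.Wire

/-!
# ML / AtP / Conn : [NONCONN]  the kernel of reduction on `J₀(N)[p^k]` (`p ∤ N`, `p` odd) has no trivial inertia subquotient

* `isHopfOrderA_adjoin` : [HOPF-B1] of MAZ with the order made explicit.
* `exists_isHopfOrder_conn_level` : at a rigid level `M`, a finite `G_ℚ`-module `X ↪ J₀(M)` carries a Hopf order `H` over `ℤ_(ℓ)` such that the kernel of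
  `reductionModL A M` is contained in `MAZ.conn A H`  (`FFG.core`, 4th conjunct + `FLAT.globalPart`/`hull`).
* `nonconn` : every `I_A`-stable subgroup `Z` of `ker (MAZ.redJ N p A) ∩ J₀(N)[p^k]` is generated by the `τ z - z`.
-/

set_option autoImplicit false
set_option synthInstance.maxHeartbeats 400000

noncomputable section

open AlgebraicCurve ModularCurve

namespace Fermat.Agent.ML.AtP

open Fermat.Agent.RED hiding GQ Kb
open Fermat.Agent.S24 Fermat.Agent.FLAT Fermat.Agent.MAZ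

/-- [HOPF-B1] with the order made explicit. -/
theorem isHopfOrderA_adjoin {A : ValuationSubring Qb} {X : Type} [AddCommGroup X]
    [Finite X] (act : GQ →* AddMonoid.End X) (S : Subring (X → Qb)) (hS : FFG.IsOrd A S)
    (hadd : ∀ φ ∈ S, (fun p : X × X => φ (p.1 + p.2)) ∈ FFG.prodOrd S S)
    (𝒳 : Set (X → Qb)) (hgen : S = FFG.genOrd A 𝒳)
    (heq : ∀ φ ∈ 𝒳, ∀ σ ∈ A.inertiaSubgroupIn ℚ, FLAT.IsEquiv act σ φ) :
    FLAT.IsHopfOrderA A act (Algebra.adjoin A 𝒳) ∧ ∀ φ : X → Qb, φ ∈ Algebra.adjoin A 𝒳 ↔ φ ∈ S := by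
  classical
  have := Fintype.ofFinite X
  have hH : ∀ φ : X → Qb, φ ∈ Algebra.adjoin A 𝒳 ↔ φ ∈ S := by
    intro φ
    rw [hgen, genOrd_eq_adjoin_toSubring]
    rfl
  refine ⟨⟨?_, ?_, ?_, ⟨𝒳, rfl, heq⟩⟩, hH⟩
  · intro h hh x
    exact hS.int h ((hH h).1 hh) x
  · obtain ⟨π, hπ, hc⟩ := hS.cond
    rw [eq_top_iff]
    intro φ _
    have hδ : ∀ x : X, (Pi.single x 1 : X → Qb) ∈
        Submodule.span Qb ((Algebra.adjoin A 𝒳 : Subalgebra A (X → Qb)) : Set (X → Qb)) := by
      intro x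
      have h1 : (fun z => π * (Pi.single x 1 : X → Qb) z) ∈ S := by
        refine hc _ fun z => ?_
        by_cases hz : z = x
        · subst hz
          simp
        · rw [Pi.single_eq_of_ne hz]
          exact A.zero_mem
      have h2 : (Pi.single x 1 : X → Qb) = π⁻¹ • (fun z => π * (Pi.single x 1 : X → Qb) z) := by
        funext z
        simp only [Pi.smul_apply, smul_eq_mul]
        rw [← mul_assoc, inv_mul_cancel₀ hπ, one_mul]
      rw [h2]
      exact Submodule.smul_mem _ _ (Submodule.subset_span ((hH _).2 h1))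
    have hφ : φ = ∑ x : X, φ x • (Pi.single x 1 : X → Qb) := by
      funext z
      simp only [Finset.sum_apply, Pi.smul_apply, smul_eq_mul]
      rw [Finset.sum_eq_single z]
      · simp
      · intro x _ hx
        rw [Pi.single_eq_of_ne (Ne.symm hx), mul_zero]
      · simp
    rw [hφ]
    exact Submodule.sum_mem _ fun x _ => Submodule.smul_mem _ _ (hδ x)
  · intro h hh
    have h1 := hadd h ((hH h).1 hh)
    rw [FFG.mem_prodOrd_iff] at h1
    obtain ⟨n, a, b, ha, hb, hab⟩ := h1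
    have h2 : (fun p : X × X => h (p.1 + p.2)) = ∑ i : Fin n, fun p : X × X => a i p.1 * b i p.2 := by
      funext p
      rw [hab p, Finset.sum_apply]
    rw [h2]
    refine Submodule.sum_mem _ fun i _ => Submodule.subset_span ?_
    exact ⟨a i, (hH _).2 (ha i), b i, (hH _).2 (hb i), rfl⟩

/-- elements of the decomposition group preserve `v < 1`. -/
theorem valuation_apply_lt_one {A : ValuationSubring Qb} {τ : GQ}
    (hτ : τ ∈ A.decompositionSubgroup ℚ) {c : Qb} (hc : A.valuation c < 1) :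
    A.valuation (τ c) < 1 := by
  by_contra hn
  rw [not_lt] at hn
  have hc0 : τ c ≠ 0 := by
    intro h0
    rw [h0, map_zero] at hn
    exact absurd hn (not_le.2 zero_lt_one)
  have h1 : (τ c)⁻¹ ∈ A := by
    rw [← A.valuation_le_one_iff, map_inv₀]
    exact inv_le_one_of_one_le₀ hn
  have h2 : τ⁻¹ ((τ c)⁻¹) ∈ A :=
    apply_mem_of_mem_decomposition ((A.decompositionSubgroup ℚ).inv_mem hτ) h1
  have h3 : τ⁻¹ ((τ c)⁻¹) = c⁻¹ := by
    rw [map_inv₀]
    congr 1
    exact τ.symm_apply_apply c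
  rw [h3, ← A.valuation_le_one_iff, map_inv₀] at h2
  have hc1 : c ≠ 0 := fun h => hc0 (by rw [h, map_zero])
  have hv : A.valuation c ≠ 0 := (Valuation.ne_zero_iff _).2 hc1
  have := (inv_le_one₀ (zero_lt_iff.2 hv)).1 h2
  exact absurd hc (not_lt.2 this)

/-- congruence modulo the maximal ideal passes to the `D_A`-hull. -/
theorem valuation_sub_lt_of_mem_hull {A : ValuationSubring Qb} {X : Type} [AddCommGroup X]
    (act : GQ →* AddMonoid.End X) {H : Subalgebra A (X → Qb)} (hint : ∀ h ∈ H, ∀ x, h x ∈ A)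
    (K : Set X) (hK : ∀ τ ∈ A.decompositionSubgroup ℚ, ∀ x ∈ K, act τ x ∈ K)
    (hc : ∀ x ∈ K, ∀ h ∈ H, A.valuation (h x - h 0) < 1) {f : X → Qb} (hf : f ∈ hull act A H) :
    (∀ x, f x ∈ A) ∧ ∀ x ∈ K, A.valuation (f x - f 0) < 1 := by
  induction hf using Algebra.adjoin_induction with
  | mem g hg =>
    obtain ⟨τ, hτ, f', hf', rfl⟩ := hg
    refine ⟨fun x => apply_mem_of_mem_decomposition hτ (hint f' hf' _), fun x hx => ?_⟩
    have h1 : star act τ f' x - star act τ f' 0 = τ (f' (act τ⁻¹ x) - f' 0) := by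
      simp only [FLAT.star, map_zero, map_sub]
    rw [h1]
    exact valuation_apply_lt_one hτ
      (hc _ (hK _ ((A.decompositionSubgroup ℚ).inv_mem hτ) x hx) f' hf')
  | algebraMap a =>
    refine ⟨fun x => a.2, fun x _ => ?_⟩
    simp
  | add f g _ _ hf hg =>
    refine ⟨fun x => A.add_mem _ _ (hf.1 x) (hg.1 x), fun x hx => ?_⟩
    have e : (f + g) x - (f + g) 0 = (f x - f 0) + (g x - g 0) := by
      simp only [Pi.add_apply]; ring
    rw [e]
    exact lt_of_le_of_lt (A.valuation.map_add _ _) (max_lt (hf.2 x hx) (hg.2 x hx))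
  | mul f g _ _ hf hg =>
    refine ⟨fun x => A.mul_mem _ _ (hf.1 x) (hg.1 x), fun x hx => ?_⟩
    have e : (f * g) x - (f * g) 0 = (f x - f 0) * g x + f 0 * (g x - g 0) := by
      simp only [Pi.mul_apply]; ring
    rw [e]
    refine lt_of_le_of_lt (A.valuation.map_add _ _) (max_lt ?_ ?_)
    · rw [map_mul]
      exact lt_of_le_of_lt (mul_le_of_le_one_right' ((A.valuation_le_one_iff _).2 (hg.1 x)))
        (hf.2 x hx)
    · rw [map_mul]
      exact lt_of_le_of_lt (mul_le_of_le_one_left' ((A.valuation_le_one_iff _).2 (hf.1 0)))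
        (hg.2 x hx)

/-- **[CONN]** at a rigid level `M`. -/
theorem exists_isHopfOrder_conn_level {M ℓ : ℕ} [NeZero M] [Fact ℓ.Prime] (hℓM : ¬ ℓ ∣ M)
    (h49 : 4 ∣ M ∨ 9 ∣ M) (A : ValuationSubring Qb) (hA : A.LiesOverPrime ℓ)
    (h : ReductionInputsModL A M)
    {X : Type} [AddCommGroup X] [Finite X] (act : GQ →* AddMonoid.End X)
    (s : X →+ JZero M) (hsσ : ∀ (σ : GQ) (x : X), s (act σ x) = σ • s x)
    (hinj : Function.Injective s) :
    ∃ H : Subalgebra (Zl ℓ) (X → Qb), FLAT.IsHopfOrder ℓ act H ∧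
      ∀ x, reductionModL A M (s x) = 0 → x ∈ conn A H := by
  have : IsAlgClosed (IsLocalRing.ResidueField A) := GalEq.isAlgClosed_residueField A
  obtain ⟨r, G, hr, B, hBfin, hB⟩ := exists_good_inertia M A hA hℓM h49
  have hrr : placeReductionModL h = r :=
    placeReduction_eq_of_good M A hA hℓM (isPlaceReductionModL_placeReductionModL h)
      h.choose_spec.2 G
  choose y hy using fun x => Pic0.mk_surjective (s x)
  obtain ⟨hS, hcomul, -, hres, 𝒢, -, hgen, heq⟩ := FFG.core G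
    {γ | ∃ σ ∈ A.inertiaSubgroupIn ℚ, γ = galM M σ}
    (by rintro _ ⟨σ, hσ, rfl⟩ P; exact hr σ hσ P)
    ⟨B, hBfin, fun Q hQ => by
      obtain ⟨T, hT, hT'⟩ := hB Q hQ
      exact ⟨T, hT, by rintro _ ⟨σ, hσ, rfl⟩; exact hT' σ hσ⟩⟩
    (fun x => (y x : Divisor Qb (modularFunctionFieldBar M))) (fun x => (y x).2)
    (fun x x' h' => hinj (by rw [← hy, ← hy, pic0_mk_eq_mk_iff]; exact h'))
    (fun x x' => by
      have h1 : Pic0.mk (y x + y x') = Pic0.mk (y (x + x')) := by
        rw [Pic0.mk_add, hy, hy, hy, map_add]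
      rw [pic0_mk_eq_mk_iff] at h1
      exact h1)
  rw [constRing_gaussData] at hS hgen hres
  obtain ⟨hH, hmem⟩ := isHopfOrderA_adjoin act _ hS hcomul 𝒢 hgen
    (fun φ hφ σ hσ x =>
      heq φ hφ (galM M σ) ⟨σ, hσ, rfl⟩ (act σ) (fun x => by
        have h1 : Pic0.mk (y (act σ x)) = Pic0.mk (SemilinearAut.degZeroSMulHom (galM M σ) (y x)) := by
          rw [hy, hsσ, ← hy x]
          rfl
        rw [pic0_mk_eq_mk_iff] at h1
        exact h1) x)
  have hs : SmoothAct act := by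
    intro x
    obtain ⟨L, hL, h'⟩ := geo_smooth M (s x)
    refine ⟨L, hL, fun σ hσ => hinj ?_⟩
    rw [hsσ]
    exact h' σ hσ
  have hHO : FLAT.IsHopfOrder ℓ act (globalPart ℓ act (hull act A (Algebra.adjoin A 𝒢)) hA) :=
    isHopfOrder_globalPart hA hs hH.hull fun _ hτ _ hf => star_mem_hull _ hτ hf
  have hprin : ∀ x, reductionModL A M (s x) = 0 →
      Divisor.IsPrincipal (Finsupp.mapDomain r (y x : Divisor Qb (modularFunctionFieldBar M))) := by
    intro x hx
    rw [← hy x, reductionModL_mk h, TorsES.mk_eq_zero_iff] at hx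
    rw [← hrr]
    exact hx
  refine ⟨_, hHO, fun x hx => ?_⟩
  rw [mem_conn_iff hA hHO]
  intro f hf
  refine (valuation_sub_lt_of_mem_hull act hH.integral {x | reductionModL A M (s x) = 0}
    (fun τ hτ x hx => ?_) (fun x hx f hf => ?_) hf.1).2 x hx
  · show reductionModL A M (s (act τ x)) = 0
    have hx' : reductionModL A M (s x) = 0 := hx
    rw [hsσ, reductionModL_smul M hℓM A hA h τ hτ, hx']
    exact map_zero (DistribSMul.toAddMonoidHom
      (JZeroC (IsLocalRing.ResidueField A) M)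
      (coeffAut (IsLocalRing.ResidueField A) M (resAut A τ hτ)))
  · refine (hres x 0).2 ?_ f ((hmem f).1 hf)
    unfold FFG.SameRed
    rw [FFG.Flip.mapDomain_sub']
    exact (Divisor.principal (K := IsLocalRing.ResidueField A)
      (F := modularFunctionFieldFullC (IsLocalRing.ResidueField A) M)).sub_mem (hprin x hx)
      (hprin 0 (by rw [map_zero, map_zero]))

/-- **[NONCONN]** : the kernel of reduction on `J₀(N)[p ^ k]`, `p ∤ N`, `p` odd, has no non zero subquotient with trivial action of inertia. -/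
theorem nonconn {N p : ℕ} [NeZero N] [Fact p.Prime] (hp2 : p ≠ 2) (hpN : ¬ p ∣ N) (k : ℕ)
    (A : ValuationSubring Qb) (hA : A.LiesOverPrime p) (Z : AddSubgroup (JZero N))
    (hZ : S33.Stable (A.inertiaSubgroupIn ℚ) Z) (hk : ∀ z ∈ Z, p ^ k • z = 0)
    (hred : ∀ z ∈ Z, redJ N p A z = 0) : Z ≤ S33.aug (A.inertiaSubgroupIn ℚ) Z := by
  have hp : p.Prime := Fact.out
  have : NeZero p := ⟨hp.ne_zero⟩
  let _ := S32.torsAction GQ (JZero N) ((p : ℤ) ^ k)
  have hfin : Finite ↥(Submodule.torsionBy ℤ (JZero N) ((p : ℤ) ^ k)) := finite_tors N p k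
  have htor : ∀ x : ↥(Submodule.torsionBy ℤ (JZero N) ((p : ℤ) ^ k)), p ^ k • (x : JZero N) = 0 :=
    fun x => nsmul_eq_zero_of_mem_tors x
  set hB := heckeInputsAlong' N (aux p) with hhB
  let ι : ↥(Submodule.torsionBy ℤ (JZero N) ((p : ℤ) ^ k)) →+ JZero N :=
    (Submodule.torsionBy ℤ (JZero N) ((p : ℤ) ^ k)).subtype.toAddMonoidHom
  have hι : ∀ x, ι x = (x : JZero N) := fun _ => rfl
  obtain ⟨H, hH, hconn⟩ := exists_isHopfOrder_conn_level (M := N * aux p)
    (not_dvd_mul_aux hp hpN)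
    ((aux_eq p).imp (fun h => by rw [h]; exact Dvd.intro_left N rfl)
      (fun h => by rw [h]; exact Dvd.intro_left N rfl)) A hA (reductionInputsModL_aux N hpN A hA)
    (DistribMulAction.toAddMonoidEnd GQ ↥(Submodule.torsionBy ℤ (JZero N) ((p : ℤ) ^ k)))
    ((Bstar N (aux p) hB).comp ι)
    (fun σ x => RED.Bstar_smul N (aux p) hB σ (x : JZero N))
    (by
      rw [injective_iff_map_eq_zero]
      intro x hx
      exact Subtype.ext (RED.Bstar_eq_zero_of_torsion N (aux p) (aux_eq p) hB (x : JZero N) (p ^ k)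
        (pow_ne_zero k hp.ne_zero) (htor x) hx))
  have hNT := S33.Ray.nt_conn hp2 hA hH (fun v => ⟨k, Subtype.ext (by simpa using htor v)⟩)
  have hιI : ∀ τ ∈ A.inertiaSubgroupIn ℚ, ∀ x, ι (τ • x) = τ • ι x := fun _ _ _ => rfl
  have h1 := hNT (Z.comap ι) (fun x hx => hconn x (hred _ hx)) (hZ.comap ι hιI)
  have h2 : (Z.comap ι).map ι = Z := by
    apply le_antisymm
    · rintro _ ⟨x, hx, rfl⟩
      exact hx
    · intro z hz
      refine ⟨⟨z, ?_⟩, hz, rfl⟩
      rw [Submodule.mem_torsionBy_iff, ← Nat.cast_pow, natCast_zsmul]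
      exact hk z hz
  have h3 := AddSubgroup.map_mono (f := ι) h1
  rw [S33.map_aug ι hιI, h2] at h3
  exact h3

end Fermat.Agent.ML.AtP
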