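import Fermat.Agent.ML.AtP.Conn
import Fermat.Agent.RED.S37.Main

/-!
# ML / AtP / ConnES : [TP-ES]  the Eichler–Shimura relation at `ℓ = p` on the inertia coinvariants of `J₀(N)[p^k]`, `p ∤ N`, `p` odd

* `redJ_inertia`, `redJ_frob`, `redJ_frob_inv`, `redJ_hecke_p` : the properties of `MAZ.redJ N p A` (from the proof of S37; none of them uses `ℓ ≠ p`).
* `redJ_es` : `redJ (T_p x - σ x - p σ⁻¹ x) = 0` for ALL `x`.
* `tp_es` : `X ≤ J₀(N)[p^k]` stable under `I_A`, `σ^{±1}`, `T_p`  ⟹  `T_p x - σ x - p σ⁻¹ x ∈ aug I_A X`.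
-/

set_option autoImplicit false
set_option synthInstance.maxHeartbeats 400000

noncomputable section

open AlgebraicCurve ModularCurve

namespace Fermat.Agent.ML.AtP

open Fermat.Agent.RED hiding GQ Kb
open Fermat.Agent.FLAT Fermat.Agent.MAZ

variable {N p : ℕ} [NeZero N] [Fact p.Prime] (hpN : ¬ p ∣ N) (A : ValuationSubring Qb)
  (hA : A.LiesOverPrime p)

include hpN hA in
theorem redJ_decomp {σ : GQ} (hσ : σ ∈ A.decompositionSubgroup ℚ) (x : JZero N) :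
    redJ N p A (σ • x) =
      coeffAut (IsLocalRing.ResidueField A) (N * aux p) (resAut A σ hσ) • redJ N p A x := by
  rw [redJ_apply, redJ_apply, Bstar_smul,
    reductionModL_smul (N * aux p) (not_dvd_mul_aux Fact.out hpN) A hA
      (reductionInputsModL_aux N hpN A hA) σ hσ]

include hpN hA in
theorem redJ_inertia {τ : GQ} (hτ : τ ∈ A.inertiaSubgroupIn ℚ) (x : JZero N) :
    redJ N p A (τ • x) = redJ N p A x := by
  obtain ⟨hτ', hrefl⟩ := resAut_eq_refl_of_mem_inertia hτ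
  rw [redJ_decomp hpN A hA hτ', hrefl, coeffAut_refl, one_smul]

include hpN hA in
theorem redJ_es {σ : GQ} (hσ : A.IsFrobeniusAt σ p) (x : JZero N) :
    redJ N p A (heckeOperatorBar N ⟨p, Fact.out⟩ x - σ • x - p • (σ⁻¹ • x)) = 0 := by
  have hp : p.Prime := Fact.out
  have hσ' : σ ∈ A.decompositionSubgroup ℚ := hσ.mem_decompositionSubgroup
  set c := coeffAut (IsLocalRing.ResidueField A) (N * aux p) (resAut A σ hσ') with hc
  have hφ : ∀ y, resAut A σ hσ' y = y ^ p := fun y => by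
    rw [resAut_apply, hσ.smul_residue_eq]
  have h1 : redJ N p A (heckeOperatorBar N ⟨p, Fact.out⟩ x) =
      c • redJ N p A x + p • (c⁻¹ • redJ N p A x) :=
    reduction_hecke hp N (aux p) (not_dvd_mul_aux hp hpN) A hA (heckeInputsAlong' N (aux p))
      (reductionInputsModL_aux N hpN A hA) (resAut A σ hσ') hφ x
  have h2 : redJ N p A (σ • x) = c • redJ N p A x := redJ_decomp hpN A hA hσ' x
  have h3 : redJ N p A (σ⁻¹ • x) = c⁻¹ • redJ N p A x := by
    have := redJ_decomp hpN A hA hσ' (σ⁻¹ • x)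
    rw [smul_inv_smul] at this
    rw [this, ← hc, inv_smul_smul]
  rw [map_sub, map_sub, map_nsmul, h1, h2, h3]
  abel

include hpN hA in
/-- **[TP-ES]** -/
theorem tp_es (hp2 : p ≠ 2) (k : ℕ) {σ : GQ} (hσ : A.IsFrobeniusAt σ p)
    (X : AddSubgroup (JZero N)) (hXI : S33.Stable (A.inertiaSubgroupIn ℚ) X)
    (hXσ : ∀ x ∈ X, σ • x ∈ X) (hXσ' : ∀ x ∈ X, σ⁻¹ • x ∈ X)
    (hXT : ∀ x ∈ X, heckeOperatorBar N ⟨p, Fact.out⟩ x ∈ X) (hk : ∀ x ∈ X, p ^ k • x = 0)
    {x : JZero N} (hx : x ∈ X) :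
    heckeOperatorBar N ⟨p, Fact.out⟩ x - σ • x - p • (σ⁻¹ • x) ∈
      S33.aug (A.inertiaSubgroupIn ℚ) X := by
  have hZ : S33.Stable (A.inertiaSubgroupIn ℚ) (X ⊓ (redJ N p A).ker) := by
    intro τ hτ z hz
    refine ⟨hXI τ hτ z hz.1, ?_⟩
    show redJ N p A (τ • z) = 0
    rw [redJ_inertia hpN A hA hτ]
    exact hz.2
  have h1 := nonconn hp2 hpN k A hA (X ⊓ (redJ N p A).ker) hZ (fun z hz => hk z hz.1)
    (fun z hz => hz.2)
  refine S33.aug_mono inf_le_left (h1 ⟨?_, redJ_es hpN A hA hσ x⟩)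
  exact X.sub_mem (X.sub_mem (hXT x hx) (hXσ x hx)) (X.nsmul_mem (hXσ' x hx) p)

end Fermat.Agent.ML.AtP
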