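import Fermat.Agent.ML.AtP.Main
import Fermat.Agent.ML.EOrd.Strict
import Fermat.Agent.ML.ESide.RE
import Fermat.Agent.ML.Rho.Bridge

/-!
# ML / AtP / EInst : case (Ma) of AT-P with the `E`-side plugged in

`W` multiplicative at the odd prime `p`, `rE = rEB B` (`B` a basis of `W[p^(k+1)]`), `X` new at `p`.
-/

set_option autoImplicit false
set_option linter.unusedSectionVars false

open IsLocalRing ModularCurve

namespace Fermat.Agent.ML.AtP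

open Fermat.Agent.S33 Fermat.Agent.S53 Fermat.Agent.SS Fermat.Agent.ML.ESide

local notation "Qbar" => AlgebraicClosure ℚ

/-- [E-ORD] in the form `StrictMod`. -/
theorem strictMod_torsW (W : WeierstrassCurve ℤ) (hΔ : W.Δ ≠ 0) {p : ℕ} (hp : p.Prime)
    (hp2 : p ≠ 2) (hirr : W.ModRepIsIrreducible p) (hpΔ : (p : ℤ) ∣ W.Δ) (hc₄ : ¬ (p : ℤ) ∣ W.c₄)
    (k : ℕ) (A : ValuationSubring Qbar) (hA : A.LiesOverPrime p) :
    StrictMod (A.decompositionSubgroup ℚ) (A.inertiaSubgroupIn ℚ) (p ^ k) (TorsW W (p ^ k)) := by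
  obtain ⟨e, he, heI, -, hs⟩ := EOrd.strict_at_p W hΔ hp hp2 hirr hpΔ hc₄ A hA
  refine ⟨e, fun s => ?_, heI, fun s₁ h₁ s₂ h₂ y a ha => ?_⟩
  · rcases he s with h | h <;> rw [h] <;> norm_num
  · exact Subtype.ext (hs k s₁ h₁ s₂ h₂ y.1 (nsmul_coe_torsW W y) a ha)

/-- `W[m]` controls `rEB B`. -/
theorem ann_torsW {W : WeierstrassCurve ℤ} {m : ℕ} (B : Module.Basis (Fin 2) (ZMod m) (TorsW W m)) :
    Ann (TorsW W m) (rEB B) := by
  intro x hx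
  apply Matrix.toLin'.injective
  refine LinearMap.ext fun v => ?_
  obtain ⟨z, rfl⟩ : ∃ z : TorsW W m, (B.repr z : Fin 2 → ZMod m) = v :=
    ⟨B.equivFun.symm v, B.equivFun.apply_symm_apply v⟩
  rw [Matrix.toLin'_apply, map_zero, LinearMap.zero_apply, ← sum_mulVec]
  have h1 : (x.sum fun σ c => c • (rEB B σ).mulVec (B.repr z)) =
      (B.repr (x.sum fun σ c => c • σ • z) : Fin 2 → ZMod m) := by
    rw [Finsupp.sum, Finsupp.sum, map_sum, Finsupp.coe_finsetSum]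
    refine Finset.sum_congr rfl fun σ _ => ?_
    rw [rEB_mulVec, map_zsmul]
    rfl
  rw [h1, hx z, map_zero]
  rfl

section Ma

variable {W : WeierstrassCurve ℤ} {M p k : ℕ} [NeZero M] [hp : Fact p.Prime] [NeZero (M * p)]
  [NeZero (p ^ (k + 1))]

/-- **case (Ma), (STRICT) over `R`** : `W` multiplicative at `p`, `X ≤ J₀(M p)[p^(k+1)]` new at `p`. -/
theorem exists_strict_Ma (hΔ : W.Δ ≠ 0) (hp2 : p ≠ 2) (hirr : W.ModRepIsIrreducible p)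
    (hpΔ : (p : ℤ) ∣ W.Δ) (hc₄ : ¬ (p : ℤ) ∣ W.c₄) (hpM : ¬ p ∣ M) (h49 : 4 ∣ M ∨ 9 ∣ M)
    (B : Module.Basis (Fin 2) (ZMod (p ^ (k + 1))) (TorsW W (p ^ (k + 1))))
    (hBc : GaloisFactorsThroughFiniteLevel (rEB B))
    {X : AddSubgroup (JZero (M * p))}
    {R : Type} [CommRing R] [IsLocalRing R] [Finite R] [Algebra (ZMod (p ^ (k + 1))) R]
    [Module R ↥X] {πE : R →ₐ[ZMod (p ^ (k + 1))] ZMod (p ^ (k + 1))} {ρ : GQ →* M2 R}
    {Φ : M2 R →ₐ[R] Module.End R ↥X} (H : Rho.IsRhoK (M * p) (p ^ (k + 1)) X (rEB B) πE ρ Φ)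
    (hX : ∀ x ∈ X, p ^ (k + 1) • x = 0 ∧ pushA M p x = 0 ∧ pushB M p x = 0)
    {P : ValuationSubring Qbar} (hP : P.LiesOverPrime p) :
    ∃ e : GQ → R, (∀ σ ∈ P.inertiaSubgroupIn ℚ, e σ = 1) ∧
      (∀ σ ∈ P.decompositionSubgroup ℚ, e σ * e σ = 1) ∧
      ∀ σ ∈ P.decompositionSubgroup ℚ, ∀ τ ∈ P.decompositionSubgroup ℚ,
        (ρ σ - ((ρ σ).det * e σ) • (1 : M2 R)) * (ρ τ - e τ • (1 : M2 R)) = 0 := by
  haveI : Finite (TorsW W (p ^ (k + 1))) := finite_torsW W (hp.out.odd_of_ne_two hp2).pow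
  exact exists_strict_of_isRhoK hp2 hpM h49 rfl H hX
    (H.rhoAct.cont (H.level (fun x hx => (hX x hx).1) hBc)) (ann_torsW B)
    (fun y => Subtype.ext (nsmul_coe_torsW W y))
    (fun A hA => strictMod_torsW W hΔ hp.out hp2 hirr hpΔ hc₄ (k + 1) A hA) hP

/-- **case (Ma), the field `atp`.** -/
theorem strictOp_Ma (hΔ : W.Δ ≠ 0) (hp2 : p ≠ 2) (hirr : W.ModRepIsIrreducible p)
    (hpΔ : (p : ℤ) ∣ W.Δ) (hc₄ : ¬ (p : ℤ) ∣ W.c₄) (hpM : ¬ p ∣ M) (h49 : 4 ∣ M ∨ 9 ∣ M)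
    (B : Module.Basis (Fin 2) (ZMod (p ^ (k + 1))) (TorsW W (p ^ (k + 1))))
    (hBc : GaloisFactorsThroughFiniteLevel (rEB B))
    {X : AddSubgroup (JZero (M * p))}
    {R : Type} [CommRing R] [IsLocalRing R] [Finite R] [Algebra (ZMod (p ^ (k + 1))) R]
    [Module R ↥X] {πE : R →ₐ[ZMod (p ^ (k + 1))] ZMod (p ^ (k + 1))} {ρ : GQ →* M2 R}
    {Φ : M2 R →ₐ[R] Module.End R ↥X} (H : Rho.IsRhoK (M * p) (p ^ (k + 1)) X (rEB B) πE ρ Φ)
    (hX : ∀ x ∈ X, p ^ (k + 1) • x = 0 ∧ pushA M p x = 0 ∧ pushB M p x = 0)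
    {kk : Type} [Field kk] [CharP kk p] (φ : R →+* DualNumber kk) :
    StrictOp p (S53.mapRep φ ρ) := by
  obtain ⟨e, he1, -, hs⟩ := exists_strict_Ma hΔ hp2 hirr hpΔ hc₄ hpM h49 B hBc H hX
    (S56.liesOverPrime_primeLocalPlace (ExtCitation.pPrime p))
  exact strictOp_mapRep φ ρ (fun σ => (ρ σ).det) e
    (fun σ _ => map_det_eq_chiK (dvd_pow_self p (Nat.succ_ne_zero k)) φ H.det σ) he1 hs

end Ma

end Fermat.Agent.ML.AtP
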