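import Fermat.Agent.ML.AtP.A2p
import Fermat.Agent.ML.Lift.Inst.Geo

/-!
# ML / AtP / EmbAll : **(EMB)** for EVERY prime `q ∤ N` (`q = p` allowed)

`Raise.emb_mem_ker` and `Lift.dnE_embE_of_hecke` have the hypothesis `q ≠ p` (they use `pushB_pullA` on `p`-power torsion).
With `pushB_pullA_all` (Atkin-Lehner swap) the hypothesis disappears: this is the form wanted by the raising step at `q = p`.
-/

set_option autoImplicit false
set_option linter.unusedSectionVars false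

noncomputable section

open AlgebraicCurve ModularCurve

namespace Fermat.Agent.ML

open Fermat.Agent.RIB Fermat.Agent.GAL Fermat.Agent.ML.TWFree Fermat.Agent.ML.Lift

variable {N q : ℕ} [NeZero N] [NeZero q]

/-- `β_* e_q v = T_q v - ε (q+1) v`, all `v`, all primes `q ∤ N`. -/
theorem pushB_emb_all (hq : q.Prime) (hqN : ¬ q ∣ N) (ε : ℤ) (v : JZero N) :
    SS.pushB N q (Raise.emb N q ε v) = heckeOperatorBar N ⟨q, hq⟩ v - (ε * ((q : ℤ) + 1)) • v := by
  have : Fact q.Prime := ⟨hq⟩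
  have h0 : SS.pushB N q (pullA N q v) = heckeOperatorBar N ⟨q, hq⟩ v := pushB_pullA_all N q hqN v
  rw [Raise.emb_apply, map_sub, map_zsmul, pushB_pullB N q hq hqN, h0]
  generalize heckeOperatorBar N ⟨q, hq⟩ v = t
  have h1 : (q + 1) • v = ((q : ℤ) + 1) • v := by
    rw [← natCast_zsmul]; push_cast; rfl
  rw [h1]
  module

/-- **(EMB)** Hecke form, `q = p` allowed : `T_q v = ε (q+1) v` ⟹ `e_q v ∈ ker Π_q`. -/
theorem emb_mem_ker_all (hq : q.Prime) (hqN : ¬ q ∣ N) {ε : ℤ} (hε : ε * ε = 1) {v : JZero N}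
    (hc : heckeOperatorBar N ⟨q, hq⟩ v = (ε * ((q : ℤ) + 1)) • v) :
    SS.pushA N q (Raise.emb N q ε v) = 0 ∧ SS.pushB N q (Raise.emb N q ε v) = 0 := by
  rw [Raise.pushA_emb hq hqN hε, pushB_emb_all hq hqN ε, hc, sub_self, smul_zero, neg_zero]
  exact ⟨rfl, rfl⟩

/-- **(G2)**, Hecke form, free levels, `q = p` allowed. -/
theorem dnE_embE_of_hecke_all {Nq : ℕ} [NeZero Nq] (hq : q.Prime) (hqN : ¬ q ∣ N) {ε : ℤ}
    (hε : ε * ε = 1) (h : Nq = N * q) {v : JZero N}
    (hc : heckeOperatorBar N ⟨q, hq⟩ v = (ε * ((q : ℤ) + 1)) • v) (k : Fin 2) :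
    dnE h k (upE h 0 v - ε • upE h 1 v) = 0 := by
  subst h
  have h1 := emb_mem_ker_all hq hqN hε hc
  fin_cases k
  · exact h1.1
  · exact h1.2

end Fermat.Agent.ML
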