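import Fermat.Agent.ML.AtP.TP.ES
import Fermat.Agent.ML.Low.Hard.Main
import Fermat.Agent.ML.Low.Rho.Main

/-!
# ML / AtP / EmbP : [P1]  `c_p v = 0  ⟹  T_p v = ε (p + 1) v`   (case (Mb), the stage `q = p`)

`p ∤ N`, `p` odd, `A ∣ p`, `s` a Frobenius lift at `A`, `d ∈ I_A`, `a₁, a_d, ε : ℤ`, `a₁, a_d ≢ 1 mod p`, `ε² = 1`,
`(rbar0 d - a_d)(rbar0 t - 1) = 0` (`t ∈ I_A`), `(rbar0 d - a_d)(rbar0 s - ε) = 0`, `rbar0 d ≠ a_d`.

* `exists_socle_sub` : abstract : a non zero `G`-stable subgroup `Y` of `V` contains a non zero `G`-stable `R`-submodule killed by `m_R`.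
* `tp_of_rel_core` : `v ∈ thetaPart N`, `(s + a₁ s⁻¹ - ε (1 + a₁)) g v = 0` for all `g`  ⟹  `T_p v = ε (p + 1) v`   (hypotheses (RHO) and spanning).
* `tp_of_rel` : the same for `C : MCtx p T θ rbar0`.
-/

set_option autoImplicit false

noncomputable section

open AlgebraicCurve ModularCurve IsLocalRing

namespace Fermat.Agent.ML.AtP

open Fermat.Agent.RIB

local notation "Qbar" => AlgebraicClosure ℚ
local notation "GQ" => (AlgebraicClosure ℚ ≃ₐ[ℚ] AlgebraicClosure ℚ)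
local notation "M₂" => Matrix (Fin 2) (Fin 2)

section Abs

variable {k R V G : Type*} [CommRing k] [CommRing R] [IsLocalRing R] [Algebra k R]
  [AddCommGroup V] [Module k V] [Module R V] [IsScalarTower k R V] [Group G]
  [DistribMulAction G V] (Φ : M₂ R →ₐ[R] Module.End R V) (ρ : G →* M₂ R)

/-- a non zero `G`-stable subgroup contains a non zero `G`-stable `R`-submodule killed by the maximal ideal. -/
theorem exists_socle_sub (hact : ∀ (g : G) (v : V), Φ (ρ g) v = g • v)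
    (hnil : IsNilpotent (maximalIdeal R))
    (htr : Algebra.adjoin k (Set.range fun g : G => (ρ g).trace) = ⊤)
    (hdet : ∀ g, ∃ c : k, (ρ g).det = algebraMap k R c)
    (Y : Submodule k V) (hYG : ∀ g : G, ∀ x ∈ Y, g • x ∈ Y) (hY : Y ≠ ⊥) :
    ∃ V' : Submodule R V, (∀ x ∈ V', x ∈ Y) ∧ V' ≠ ⊥ ∧ (∀ g : G, ∀ x ∈ V', g • x ∈ V') ∧
      ∀ t ∈ maximalIdeal R, ∀ x ∈ V', t • x = 0 := by
  have hR : ∀ r : R, ∀ x ∈ Y, r • x ∈ Y := by
    intro r
    have hr : r ∈ Algebra.adjoin k (Set.range fun g : G => (ρ g).trace) := by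
      rw [htr]; exact Algebra.mem_top
    induction hr using Algebra.adjoin_induction with
    | mem a ha =>
      obtain ⟨g, rfl⟩ := ha
      obtain ⟨c, hc⟩ := hdet g
      intro x hx
      show (ρ g).trace • x ∈ Y
      rw [Hard.trace_smul_eq Φ ρ hact, hc, algebraMap_smul]
      exact Y.add_mem (hYG g x hx) (Y.smul_mem c (hYG g⁻¹ x hx))
    | algebraMap c =>
      intro x hx
      rw [algebraMap_smul]
      exact Y.smul_mem c hx
    | add a b _ _ ha hb =>
      intro x hx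
      rw [add_smul]
      exact Y.add_mem (ha x hx) (hb x hx)
    | mul a b _ _ ha hb =>
      intro x hx
      rw [mul_smul]
      exact ha _ (hb x hx)
  let Ys : Submodule R V :=
    { carrier := Y
      add_mem' := Y.add_mem
      zero_mem' := Y.zero_mem
      smul_mem' := hR }
  let V' : Submodule R V :=
    { carrier := {x | x ∈ Y ∧ ∀ t ∈ maximalIdeal R, t • x = 0}
      add_mem' := fun {a b} ha hb => ⟨Y.add_mem ha.1 hb.1, fun t ht => by
        rw [smul_add, ha.2 t ht, hb.2 t ht, add_zero]⟩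
      zero_mem' := ⟨Y.zero_mem, fun t _ => smul_zero t⟩
      smul_mem' := fun r x hx => ⟨hR r x hx.1, fun t ht => by
        rw [smul_comm, hx.2 t ht, smul_zero]⟩ }
  obtain ⟨x0, hx0, hx0ne⟩ := Submodule.exists_mem_ne_zero_of_ne_bot hY
  obtain ⟨z, hz, hzm⟩ := Hard.exists_socle (V := ↥Ys) (maximalIdeal R) hnil
    ⟨⟨x0, hx0⟩, fun h => hx0ne (congrArg Subtype.val h)⟩
  refine ⟨V', fun x hx => hx.1, ?_, fun g x hx => ⟨hYG g x hx.1, fun t ht => ?_⟩,
    fun t ht x hx => hx.2 t ht⟩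
  · intro hbot
    have h1 : (z : V) ∈ V' := ⟨z.2, fun t ht => congrArg Subtype.val (hzm t ht)⟩
    rw [hbot, Submodule.mem_bot] at h1
    exact hz (Subtype.ext h1)
  · rw [← hact, ← map_smul, hx.2 t ht, map_zero]

omit [IsLocalRing R] in
/-- a `G`-stable submodule is stable under `Φ (M₂ R)`. -/
theorem phi_mem_of_stable (hact : ∀ (g : G) (v : V), Φ (ρ g) v = g • v)
    (hspan : Algebra.adjoin R (Set.range ρ) = ⊤) (V' : Submodule R V)
    (hG : ∀ g : G, ∀ x ∈ V', g • x ∈ V') (X : M₂ R) : ∀ y ∈ V', Φ X y ∈ V' := by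
  have hX : X ∈ Algebra.adjoin R (Set.range ρ) := hspan ▸ Algebra.mem_top
  induction hX using Algebra.adjoin_induction with
  | mem x hx =>
    obtain ⟨g, rfl⟩ := hx
    intro y hy
    rw [hact]
    exact hG g y hy
  | algebraMap r =>
    intro y hy
    rw [AlgHom.commutes]
    exact V'.smul_mem r hy
  | add a b _ _ ha hb =>
    intro y hy
    rw [map_add]
    exact V'.add_mem (ha y hy) (hb y hy)
  | mul a b _ _ ha hb =>
    intro y hy
    rw [map_mul]
    exact ha _ (hb y hy)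

end Abs

section Aux

variable {M : Type*} [AddCommGroup M]

theorem embP_add (c₁ c₂ : ℤ) {u₁ u₂ w₁ w₂ z₁ z₂ : M} (h₁ : u₁ + c₁ • w₁ = c₂ • z₁)
    (h₂ : u₂ + c₁ • w₂ = c₂ • z₂) : (u₁ + u₂) + c₁ • (w₁ + w₂) = c₂ • (z₁ + z₂) := by
  linear_combination (norm := module) h₁ + h₂

theorem embP_neg (c₁ c₂ : ℤ) {u w z : M} (h : u + c₁ • w = c₂ • z) :
    -u + c₁ • (-w) = c₂ • (-z) := by
  linear_combination (norm := module) -h

theorem embP_quad {a e : ℤ} (he : e * e = 1) {x y z : M} (h : z + a • x = (e * (1 + a)) • y) :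
    z - e • y = (e * a) • (y - e • x) := by
  have h2 : e * a * e = a := by linear_combination a * he
  have h3 : (e * a) • (y - e • x) = (e * a) • y - a • x := by
    rw [smul_sub, smul_smul, h2]
  rw [h3]
  linear_combination (norm := module) h

theorem embP_dec {e : ℤ} (he : e * e = 1) (p : ℕ) (t y y' x : M) :
    t - (e * ((p : ℤ) + 1)) • x =
      (t - y - p • y') + ((y - ((p : ℤ) * e) • x) - e • (x - ((p : ℤ) * e) • y')) := by
  have h2 : e * ((p : ℤ) * e) = p := by linear_combination (p : ℤ) * he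
  have h3 : e • (x - ((p : ℤ) * e) • y') = e • x - (p : ℤ) • y' := by
    rw [smul_sub, smul_smul, h2]
  rw [h3]
  module

theorem embP_cancel (c : ℤ) (u k w : M) : u + c • w - c • (k + w) = u - c • k := by
  module

theorem embP_red (ad e a : ℤ) {x y : M} (h₁ : y - e • x = ad • (y - e • x))
    (h₂ : y - (e * a) • x = 0) : ((1 - ad) * (e * a - e)) • x = 0 := by
  linear_combination (norm := module) h₁ - (1 - ad) • h₂

theorem embP_exists_ptors (p : ℕ) (Y : AddSubgroup M) {y : M} (hy : y ∈ Y) (hy0 : y ≠ 0)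
    (hex : ∃ n : ℕ, p ^ n • y = 0) : ∃ z ∈ Y, z ≠ 0 ∧ p • z = 0 := by
  classical
  have hmin := fun j hj => Nat.find_min hex (m := j) hj
  have hspec := Nat.find_spec hex
  set n := Nat.find hex
  have hn0 : n ≠ 0 := by
    intro h0
    rw [h0, pow_zero, one_smul] at hspec
    exact hy0 hspec
  obtain ⟨m, hm⟩ := Nat.exists_eq_succ_of_ne_zero hn0
  refine ⟨p ^ m • y, Y.nsmul_mem hy _, hmin m (by omega), ?_⟩
  rw [smul_smul, ← pow_succ', ← Nat.succ_eq_add_one, ← hm]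
  exact hspec

theorem embP_coprime (p : ℕ) [hp : Fact p.Prime] {c : ℤ} (hc : (c : ZMod p) ≠ 0) {y : M}
    (h₁ : c • y = 0) (h₂ : p • y = 0) : y = 0 := by
  have hcop : IsCoprime (p : ℤ) c :=
    (Nat.prime_iff_prime_int.1 hp.out).coprime_iff_not_dvd.2 fun h =>
      hc ((ZMod.intCast_zmod_eq_zero_iff_dvd c p).2 h)
  obtain ⟨a, b, hab⟩ := hcop
  have h3 : (p : ℤ) • y = 0 := by rw [natCast_zsmul, h₂]
  calc y = (a * (p : ℤ) + b * c) • y := by rw [hab, one_smul]
    _ = a • ((p : ℤ) • y) + b • (c • y) := by rw [add_smul, mul_smul, mul_smul]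
    _ = 0 := by rw [h3, h₁, smul_zero, smul_zero, add_zero]

end Aux

open Fermat.Agent.MAZ (redJ)

variable {N p : ℕ} [NeZero N] [hp : Fact p.Prime]

/-- **[P1]**, on (RHO) and the spanning of `rbar0`. -/
theorem tp_of_rel_core (hp2 : p ≠ 2) (hpN : ¬ p ∣ N) (S : Set ℕ) (θ : ℕ → ℤ)
    (rbar0 : GQ →* M₂ (ZMod p)) (hρ : WS N p S θ ≠ ⊥ → RhoOut N p S θ rbar0)
    (hadj : Algebra.adjoin (ZMod p) (Set.range rbar0) = ⊤)
    (A : ValuationSubring Qbar) (hA : A.LiesOverPrime p) {s d : GQ}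
    (hs : A.IsFrobeniusAt s p) (hd : d ∈ A.inertiaSubgroupIn ℚ) (a1 ad eps : ℤ)
    (ha1 : (a1 : ZMod p) ≠ 1) (had : (ad : ZMod p) ≠ 1) (heps : eps * eps = 1)
    (hne : rbar0 d ≠ (ad : ZMod p) • (1 : M₂ (ZMod p)))
    (hI : ∀ t ∈ A.inertiaSubgroupIn ℚ,
      (rbar0 d - (ad : ZMod p) • (1 : M₂ (ZMod p))) * (rbar0 t - 1) = 0)
    (hS1 : (rbar0 d - (ad : ZMod p) • (1 : M₂ (ZMod p))) *
      (rbar0 s - (eps : ZMod p) • (1 : M₂ (ZMod p))) = 0)
    {v : JZero N} (hv : v ∈ thetaPart N p S θ)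
    (hc : ∀ g : GQ, s • g • v + a1 • s⁻¹ • g • v = (eps * (1 + a1)) • g • v) :
    heckeOperatorBar N ⟨p, hp.out⟩ v = (eps * ((p : ℤ) + 1)) • v := by
  classical
  have hpp : p.Prime := hp.out
  have : NeZero p := ⟨hpp.ne_zero⟩
  set Tp := heckeOperatorBar N ⟨p, hp.out⟩ with hTp
  have hTg : ∀ (g : GQ) (y : JZero N), g • Tp y = Tp (g • y) := fun g y =>
    (GAL.HeckeGalois.heckeOperatorBar_smul N g _ y).symm
  have hgz : ∀ (g : GQ) (c : ℤ) (x : JZero N), g • (c • x) = c • (g • x) := fun g c x =>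
    map_zsmul (DistribSMul.toAddMonoidHom (JZero N) g) c x
  -- the subgroup `X`
  let X : AddSubgroup (JZero N) :=
    { carrier := {x | x ∈ thetaPart N p S θ ∧
        ∀ g : GQ, s • g • x + a1 • s⁻¹ • g • x = (eps * (1 + a1)) • g • x}
      zero_mem' := ⟨(thetaPart N p S θ).zero_mem, fun g => by simp⟩
      add_mem' := fun {a b} ha hb => ⟨(thetaPart N p S θ).add_mem ha.1 hb.1, fun g => by
        simp only [smul_add]
        exact embP_add _ _ (ha.2 g) (hb.2 g)⟩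
      neg_mem' := fun {a} ha => ⟨(thetaPart N p S θ).neg_mem ha.1, fun g => by
        simp only [smul_neg]
        exact embP_neg _ _ (ha.2 g)⟩ }
  have hvX : v ∈ X := ⟨hv, hc⟩
  have hXG : ∀ (g : GQ), ∀ x ∈ X, g • x ∈ X := fun g x hx =>
    ⟨smul_mem_thetaPart g hx.1, fun g' => by
      have := hx.2 (g' * g)
      simpa only [mul_smul] using this⟩
  have hXT : ∀ x ∈ X, Tp x ∈ X := fun x hx =>
    ⟨hecke_mem_thetaPart _ hx.1, fun g => by
      simp only [hTg]
      rw [← map_zsmul, ← map_zsmul, ← map_add, hx.2 g]⟩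
  -- `(s - ε a₁)(s - ε) = 0` on `X`
  have hquad : ∀ x ∈ X, s • (s • x - eps • x) = (eps * a1) • (s • x - eps • x) := by
    intro x hx
    have h1 := hx.2 s
    rw [inv_smul_smul] at h1
    rw [smul_sub, hgz]
    exact embP_quad heps h1
  -- `t = T_p - ε (p + 1)`
  let tH : JZero N →+ JZero N :=
    Tp.toAddMonoidHom - (eps * ((p : ℤ) + 1)) • AddMonoidHom.id _
  have htH : ∀ x, tH x = Tp x - (eps * ((p : ℤ) + 1)) • x := fun _ => rfl
  have htX : ∀ x ∈ X, tH x ∈ X := fun x hx => X.sub_mem (hXT x hx) (X.zsmul_mem hx _)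
  have htg : ∀ (g : GQ) x, g • tH x = tH (g • x) := fun g x => by
    rw [htH, htH, smul_sub, hTg, hgz]
  have hred : ∀ x ∈ X, redJ N p A (s • tH x - (eps * a1) • tH x) = 0 := by
    intro x hx
    set x' : JZero N := x - ((p : ℤ) * eps) • s⁻¹ • x with hx'
    have hx'X : x' ∈ X := X.sub_mem hx (X.zsmul_mem (hXG s⁻¹ x hx) _)
    have hsx' : s • x' = s • x - ((p : ℤ) * eps) • x := by
      rw [hx', smul_sub, hgz, smul_inv_smul]
    set k : JZero N := Tp x - s • x - p • (s⁻¹ • x) with hk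
    have hk0 : redJ N p A k = 0 := TP.redJ_es hpp hpN A hA hs x
    have hdec : tH x = k + (s • x' - eps • x') := by
      rw [htH, hsx', hx', hk]
      exact embP_dec heps p _ _ _ _
    have h1 : s • tH x - (eps * a1) • tH x = s • k - (eps * a1) • k := by
      rw [hdec, smul_add, hquad x' hx'X]
      exact embP_cancel _ _ _ _
    have hf0 := TP.redJ_frob hpp hpN A hA hs (0 : JZero N)
    have e0 : s • (0 : JZero N) = 0 := map_zero (DistribSMul.toAddMonoidHom (JZero N) s)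
    rw [e0, map_zero] at hf0
    rw [h1, map_sub, map_zsmul, TP.redJ_frob hpp hpN A hA hs, hk0, ← hf0, smul_zero, sub_zero]
  by_contra hcon
  have hy0 : tH v ≠ 0 := fun h => hcon (sub_eq_zero.1 (by rw [← htH]; exact h))
  -- `Y = t X`
  let Y : AddSubgroup (JZero N) := X.map tH
  have hYX : ∀ y ∈ Y, y ∈ X := by
    rintro _ ⟨x, hx, rfl⟩
    exact htX x hx
  have hYG : ∀ (g : GQ), ∀ y ∈ Y, g • y ∈ Y := by
    rintro g _ ⟨x, hx, rfl⟩
    exact ⟨g • x, hXG g x hx, (htg g x).symm⟩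
  have hYred : ∀ y ∈ Y, redJ N p A (s • y - (eps * a1) • y) = 0 := by
    rintro _ ⟨x, hx, rfl⟩
    exact hred x hx
  obtain ⟨y1, hy1Y, hy1ne, hy1p⟩ := embP_exists_ptors p Y (y := tH v) ⟨v, hvX, rfl⟩ hy0
    (mem_thetaPart.1 (htX v hvX).1).1
  have hy1W : y1 ∈ WS N p S θ := ⟨(hYX y1 hy1Y).1, hy1p⟩
  have hW : WS N p S θ ≠ ⊥ := fun h => hy1ne (by
    rw [h] at hy1W
    exact AddSubgroup.mem_bot.1 hy1W)
  obtain ⟨R, _, _, _, _, _, π0, ρ, Φ, H⟩ := hρ hW
  have := Hard.finite_of_isRho H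
  have hnil : IsNilpotent (maximalIdeal R) := by
    have := IsArtinianRing.isNilpotent_jacobson_bot (R := R)
    rwa [IsLocalRing.jacobson_eq_maximalIdeal ⊥ bot_ne_top] at this
  have hkerπ : RingHom.ker (π0 : R →+* ZMod p) = maximalIdeal R :=
    IsLocalRing.eq_maximalIdeal (RingHom.ker_isMaximal_of_surjective _ (Hard.pi0_surjective π0))
  have hspan : Algebra.adjoin R (Set.range ρ) = ⊤ :=
    Hard.adjoin_range_eq_top_of_residual (π0 : R →+* ZMod p) (Hard.pi0_surjective π0)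
      (Hard.mem_maximalIdeal_of_pi0 π0) ρ rbar0 H.lift hadj
  let Y0 : Submodule (ZMod p) ↥(WS N p S θ) :=
    AddSubgroup.toZModSubmodule p (Y.comap (WS N p S θ).subtype)
  obtain ⟨V', hV'Y, hV'ne, hV'G, hV'm⟩ := exists_socle_sub Φ ρ H.act hnil H.tr
    (fun g => ⟨_, H.det g⟩) Y0 (fun g w hw => hYG g _ hw)
    (fun h => hy1ne (by
      have h1 : (⟨y1, hy1W⟩ : ↥(WS N p S θ)) ∈ Y0 := hy1Y
      rw [h, Submodule.mem_bot] at h1
      exact congrArg Subtype.val h1))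
  have hent : ∀ Z : M₂ R, Z.map π0 = 0 → ∀ x ∈ V', Φ Z x = 0 := by
    intro Z hZ x hx
    refine map_apply_eq_zero_of_entries Φ Z fun i j => hV'm _ ?_ x hx
    rw [← hkerπ]
    exact (by simpa using congrFun (congrFun hZ i) j : π0 (Z i j) = 0)
  have hΦ : ∀ (g : GQ) (c : ℤ) (w : ↥(WS N p S θ)),
      Φ (ρ g - (c : R) • (1 : M₂ R)) w = g • w - c • w := by
    intro g c w
    rw [map_sub, map_smul, map_one, LinearMap.sub_apply, H.act, LinearMap.smul_apply,
      Module.End.one_apply, Int.cast_smul_eq_zsmul]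
  have hmapc : ∀ (g : GQ) (c : ℤ), (ρ g - (c : R) • (1 : M₂ R)).map π0 =
      rbar0 g - (c : ZMod p) • (1 : M₂ (ZMod p)) := by
    intro g c
    rw [Matrix.map_sub (f := π0) (by intro a b; exact map_sub π0 a b), H.lift]
    congr 1
    ext a b
    simp [Matrix.one_apply, apply_ite π0]
  have hmapmul : ∀ X Y : M₂ R, (X * Y).map π0 = X.map π0 * Y.map π0 := fun X Y =>
    Matrix.map_mul (f := (π0 : R →+* ZMod p))
  have hop : ∀ (g : GQ) (c : ℤ), (rbar0 d - (ad : ZMod p) • (1 : M₂ (ZMod p))) *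
      (rbar0 g - (c : ZMod p) • (1 : M₂ (ZMod p))) = 0 →
      ∀ x ∈ V', d • (g • x - c • x) = ad • (g • x - c • x) := by
    intro g c h x hx
    have h1 := hent ((ρ d - (ad : R) • (1 : M₂ R)) * (ρ g - (c : R) • (1 : M₂ R)))
      (by rw [hmapmul, hmapc, hmapc, h]) x hx
    rw [map_mul, Module.End.mul_apply, hΦ, hΦ] at h1
    exact sub_eq_zero.1 h1
  -- `V'` is in the kernel of the reduction
  have hV'red : ∀ x ∈ V', redJ N p A (x : JZero N) = 0 := by
    intro x hx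
    have h1 : d • (s • (x : JZero N) - eps • (x : JZero N)) =
        ad • (s • (x : JZero N) - eps • (x : JZero N)) :=
      congrArg Subtype.val (hop s eps hS1 x hx)
    have h2 := hYred (x : JZero N) (hV'Y x hx)
    have h3 := congrArg (redJ N p A) h1
    rw [TP.redJ_inertia hpp hpN A hA hd, map_zsmul, map_sub, map_zsmul] at h3
    rw [map_sub, map_zsmul] at h2
    have h4 := embP_red ad eps a1 h3 h2
    refine embP_coprime p ?_ h4 (by rw [← map_nsmul, x.2.2, map_zero])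
    have he : (eps : ZMod p) ≠ 0 := by
      intro h0
      have : ((eps * eps : ℤ) : ZMod p) = 1 := by rw [heps, Int.cast_one]
      rw [Int.cast_mul, h0, mul_zero] at this
      exact zero_ne_one this
    have e : (((1 - ad) * (eps * a1 - eps) : ℤ) : ZMod p) =
        (1 - (ad : ZMod p)) * ((eps : ZMod p) * ((a1 : ZMod p) - 1)) := by
      push_cast
      ring
    rw [e]
    exact mul_ne_zero (sub_ne_zero.2 had.symm) (mul_ne_zero he (sub_ne_zero.2 ha1))
  -- [NONCONN]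
  let Z : AddSubgroup (JZero N) := V'.toAddSubgroup.map (WS N p S θ).subtype
  have hZst : S33.Stable (A.inertiaSubgroupIn ℚ) Z := by
    rintro τ _ _ ⟨x, hx, rfl⟩
    exact ⟨τ • x, hV'G τ x hx, rfl⟩
  have hZaug := TP.nonConn hpp hp2 hpN A hA 1 Z hZst (by
    rintro _ ⟨x, hx, rfl⟩
    exact ⟨by rw [pow_one]; exact x.2.2, hV'red x hx⟩)
  have haug : ∀ z ∈ S33.aug (A.inertiaSubgroupIn ℚ) Z, d • z = ad • z := by
    intro z hz
    induction hz using AddSubgroup.closure_induction with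
    | mem w hw =>
      obtain ⟨τ, hτ, z, ⟨x, hx, rfl⟩, rfl⟩ := hw
      have h1 : d • (τ • (x : JZero N) - (1 : ℤ) • (x : JZero N)) =
          ad • (τ • (x : JZero N) - (1 : ℤ) • (x : JZero N)) :=
        congrArg Subtype.val (hop τ 1 (by simpa using hI τ hτ) x hx)
      rw [one_zsmul] at h1
      exact h1
    | zero =>
      rw [zsmul_zero]
      exact map_zero (DistribSMul.toAddMonoidHom (JZero N) d)
    | add a b _ _ ha hb => rw [smul_add, ha, hb, zsmul_add]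
    | neg a _ ha => rw [smul_neg, ha, zsmul_neg]
  have hkill : ∀ x ∈ V', Φ (ρ d - (ad : R) • (1 : M₂ R)) x = 0 := by
    intro x hx
    rw [hΦ, sub_eq_zero]
    exact Subtype.ext (haug _ (hZaug _ ⟨x, hx, rfl⟩))
  obtain ⟨i, j, hij⟩ : ∃ i j, (rbar0 d - (ad : ZMod p) • (1 : M₂ (ZMod p))) i j ≠ 0 := by
    by_contra hcon2
    push Not at hcon2
    exact hne (sub_eq_zero.1 (by ext i j; exact hcon2 i j))
  have hu : IsUnit ((ρ d - (ad : R) • (1 : M₂ R)) i j) := by
    by_contra hnu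
    have h1 : (ρ d - (ad : R) • (1 : M₂ R)) i j ∈ maximalIdeal R := (mem_maximalIdeal _).2 hnu
    rw [← hkerπ] at h1
    apply hij
    rw [← hmapc]
    exact h1
  apply hV'ne
  rw [Submodule.eq_bot_iff]
  intro x hx
  have h1 := entry_smul_eq_zero Φ V' (phi_mem_of_stable Φ ρ H.act hspan V' hV'G) _ hkill i j hx
  obtain ⟨w, hw⟩ := hu.exists_left_inv
  calc x = (1 : R) • x := (one_smul R x).symm
    _ = w • ((ρ d - (ad : R) • (1 : M₂ R)) i j • x) := by rw [← hw, mul_smul]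
    _ = 0 := by rw [h1]; exact smul_zero w

/-- **[P1]** for `C : MCtx p T θ rbar0`. -/
theorem tp_of_rel {T : Finset ℕ} {θ : ℕ → ℤ} {rbar0 : GQ →* M₂ (ZMod p)}
    (C : MCtx p T θ rbar0) (S : Finset ℕ) (hTS : T ⊆ S)
    (hS : ∀ r : ℕ, r.Prime → r ∣ N * p → r ∈ S) (hpN : ¬ p ∣ N)
    (A : ValuationSubring Qbar) (hA : A.LiesOverPrime p) {s d : GQ}
    (hs : A.IsFrobeniusAt s p) (hd : d ∈ A.inertiaSubgroupIn ℚ) (a1 ad eps : ℤ)
    (ha1 : (a1 : ZMod p) ≠ 1) (had : (ad : ZMod p) ≠ 1) (heps : eps * eps = 1)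
    (hdet : (rbar0 d).det = (ad : ZMod p))
    (hI : ∀ t ∈ A.inertiaSubgroupIn ℚ,
      (rbar0 d - (ad : ZMod p) • (1 : M₂ (ZMod p))) * (rbar0 t - 1) = 0)
    (hS1 : (rbar0 d - (ad : ZMod p) • (1 : M₂ (ZMod p))) *
      (rbar0 s - (eps : ZMod p) • (1 : M₂ (ZMod p))) = 0)
    {v : JZero N} (hv : v ∈ thetaPart N p (↑S : Set ℕ) θ)
    (hc : ∀ g : GQ, s • g • v + a1 • s⁻¹ • g • v = (eps * (1 + a1)) • g • v) :
    heckeOperatorBar N ⟨p, hp.out⟩ v = (eps * ((p : ℤ) + 1)) • v := by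
  refine tp_of_rel_core C.hp2 hpN (↑S : Set ℕ) θ rbar0 (fun hW => Low.rhoOut C S hTS N hS hW)
    (Low.adjoin_range_rbar0 C) A hA hs hd a1 ad eps ha1 had heps ?_ hI hS1 hv hc
  intro h
  have h1 : (rbar0 d).det = (ad : ZMod p) * (ad : ZMod p) := by
    rw [h, Matrix.det_smul, Matrix.det_one, Fintype.card_fin, mul_one, pow_two]
  have h2 : (ad : ZMod p) * ((ad : ZMod p) - 1) = 0 := by
    rw [mul_sub, mul_one, ← h1, hdet, sub_self]
  have h3 : (ad : ZMod p) = 0 := (mul_eq_zero.1 h2).resolve_right (sub_ne_zero.2 had)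
  have h4 := C.det d
  rw [hdet, h3] at h4
  exact (Units.ne_zero _) h4.symm

end Fermat.Agent.ML.AtP
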