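import Fermat.Agent.S56.Flat.Ord.Main

/-!
# ML / AtP / GenFS : the local condition "FLAT and CONSTANT TRACE OF A FROBENIUS LIFT" at `p`  (saving `1`)

Case (Mb) of AT-P (`p` is the last raising prime): at the stages of level prime to `p` the representation is flat and
ordinary at `p`, `ρ|_{D_p} = (χ ψ⁻¹, *; 0, ψ)`, and the ideal `J` contains `c_p` (equivalently `ψ(σ₁) - ε`, equivalently
`tr ρ(σ₁) - ε (χ(σ₁) + 1)`).  A tangent vector which kills `J` is a flat lift `r₁` of `rbar` such that `tr r₁(σ₁)` is constant.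

`exists_flat_tr_condition` : `∃ L`, `B¹ ≤ L ≤ Z¹`, `#L ≤ #k³`, containing the cocycles of these lifts.

Port of `S56/Flat/Ord/Z.lean`: `ZordF` = (unramified diagonal direction `c(Φ)₀₀`: a factor `#k`) × (`Peu` cocycles: `≤ #k²`);
`tr (c(σ₁) rbar(σ₁)) = c(σ₁)₀₀ (x - z)` kills the first factor.
-/

set_option autoImplicit false
set_option linter.unusedSectionVars false

open ExtCitation

namespace Fermat.Agent.ML

open Fermat.Agent.S56 Fermat.Agent.S56.Flat Fermat.Agent.S56.Font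
open CFT (levS levAll decomp Z1 B1 Qb d01)

variable {p : ℕ} [Fact p.Prime] {k : Type} [Field k] {ζ : Qb}

/-- the flat-ordinary cocycles in upper triangular form with zero diagonal -/
noncomputable def ZordFS (rbar : GQ →* M2 k) (ζ : Qb) (hζ : ζ ^ p = 1) :
    Submodule k (↥(Dp p) → sl2 k) where
  carrier := {c | c ∈ ZordF rbar ζ hζ ∧ ∀ σ, ((c σ : sl2 k) : M2 k) 0 0 = 0}
  add_mem' := by
    rintro a b ⟨ha1, ha2⟩ ⟨hb1, hb2⟩
    exact ⟨add_mem ha1 hb1, fun σ => by simp [ha2 σ, hb2 σ]⟩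
  zero_mem' := ⟨zero_mem _, fun σ => by simp⟩
  smul_mem' := by
    rintro t a ⟨ha1, ha2⟩
    exact ⟨Submodule.smul_mem _ t ha1, fun σ => by simp [ha2 σ]⟩

variable {rbar : GQ →* M2 k} [Finite k] [CharP k p]

/-- `#ZordFS ≤ #k²` -/
theorem card_ZordFS_le (hp2 : p ≠ 2) (hζ1 : ζ ≠ 1) (hζ : ζ ^ p = 1) (rbar : GQ →* M2 k)
    (hdet : ∀ σ, (rbar σ).det = (chiK p k σ : k)) (hUT : IsUT p rbar) :
    Finite ↥(ZordFS rbar ζ hζ) ∧ Nat.card ↥(ZordFS rbar ζ hζ) ≤ Nat.card k ^ 2 := by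
  obtain ⟨hUfin, hUcard⟩ := card_USet_le hp2 hζ1 hζ hUT.psi (hUT.psi_eq_chi hdet)
  let T : ↥(ZordFS rbar ζ hζ) → USet hUT.psi ζ := fun c =>
    ⟨fun σ => ((c.1 σ : sl2 k) : M2 k) 0 1, fun g h => by
      obtain ⟨z', -, -, h2⟩ := ZordF.coc c.2.1 hUT g h
      rw [c.2.2 h] at h2
      show ((c.1 (g * h) : sl2 k) : M2 k) 0 1 = ((c.1 g : sl2 k) : M2 k) 0 1 +
        (hUT.psi g : k) * ((c.1 h : sl2 k) : M2 k) 0 1
      rw [h2]
      ring, c.2.1.2.2.2⟩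
  have hT : Function.Injective T := by
    intro c c' h
    apply Subtype.ext
    funext σ
    apply Subtype.ext
    have h1 : ((c.1 σ : sl2 k) : M2 k) 0 1 = ((c'.1 σ : sl2 k) : M2 k) 0 1 :=
      congrFun (congrArg Subtype.val h) σ
    rw [sl2_form _ (c.2.1.2.1 σ), sl2_form _ (c'.2.1.2.1 σ), c.2.2 σ, c'.2.2 σ, h1]
  exact ⟨Finite.of_injective T hT, (Nat.card_le_card_of_injective T hT).trans hUcard⟩

omit [Finite k] in
lemma d01_mem_ZordFS (hζ : ζ ^ p = 1)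
    (hB : B1loc (adRep rbar) (pPrime p) ≤ Z1loc (adRep rbar) (pPrime p))
    (hdet : ∀ σ, (rbar σ).det = (chiK p k σ : k)) (hUT : IsUT p rbar)
    (hb : Peu ζ (fun σ : ↥(Dp p) => rbar σ 0 1)) (w : sl2 k) (hw : (w : M2 k) 1 0 = 0) :
    CFT.d01 (locRep (adRep rbar) (pPrime p)) w ∈ ZordFS rbar ζ hζ := by
  refine ⟨d01_mem_ZordF hζ hB hdet hUT hb w hw, fun σ => ?_⟩
  have hcoe : ((CFT.d01 (locRep (adRep rbar) (pPrime p)) w σ : sl2 k) : M2 k) =
      ((adRep rbar σ w : sl2 k) : M2 k) - (w : M2 k) := rfl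
  obtain ⟨z', -, h2⟩ := hUT.ad_coe σ w hw
  rw [hcoe, h2, Matrix.sub_apply]
  simp

/-- `#(ZordFS ⊔ B¹) ≤ #k³` -/
theorem card_ZordFS_sup_le (hp2 : p ≠ 2) (hζ1 : ζ ≠ 1) (hζ : ζ ^ p = 1) (rbar : GQ →* M2 k)
    (hcont : GaloisFactorsThroughFiniteLevel rbar)
    (hdet : ∀ σ, (rbar σ).det = (chiK p k σ : k)) (hUT : IsUT p rbar)
    (hb : Peu ζ (fun σ : ↥(Dp p) => rbar σ 0 1)) :
    Finite ↥(ZordFS rbar ζ hζ ⊔ B1loc (adRep rbar) (pPrime p)) ∧
      Nat.card ↥(ZordFS rbar ζ hζ ⊔ B1loc (adRep rbar) (pPrime p)) ≤ Nat.card k ^ 3 := by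
  have hB : B1loc (adRep rbar) (pPrime p) ≤ Z1loc (adRep rbar) (pPrime p) :=
    B1loc_le_Z1loc _ (isSmooth_adRep rbar hcont) _
  obtain ⟨hZfin, hZcard⟩ := card_ZordFS_le hp2 hζ1 hζ rbar hdet hUT
  set ZZ := ZordFS rbar ζ hζ with hZZ
  let F : ZZ × k → ↥(ZZ ⊔ B1loc (adRep rbar) (pPrime p)) := fun x =>
    ⟨(x.1 : ↥(Dp p) → sl2 k) + x.2 • CFT.d01 (locRep (adRep rbar) (pPrime p)) (e21 k),
      Submodule.add_mem _ (Submodule.mem_sup_left x.1.2)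
        (Submodule.smul_mem _ _ (Submodule.mem_sup_right ⟨_, rfl⟩))⟩
  have hF : Function.Surjective F := by
    rintro ⟨y, hy⟩
    obtain ⟨c, hc, b, ⟨w, rfl⟩, rfl⟩ := Submodule.mem_sup.1 hy
    set s : k := (w : M2 k) 1 0 with hs
    have hw1 : ((w - s • e21 k : sl2 k) : M2 k) 1 0 = 0 := by
      have : ((w - s • e21 k : sl2 k) : M2 k) = (w : M2 k) - s • !![0, 0; 1, 0] := rfl
      rw [this]
      simp [hs]
    have hmem : CFT.d01 (locRep (adRep rbar) (pPrime p)) (w - s • e21 k) ∈ ZZ :=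
      d01_mem_ZordFS hζ hB hdet hUT hb _ hw1
    refine ⟨(⟨c + CFT.d01 (locRep (adRep rbar) (pPrime p)) (w - s • e21 k),
      ZZ.add_mem hc hmem⟩, s), ?_⟩
    apply Subtype.ext
    show c + CFT.d01 (locRep (adRep rbar) (pPrime p)) (w - s • e21 k) +
      s • CFT.d01 (locRep (adRep rbar) (pPrime p)) (e21 k)
        = c + CFT.d01 (locRep (adRep rbar) (pPrime p)) w
    rw [map_sub, map_smul]
    abel
  refine ⟨Finite.of_surjective F hF, (Nat.card_le_card_of_surjective F hF).trans ?_⟩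
  rw [Nat.card_prod, pow_succ]
  exact Nat.mul_le_mul_right _ hZcard

/-- a flat lift of an ordinary `rbar`: its cocycle is in `ZordF` up to a coboundary (extracted from
`S56.Flat.flatTanM_of_isUT`). -/
theorem exists_sub_d01_mem_ZordF (hp2 : p ≠ 2) (h2 : (2 : k) ≠ 0) (rbar : GQ →* M2 k)
    (hcont : GaloisFactorsThroughFiniteLevel rbar)
    (hdet : ∀ σ, (rbar σ).det = (chiK p k σ : k)) (hUT : IsUT p rbar) (hζ : ζ ^ p = 1)
    {r₁ : GQ →* M2 (DualNumber k)} (h : FlatLift p rbar r₁) :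
    ∃ m : sl2 k, resLoc k (pPrime p) (coc h2 r₁) - d01 (locRep (adRep rbar) (pPrime p)) m ∈
      ZordF rbar ζ hζ := by
  have hsm := isSmooth_adRep rbar hcont
  obtain ⟨m, hm⟩ := exists_upper_of_flatLift hp2 h2 rbar hdet hUT h
  -- continuity of the cocycle
  have hZ : resLoc k (pPrime p) (coc h2 r₁) ∈ Z1loc (adRep rbar) (pPrime p) := by
    obtain ⟨L, hLfin, hL⟩ := h.cont
    refine resLoc_mem_Z1loc' _ (coc_mem_Z1 h2 levAll h.lift ?_) _
    refine ⟨(IntermediateField.normalClosure ℚ L Qb).fixingSubgroup,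
      ⟨_, normalClosure.is_finiteDimensional ℚ L Qb, normalClosure.normal ℚ L Qb, rfl⟩,
      fun s hs => hL s (fun x hx => ?_)⟩
    exact hs ⟨x, IntermediateField.le_normalClosure L hx⟩
  have hB : d01 (locRep (adRep rbar) (pPrime p)) m ∈ B1loc (adRep rbar) (pPrime p) := ⟨m, rfl⟩
  set c' : ↥(Dp p) → sl2 k :=
    resLoc k (pPrime p) (coc h2 r₁) - d01 (locRep (adRep rbar) (pPrime p)) m with hc'
  have hc'v : ∀ σ : ↥(Dp p), c' σ = coc h2 r₁ σ - (adRep rbar σ m - m) := fun σ => rfl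
  have hc'Z : c' ∈ Z1loc (adRep rbar) (pPrime p) := sub_mem hZ (B1loc_le_Z1loc _ hsm _ hB)
  have h10 : ∀ σ : ↥(Dp p), ((c' σ : sl2 k) : M2 k) 1 0 = 0 := fun σ => by
    rw [hc'v]; exact (hm σ σ.2).1
  have h11 : ∀ σ : ↥(Dp p), (σ : GQ) ∈ Ip p → ((c' σ : sl2 k) : M2 k) 1 1 = 0 := fun σ hσ => by
    rw [hc'v]; exact (hm σ σ.2).2 hσ
  have h00 : ∀ σ : ↥(Dp p), (σ : GQ) ∈ Ip p → ((c' σ : sl2 k) : M2 k) 0 0 = 0 := fun σ hσ => by
    have ht := (mem_sl2 _).1 (c' σ).2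
    rw [Matrix.trace_fin_two, h11 σ hσ, add_zero] at ht
    exact ht
  have hcoc : ∀ σ τ : ↥(Dp p), c' (σ * τ) = c' σ + adRep rbar σ (c' τ) := by
    intro σ τ
    have h1 := congrFun (LinearMap.mem_ker.1 hc'Z.1) (σ, τ)
    have h2' : adRep rbar (σ : GQ) (c' τ) - c' (σ * τ) + c' σ = 0 := h1
    have h3 : c' (σ * τ) = adRep rbar (σ : GQ) (c' τ) + c' σ := by
      have h4 : adRep rbar (σ : GQ) (c' τ) + c' σ - c' (σ * τ) = 0 := by
        rw [← h2']; abel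
      exact (sub_eq_zero.1 h4).symm
    rw [h3, add_comm]
  have hpeu : Peu ζ (fun σ => ((c' σ : sl2 k) : M2 k) 0 1) := by
    refine peu_of_hasFlat hζ (X := Fin 2 → DualNumber k) (fun x => ?_) (matAct (Ip p) r₁) h.flat _
      ?_ ?_
    · funext i
      have hp0 : ((p : ℕ) : DualNumber k) = 0 := by
        have : ((p : ℕ) : DualNumber k) = TrivSqZeroExt.inl ((p : ℕ) : k) :=
          (map_natCast (TrivSqZeroExt.inlHom k k) p).symm
        rw [this, CharP.cast_eq_zero k p, TrivSqZeroExt.inl_zero]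
      rw [Pi.smul_apply, nsmul_eq_mul, hp0, zero_mul]
      rfl
    · intro σ τ hσ hτ
      have hσi : (σ : GQ)⁻¹ ∈ Ip p := (Ip p).inv_mem hσ
      rw [hcoc σ τ, Submodule.coe_add, Matrix.add_apply, adRep_apply_coe]
      congr 1
      rw [Matrix.mul_apply, Fin.sum_univ_two, Matrix.mul_apply, Fin.sum_univ_two,
        Matrix.mul_apply, Fin.sum_univ_two, h00 τ hτ, h10 τ, h11 τ hτ, hUT.one _ hσi,
        hUT.apply_zero_zero hdet hσ]
      ring
    · intro σ hσ hα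
      have hr1 : r₁ (σ : GQ) = 1 := eq_one_of_matAct_eq_one (Ip p) r₁ ⟨σ, hσ⟩ hα
      have hrb : rbar (σ : GQ) = 1 := by
        rw [← h.lift σ, hr1, map_fst_one]
      have hrbi : rbar (σ : GQ)⁻¹ = 1 := by
        have := rbar_inv_mul rbar (σ : GQ)
        rwa [hrb, mul_one] at this
      have e1 : coc h2 r₁ (σ : GQ) = 0 := by
        unfold coc cocM
        rw [hr1, map_snd_one, zero_mul, map_zero]
      have e2 : adRep rbar (σ : GQ) m = m := by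
        apply Subtype.ext
        rw [adRep_apply_coe, hrb, hrbi, one_mul, mul_one]
      show ((c' σ : sl2 k) : M2 k) 0 1 = 0
      rw [hc'v, e1, e2]
      simp
  exact ⟨m, hc'Z, h10, h11, hpeu⟩

/-- the conclusion: a local condition with `#L ≤ #k³` containing the flat lifts with constant `tr r₁(σ₁)`. -/
def FlatTrM (p : ℕ) [Fact p.Prime] {k : Type} [Field k] (h2 : (2 : k) ≠ 0) (rbar : GQ →* M2 k)
    (σ₁ : GQ) : Prop :=
  ∃ L : Submodule k (↥(Dp p) → sl2 k),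
    B1loc (adRep rbar) (pPrime p) ≤ L ∧ L ≤ Z1loc (adRep rbar) (pPrime p) ∧
    Finite ↥L ∧ Nat.card ↥L ≤ Nat.card k ^ 3 ∧
    ∀ r₁ : GQ →* M2 (DualNumber k), FlatLift p rbar r₁ → ((r₁ σ₁).trace).snd = 0 →
      resLoc k (pPrime p) (coc h2 r₁) ∈ L

/-- if there is no flat lift take `L = B1loc`. -/
theorem flatTrM_of_not_exists (h2 : (2 : k) ≠ 0) (rbar : GQ →* M2 k)
    (hcont : GaloisFactorsThroughFiniteLevel rbar) (σ₁ : GQ)
    (hex : ¬ ∃ r₁ : GQ →* M2 (DualNumber k), FlatLift p rbar r₁) : FlatTrM p h2 rbar σ₁ := by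
  have hsm := isSmooth_adRep rbar hcont
  have hfin : Finite ↥(B1loc (adRep rbar) (pPrime p)) := by
    unfold B1loc B1
    exact Set.finite_range _
  refine ⟨B1loc (adRep rbar) (pPrime p), le_rfl, B1loc_le_Z1loc _ hsm _, hfin, ?_,
    fun r₁ h _ => absurd ⟨r₁, h⟩ hex⟩
  have h1 : Nat.card ↥(B1loc (adRep rbar) (pPrime p)) ≤ Nat.card ↥(sl2 k) := by
    unfold B1loc B1
    exact Nat.card_le_card_of_surjective
      (LinearMap.rangeRestrict (d01 (locRep (adRep rbar) (pPrime p))))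
      (LinearMap.surjective_rangeRestrict _)
  exact h1.trans LocQ.card_sl2_le

omit [Fact p.Prime] [Finite k] [CharP k p] in
/-- `tr (coc(σ) rbar(σ))` is the `ε`-part of `tr r₁(σ)`. -/
theorem trace_coc_mul (h2 : (2 : k) ≠ 0) {r₁ : GQ →* M2 (DualNumber k)} (hl : IsLift rbar r₁)
    (hd : ∀ σ, (r₁ σ).det = TrivSqZeroExt.inl (rbar σ).det) (σ : GQ) :
    (((coc h2 r₁ σ : sl2 k) : M2 k) * rbar σ).trace = ((r₁ σ).trace).snd := by
  rw [coc_coe_of_det h2 hl hd σ, cocM, hl σ⁻¹, mul_assoc, rbar_inv_mul, mul_one,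
    Matrix.trace_fin_two, Matrix.trace_fin_two, TrivSqZeroExt.snd_add]
  rfl

/-- **[GEN-FS]** for `rbar` in ordinary shape. -/
theorem flatTrM_of_isUT (hp2 : p ≠ 2) (h2 : (2 : k) ≠ 0) (rbar : GQ →* M2 k)
    (hcont : GaloisFactorsThroughFiniteLevel rbar)
    (hdet : ∀ σ, (rbar σ).det = (chiK p k σ : k)) (hUT : IsUT p rbar) {σ₁ : GQ}
    (hσ₁ : (primeLocalPlace (pPrime p)).IsFrobeniusAt σ₁ ((pPrime p : Nat.Primes) : ℕ))
    (hxz : rbar σ₁ 0 0 ≠ rbar σ₁ 1 1) : FlatTrM p h2 rbar σ₁ := by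
  by_cases hex : ∃ r₁ : GQ →* M2 (DualNumber k), FlatLift p rbar r₁
  swap
  · exact flatTrM_of_not_exists h2 rbar hcont σ₁ hex
  obtain ⟨r₀, hr₀⟩ := hex
  obtain ⟨ζ, hζ1, hζ⟩ := exists_zeta p
  have hsm := isSmooth_adRep rbar hcont
  have hflat : HasFlat (Ap p).valuation (matAct (Ip p) rbar) :=
    hasFlat_matAct_residual rbar r₀ hr₀.lift hr₀.flat
  have hb := peu_rbar hζ hUT hdet hflat
  obtain ⟨hfin, hcard⟩ := card_ZordFS_sup_le hp2 hζ1 hζ rbar hcont hdet hUT hb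
  refine ⟨ZordFS rbar ζ hζ ⊔ B1loc (adRep rbar) (pPrime p), le_sup_right,
    sup_le (fun c hc => hc.1.1) (B1loc_le_Z1loc _ hsm _), hfin, hcard, fun r₁ h htr => ?_⟩
  obtain ⟨m, hm⟩ := exists_sub_d01_mem_ZordF hp2 h2 rbar hcont hdet hUT hζ h
  have hB : d01 (locRep (adRep rbar) (pPrime p)) m ∈ B1loc (adRep rbar) (pPrime p) := ⟨m, rfl⟩
  set c' : ↥(Dp p) → sl2 k :=
    resLoc k (pPrime p) (coc h2 r₁) - d01 (locRep (adRep rbar) (pPrime p)) m with hc'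
  have hc'v : ∀ σ : ↥(Dp p), c' σ = coc h2 r₁ σ - (adRep rbar σ m - m) := fun σ => rfl
  have hσD : σ₁ ∈ Dp p := hσ₁.mem_decompositionSubgroup
  -- the trace
  have htr' : (((c' ⟨σ₁, hσD⟩ : sl2 k) : M2 k) * rbar σ₁).trace = 0 := by
    have e1 : ((c' ⟨σ₁, hσD⟩ : sl2 k) : M2 k) = ((coc h2 r₁ σ₁ : sl2 k) : M2 k) -
        (rbar σ₁ * (m : M2 k) * rbar σ₁⁻¹ - (m : M2 k)) := by
      rw [hc'v]
      show ((coc h2 r₁ σ₁ : sl2 k) : M2 k) - (((adRep rbar σ₁ m : sl2 k) : M2 k) - (m : M2 k)) = _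
      rw [adRep_apply_coe]
    rw [e1, sub_mul, Matrix.trace_sub, trace_coc_mul h2 h.lift h.det, htr, sub_mul,
      Matrix.trace_sub, mul_assoc, rbar_inv_mul, mul_one, Matrix.trace_mul_comm, sub_self,
      sub_zero]
  have key : ((c' ⟨σ₁, hσD⟩ : sl2 k) : M2 k) 0 0 = 0 := by
    have e2 : rbar σ₁ = !![rbar σ₁ 0 0, rbar σ₁ 0 1; 0, rbar σ₁ 1 1] := by
      conv_lhs => rw [Matrix.eta_fin_two (rbar σ₁), hUT.tri σ₁ hσD]
    rw [sl2_form _ (hm.2.1 ⟨σ₁, hσD⟩), e2, Matrix.trace_fin_two] at htr'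
    simp only [Matrix.mul_apply, Fin.sum_univ_two, Matrix.of_apply, Matrix.cons_val_zero,
      Matrix.cons_val_one, Matrix.cons_val', Matrix.cons_val_fin_one] at htr'
    have h3 : ((c' ⟨σ₁, hσD⟩ : sl2 k) : M2 k) 0 0 * (rbar σ₁ 0 0 - rbar σ₁ 1 1) = 0 := by
      linear_combination htr'
    exact (mul_eq_zero.1 h3).resolve_right (sub_ne_zero.2 hxz)
  have hdiag := eq_zero_of_unramified (Representation.trivial k GQ k) (pPrime p) hσ₁ hσD
    (ZordF.diag_mem hm hUT) (fun σ hσ => by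
      have ht := (mem_sl2 _).1 (c' σ).2
      rw [Matrix.trace_fin_two, hm.2.2.1 σ hσ, add_zero] at ht
      exact ht) key
  have hmem : c' ∈ ZordFS rbar ζ hζ := ⟨hm, fun σ => congrFun hdiag σ⟩
  have : resLoc k (pPrime p) (coc h2 r₁) = c' + d01 (locRep (adRep rbar) (pPrime p)) m := by
    rw [hc']; abel
  rw [this]
  exact Submodule.add_mem_sup hmem hB

local notation "liftU" g₀ =>
  Units.map (RingHom.toMonoidHom (RingHom.mapMatrix (TrivSqZeroExt.inlHom _ _))) g₀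

/-- conjugation invariance (copy of `S56.Flat.flatTanM_of_conj`). -/
theorem flatTrM_of_conj (h2 : (2 : k) ≠ 0) (rbar : GQ →* M2 k) (g₀ : (M2 k)ˣ) (σ₁ : GQ)
    (h : FlatTrM p h2 (S53.conjRep g₀ rbar) σ₁) : FlatTrM p h2 rbar σ₁ := by
  obtain ⟨L', hB, hZ, hfin, hcard, hL'⟩ := h
  let AdC : (↥(Dp p) → sl2 k) ≃ₗ[k] (↥(Dp p) → sl2 k) :=
    LinearEquiv.piCongrRight fun _ => AdSl g₀
  have hAdC : ∀ c, AdC c = (AdSl g₀ : sl2 k →ₗ[k] sl2 k) ∘ c := fun c => rfl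
  have hAd : ∀ (g : ↥(Dp p)) (v : sl2 k),
      (AdSl g₀ : sl2 k →ₗ[k] sl2 k) (locRep (adRep rbar) (pPrime p) g v) =
      locRep (adRep (S53.conjRep g₀ rbar)) (pPrime p) g ((AdSl g₀ : sl2 k →ₗ[k] sl2 k) v) :=
    fun g v => AdSl_adRep g₀ rbar g v
  have hAds : ∀ (g : ↥(Dp p)) (v : sl2 k),
      ((AdSl g₀).symm : sl2 k →ₗ[k] sl2 k) (locRep (adRep (S53.conjRep g₀ rbar)) (pPrime p) g v) =
      locRep (adRep rbar) (pPrime p) g (((AdSl g₀).symm : sl2 k →ₗ[k] sl2 k) v) := by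
    intro g v
    show (AdSl g₀).symm _ = _
    rw [LinearEquiv.symm_apply_eq]
    have := hAd g ((AdSl g₀).symm v)
    simp only [LinearEquiv.coe_coe, LinearEquiv.apply_symm_apply] at this
    exact this.symm
  let E : ↥(L'.comap (AdC : (↥(Dp p) → sl2 k) →ₗ[k] (↥(Dp p) → sl2 k))) ≃ₗ[k] ↥L' :=
    LinearEquiv.ofSubmodule' AdC L'
  refine ⟨L'.comap (AdC : (↥(Dp p) → sl2 k) →ₗ[k] (↥(Dp p) → sl2 k)), ?_, ?_, ?_, ?_, ?_⟩
  · intro b hb
    exact hB (CFT.comp_mem_B1 (AdSl g₀ : sl2 k →ₗ[k] sl2 k) hAd hb)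
  · intro c hc
    have h1 := CFT.comp_mem_Z1 ((AdSl g₀).symm : sl2 k →ₗ[k] sl2 k) hAds (hZ hc)
    convert h1 using 1
    funext g
    show c g = (AdSl g₀).symm (AdSl g₀ (c g))
    rw [LinearEquiv.symm_apply_apply]
  · exact Finite.of_equiv _ E.symm.toEquiv
  · rw [Nat.card_congr E.toEquiv]
    exact hcard
  · intro r₁ hr₁ htr
    have htr' : ((S53.conjRep (liftU g₀) r₁ σ₁).trace).snd = 0 := by
      rw [S53.conjRep_apply, Matrix.trace_mul_comm, ← mul_assoc, Units.inv_mul, one_mul, htr]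
    have h1 := hL' _ (hr₁.conj g₀) htr'
    show AdC (resLoc k (pPrime p) (coc h2 r₁)) ∈ L'
    convert h1 using 1
    funext g
    exact (coc_conjRep_const h2 g₀ r₁ g).symm

/-- **[GEN-FS]** : `rbar|_{D_p}` reducible, `σ₁` a Frobenius lift at `p` such that `rbar σ₁` has distinct eigenvalues.
There is a local condition `B¹ ≤ L ≤ Z¹` with `#L ≤ #k³` (SAVING `1`) which contains the cocycle of every FLAT lift `r₁` of `rbar` to `k[ε]`
(constant determinant) such that `tr r₁(σ₁)` is constant. -/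
theorem exists_flat_tr_condition (hp2 : p ≠ 2) (h2 : (2 : k) ≠ 0) (rbar : GQ →* M2 k)
    (hcont : GaloisFactorsThroughFiniteLevel rbar)
    (hdet : ∀ σ, (rbar σ).det = (chiK p k σ : k))
    (hred : ∃ w : Fin 2 → k, w ≠ 0 ∧ ∀ σ ∈ Dp p, ∃ c : k, (rbar σ).mulVec w = c • w) {σ₁ : GQ}
    (hσ₁ : (primeLocalPlace (pPrime p)).IsFrobeniusAt σ₁ ((pPrime p : Nat.Primes) : ℕ))
    (hdisc : (rbar σ₁).trace ^ 2 ≠ 4 * (rbar σ₁).det) : FlatTrM p h2 rbar σ₁ := by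
  by_cases hex : ∃ r₁ : GQ →* M2 (DualNumber k), FlatLift p rbar r₁
  swap
  · exact flatTrM_of_not_exists h2 rbar hcont σ₁ hex
  obtain ⟨r₀, hr₀⟩ := hex
  have hflat : HasFlat (Ap p).valuation (matAct (Ip p) rbar) :=
    hasFlat_matAct_residual rbar r₀ hr₀.lift hr₀.flat
  obtain ⟨g₀, hg₀⟩ := exists_isUT hp2 rbar hcont hdet hred hflat
  refine flatTrM_of_conj h2 rbar g₀ σ₁ (flatTrM_of_isUT hp2 h2 _ ?_ ?_ hg₀ hσ₁ ?_)
  · obtain ⟨L, hL, h⟩ := hcont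
    refine ⟨L, hL, fun σ hσ => ?_⟩
    show (g₀ : M2 k) * rbar σ * ((g₀⁻¹ : (M2 k)ˣ) : M2 k) = 1
    rw [h σ hσ, mul_one, Units.mul_inv]
  · intro σ
    show ((g₀ : M2 k) * rbar σ * ((g₀⁻¹ : (M2 k)ˣ) : M2 k)).det = _
    rw [Matrix.det_mul, Matrix.det_mul, mul_right_comm, ← Matrix.det_mul, Units.mul_inv,
      Matrix.det_one, one_mul, hdet]
  · intro hxz
    apply hdisc
    set Y := S53.conjRep g₀ rbar σ₁ with hY
    have hYe : Y = (g₀ : M2 k) * rbar σ₁ * ((g₀⁻¹ : (M2 k)ˣ) : M2 k) := S53.conjRep_apply _ _ _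
    have ht : (rbar σ₁).trace = Y.trace := by
      rw [hYe, Matrix.trace_mul_comm, ← mul_assoc, Units.inv_mul, one_mul]
    have hd : (rbar σ₁).det = Y.det := by
      rw [hYe, Matrix.det_mul, Matrix.det_mul, mul_right_comm, ← Matrix.det_mul, Units.mul_inv,
        Matrix.det_one, one_mul]
    have h10 : Y 1 0 = 0 := hg₀.tri σ₁ hσ₁.mem_decompositionSubgroup
    rw [ht, hd, Matrix.trace_fin_two, Matrix.det_fin_two, h10, hxz]
    ring

end Fermat.Agent.ML
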