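import Fermat.Agent.ML.Main.Cell
import Fermat.Agent.ML.Gen.StageP
import Fermat.Agent.ML.ESide.EM

/-!
# ML / AtP / S1 : case (Mb) : the residual inputs `hred`, `σ₁`, `hdisc` of `MCtx.gen_stage_p` / `MCtx.hgen_stage_p`, from `SignP W p eP`.

* `frobAt_mul_inertia` : a Frobenius lift times an element of inertia is a Frobenius lift.
* `SignP.smul_sub` : the operator identity on `W[p]`.
* `SignP.exists_line` : `rbarB b |_{D_p}` has a stable line (`hred`).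
* `SignP.exists_s1` : a Frobenius lift `σ₁` at `Ap p` with `χ(σ₁) ≠ 1`, `tr rbarB b σ₁ = e (χ(σ₁) + 1)`, `(tr)² ≠ 4 det` (`hdisc`).
-/

set_option autoImplicit false

noncomputable section

open ExtCitation

namespace Fermat.Agent.ML

open Fermat.Agent.RIB Fermat.Agent.ML.ESide Fermat.Agent.S56 Fermat.Agent.S56.Flat
open CFT (decomp)

local notation "Qbar" => AlgebraicClosure ℚ
local notation "GQ" => (AlgebraicClosure ℚ ≃ₐ[ℚ] AlgebraicClosure ℚ)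
local notation "M₂" => Matrix (Fin 2) (Fin 2)

/-- a Frobenius lift times an element of inertia is a Frobenius lift. -/
theorem frobAt_mul_inertia {A : ValuationSubring Qbar} {φ τ : GQ} {q : ℕ}
    (hφ : A.IsFrobeniusAt φ q) (hτ : τ ∈ A.inertiaSubgroupIn ℚ) : A.IsFrobeniusAt (φ * τ) q := by
  obtain ⟨hφD, hφx⟩ := hφ
  obtain ⟨τ', hτ', rfl⟩ := hτ
  refine ⟨(A.decompositionSubgroup ℚ).mul_mem hφD τ'.2, fun x => ?_⟩
  have h1 : (⟨φ * (A.decompositionSubgroup ℚ).subtype τ', (A.decompositionSubgroup ℚ).mul_mem hφD τ'.2⟩ :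
      A.decompositionSubgroup ℚ) = ⟨φ, hφD⟩ * τ' := rfl
  have h2 : τ' • x = x := by
    have := congrArg (fun f => f x) (MonoidHom.mem_ker.1 hτ')
    exact this
  rw [h1, mul_smul, h2, hφx]

variable {W : WeierstrassCurve ℤ} {p : ℕ} [Fact p.Prime] {eP : GQ → ℤ}

/-- the operator identity on `W[p]`. -/
theorem SignP.smul_sub (hs : SignP W p eP) {s₁ s₂ : GQ} (h₁ : s₁ ∈ decomp (pPrime p))
    (h₂ : s₂ ∈ decomp (pPrime p)) (x : TorsW W p) :
    s₁ • (s₂ • x - eP s₂ • x) =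
      ((((cycloChar p s₁ : (ZMod p)ˣ) : ZMod p).val : ℤ) * eP s₁) • (s₂ • x - eP s₂ • x) := by
  apply Subtype.ext
  exact hs.2.2.2 1 s₁ h₁ s₂ h₂ (x : S58.EQ W) (by
    show p ^ 1 • (x : S58.EQ W) = 0
    rw [pow_one]; exact nsmul_coe_torsW W x) _ (fun μ hμ => by
    rw [pow_one] at hμ
    exact S14.PartA.cycloChar_spec hμ s₁)

theorem rbarB_eq_rEB (b : Module.Basis (Fin 2) (ZMod p) (TorsW W p)) : rbarB b = rEB b := rfl

theorem exists_inert_cycloChar_ne_one (hp2 : p ≠ 2) :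
    ∃ τ₀ ∈ inert (pPrime p), cycloChar p τ₀ ≠ 1 := by
  obtain ⟨τ₀, hτ₀, hχ₀⟩ := chiK_inert_ne_one (p := p) (k := ZMod p) hp2
  refine ⟨τ₀, hτ₀, fun h => hχ₀ ?_⟩
  rw [chiK, MonoidHom.comp_apply, h, map_one]

/-- `hred` : `rbarB b |_{D_p}` has a stable line. -/
theorem SignP.exists_line (hs : SignP W p eP) (hp2 : p ≠ 2)
    (b : Module.Basis (Fin 2) (ZMod p) (TorsW W p))
    (hdet : ∀ g : GQ, (rbarB b g).det = ((cycloChar p g : (ZMod p)ˣ) : ZMod p)) :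
    ∃ u : Fin 2 → ZMod p, u ≠ 0 ∧
      ∀ σ ∈ decomp (pPrime p), ∃ c : ZMod p, (rbarB b σ).mulVec u = c • u := by
  obtain ⟨τ₀, hτ₀, hχ₀⟩ := exists_inert_cycloChar_ne_one (p := p) hp2
  have hτD : τ₀ ∈ decomp (pPrime p) := inert_le_decomp _ hτ₀
  have hne : rbarB b τ₀ ≠ 1 := by
    intro h
    apply hχ₀
    apply Units.ext
    rw [← hdet τ₀, h, Matrix.det_one]
    rfl
  rw [Ne, rbarB_eq_one_iff] at hne
  push Not at hne
  obtain ⟨x, hx⟩ := hne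
  set y : TorsW W p := τ₀ • x - eP τ₀ • x with hy
  have hy0 : y ≠ 0 := by
    rw [hy, hs.2.1 τ₀ hτ₀, one_smul]
    exact sub_ne_zero.2 hx
  refine ⟨b.repr y, fun h0 => hy0 ?_, fun σ hσ => ?_⟩
  · apply b.repr.injective
    rw [map_zero]
    exact DFunLike.coe_injective h0
  · refine ⟨(((((cycloChar p σ : (ZMod p)ˣ) : ZMod p).val : ℤ) * eP σ : ℤ) : ZMod p), ?_⟩
    rw [rbarB_mulVec, hy, hs.smul_sub hσ hτD x, ← Int.cast_smul_eq_zsmul (ZMod p), map_smul]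
    rfl

omit [Fact p.Prime] in
/-- `(X - α)(X - β) = 0`, `det X = α β` a unit ⟹ `tr X = α + β`. -/
theorem trace_eq_add_of_quad {k : Type*} [Field k] (X : M₂ k) (α β : k) (h0 : α * β ≠ 0)
    (hdet : X.det = α * β) (hX : (X - α • (1 : M₂ k)) * (X - β • (1 : M₂ k)) = 0) :
    X.trace = α + β := by
  have e00 := congrFun (congrFun hX 0) 0
  have e01 := congrFun (congrFun hX 0) 1
  simp only [Matrix.mul_apply, Fin.sum_univ_two, Matrix.sub_apply, Matrix.smul_apply,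
    Matrix.one_apply_eq, Matrix.zero_apply, smul_eq_mul, mul_one, mul_zero, sub_zero,
    Matrix.one_apply_ne (show (0 : Fin 2) ≠ 1 by decide),
    Matrix.one_apply_ne (show (1 : Fin 2) ≠ 0 by decide)] at e00 e01
  rw [Matrix.det_fin_two] at hdet
  rw [Matrix.trace_fin_two]
  have h : (X 0 0 + X 1 1 - α - β) * (α * β) = 0 := by
    linear_combination X 1 1 * e00 + X 1 1 * hdet - X 1 0 * e01 - (X 0 0 + X 1 1 - α - β) * hdet
  have := (mul_eq_zero.1 h).resolve_right h0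
  linear_combination this

/-- `σ₁`, `hdisc`. -/
theorem SignP.exists_s1 (hs : SignP W p eP) (hp2 : p ≠ 2)
    (b : Module.Basis (Fin 2) (ZMod p) (TorsW W p))
    (hdet : ∀ g : GQ, (rbarB b g).det = ((cycloChar p g : (ZMod p)ˣ) : ZMod p)) :
    ∃ σ₁ : GQ, (primeLocalPlace (pPrime p)).IsFrobeniusAt σ₁ ((pPrime p : Nat.Primes) : ℕ) ∧
      cycloChar p σ₁ ≠ 1 ∧
      (rbarB b σ₁).trace = ((eP σ₁ : ℤ) : ZMod p) * (((cycloChar p σ₁ : (ZMod p)ˣ) : ZMod p) + 1) ∧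
      (rbarB b σ₁).trace ^ 2 ≠ 4 * (rbarB b σ₁).det := by
  obtain ⟨φ, hφ⟩ := exists_isFrobeniusAt (pPrime p).2 (liesOverPrime_primeLocalPlace (pPrime p))
  obtain ⟨σ₁, hσ₁, hχ⟩ : ∃ σ₁ : GQ,
      (primeLocalPlace (pPrime p)).IsFrobeniusAt σ₁ ((pPrime p : Nat.Primes) : ℕ) ∧
      cycloChar p σ₁ ≠ 1 := by
    by_cases h1 : cycloChar p φ = 1
    · obtain ⟨τ₀, hτ₀, hχ₀⟩ := exists_inert_cycloChar_ne_one (p := p) hp2
      exact ⟨φ * τ₀, frobAt_mul_inertia hφ hτ₀, by rwa [map_mul, h1, one_mul]⟩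
    · exact ⟨φ, hφ, h1⟩
  have hD : σ₁ ∈ decomp (pPrime p) := hσ₁.mem_decompositionSubgroup
  set χ : ZMod p := ((cycloChar p σ₁ : (ZMod p)ˣ) : ZMod p) with hχdef
  set e : ZMod p := ((eP σ₁ : ℤ) : ZMod p) with he
  have hχ1 : χ ≠ 1 := fun h => hχ (Units.ext h)
  have hχ0 : χ ≠ 0 := (cycloChar p σ₁).ne_zero
  have hee : e * e = 1 := by
    rcases hs.1 σ₁ with h | h <;> rw [he, h] <;> simp
  have hquad := rEB_sub_mul_sub_eq_zero_int b σ₁ σ₁ _ _ (fun x => hs.smul_sub hD hD x)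
  rw [← rbarB_eq_rEB] at hquad
  have hcast : (((((cycloChar p σ₁ : (ZMod p)ˣ) : ZMod p).val : ℤ) * eP σ₁ : ℤ) : ZMod p) = χ * e := by
    rw [Int.cast_mul, Int.cast_natCast, ZMod.natCast_val, ZMod.cast_id]
  rw [hcast] at hquad
  have hdet' : (rbarB b σ₁).det = χ * e * e := by rw [hdet, mul_assoc, hee, mul_one]
  have htr := trace_eq_add_of_quad (rbarB b σ₁) (χ * e) e
    (by rw [mul_assoc, hee, mul_one]; exact hχ0) hdet' hquad
  refine ⟨σ₁, hσ₁, hχ, by rw [htr]; ring, ?_⟩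
  rw [htr, hdet σ₁, ← hχdef]
  intro h
  have h3 : (χ - 1) ^ 2 = 0 := by
    have : (χ * e + e) ^ 2 = (χ + 1) ^ 2 * (e * e) := by ring
    rw [this, hee, mul_one] at h
    linear_combination h
  exact hχ1 (sub_eq_zero.1 (pow_eq_zero_iff (two_ne_zero)|>.1 h3))

end Fermat.Agent.ML
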