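import Fermat.Agent.ML.AtP.EmbP
import Fermat.Agent.ML.AtP.S1
import Fermat.Agent.ML.AtP.A2p
import Fermat.Agent.ML.Raise.Emb

/-!
# ML / AtP / EmbPW : [P1] for `rbarB b`, no residual hypothesis left

`W` multiplicative at `p` (`SignP W p eP`), `p ∤ N`, `s₁` a Frobenius lift at `Ap p`, `a₁ ≢ 1 mod p`, `ε := eP s₁`.

* `tp_of_signP` : `v ∈ thetaPart N`, `(s₁ + a₁ s₁⁻¹ - ε (1 + a₁)) g v = 0` for all `g`  ⟹  `T_p v = ε (p + 1) v`.
* `htp_of_signP` : the same in the shape of the hypothesis `htp` of `ML.dnE_embE_p(_rhoK)`.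
* `embPW_pushB`, `embPW_mem_ker` : (EMB) of `ML/Raise/Emb.lean` for EVERY prime `q ∤ N` (`q = p` allowed) and all `v`.
* `emb_mem_ker_signP` : (EMB) at `q = p` : `e_p v = α^* v - ε β^* v ∈ ker Π_p`.
-/

set_option autoImplicit false

noncomputable section

open AlgebraicCurve ModularCurve ExtCitation

namespace Fermat.Agent.ML.AtP

open Fermat.Agent.RIB Fermat.Agent.ML.ESide Fermat.Agent.S56 Fermat.Agent.S56.Flat
open CFT (decomp)

local notation "Qbar" => AlgebraicClosure ℚ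
local notation "GQ" => (AlgebraicClosure ℚ ≃ₐ[ℚ] AlgebraicClosure ℚ)
local notation "M₂" => Matrix (Fin 2) (Fin 2)

variable {W : WeierstrassCurve ℤ} {p : ℕ} [hp : Fact p.Prime] {eP : GQ → ℤ} {N : ℕ} [NeZero N]

/-- **[P1]** for `rbarB b`. -/
theorem tp_of_signP {T : Finset ℕ} (b : Module.Basis (Fin 2) (ZMod p) (TorsW W p))
    (C : MCtx p T W.apOfModel (rbarB b)) (hsP : SignP W p eP) (S : Finset ℕ) (hTS : T ⊆ S)
    (hS : ∀ r : ℕ, r.Prime → r ∣ N * p → r ∈ S) (hpN : ¬ p ∣ N) {s1 : GQ}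
    (hs : (Ap p).IsFrobeniusAt s1 p) (a1 : ℤ) (ha1 : (a1 : ZMod p) ≠ 1)
    {v : JZero N} (hv : v ∈ thetaPart N p (↑S : Set ℕ) W.apOfModel)
    (hc : ∀ g : GQ, s1 • g • v + a1 • s1⁻¹ • g • v = (eP s1 * (1 + a1)) • g • v) :
    heckeOperatorBar N ⟨p, hp.out⟩ v = (eP s1 * ((p : ℤ) + 1)) • v := by
  obtain ⟨d, hd, hχ⟩ := exists_inert_cycloChar_ne_one (p := p) C.hp2
  have hdD : d ∈ decomp (pPrime p) := inert_le_decomp _ hd
  set ad : ℤ := (((cycloChar p d : (ZMod p)ˣ) : ZMod p).val : ℤ) with had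
  have hadc : (ad : ZMod p) = ((cycloChar p d : (ZMod p)ˣ) : ZMod p) := by
    rw [had, Int.cast_natCast, ZMod.natCast_val, ZMod.cast_id]
  have hmat : ∀ t ∈ decomp (pPrime p), (rbarB b d - (ad : ZMod p) • (1 : M₂ (ZMod p))) *
      (rbarB b t - ((eP t : ℤ) : ZMod p) • (1 : M₂ (ZMod p))) = 0 := by
    intro t ht
    have h := rEB_sub_mul_sub_eq_zero_int b d t _ _ (fun x => hsP.smul_sub hdD ht x)
    rw [hsP.2.1 d hd, mul_one] at h
    exact h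
  refine tp_of_rel C S hTS hS hpN (Ap p) (liesOverPrime_primeLocalPlace (pPrime p)) hs hd a1 ad
    (eP s1) ha1 ?_ ?_ ?_ ?_ (hmat s1 hs.mem_decompositionSubgroup) hv hc
  · rw [hadc]
    intro h
    exact hχ (Units.ext h)
  · rcases hsP.1 s1 with h | h <;> rw [h] <;> norm_num
  · rw [C.det d, hadc]
  · intro t ht
    have h := hmat t (inert_le_decomp _ ht)
    rw [hsP.2.1 t ht] at h
    simpa using h

/-- [P1] in the shape of the hypothesis `htp` of `ML.dnE_embE_p`, `ML.dnE_embE_p_rhoK` (`ML/AtP/StepP/Emb.lean`). -/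
theorem htp_of_signP {T : Finset ℕ} (b : Module.Basis (Fin 2) (ZMod p) (TorsW W p))
    (C : MCtx p T W.apOfModel (rbarB b)) (hsP : SignP W p eP) (S : Finset ℕ) (hTS : T ⊆ S)
    (hS : ∀ r : ℕ, r.Prime → r ∣ N * p → r ∈ S) (hpN : ¬ p ∣ N) {s1 : GQ}
    (hs : (Ap p).IsFrobeniusAt s1 p) (a1 : ℕ) (ha1 : ¬ a1 ≡ 1 [MOD p]) (hpp : p.Prime)
    (U : AddSubgroup (JZero N)) (hU : U ≤ thetaPart N p (↑S : Set ℕ) W.apOfModel) :
    ∀ v ∈ U, (∀ g : GQ, s1 • g • v + a1 • s1⁻¹ • g • v = (eP s1 * (1 + (a1 : ℤ))) • g • v) →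
      heckeOperatorBar N ⟨p, hpp⟩ v = (eP s1 * ((p : ℤ) + 1)) • v := by
  intro v hv hc
  refine tp_of_signP b C hsP S hTS hS hpN hs (a1 : ℤ) ?_ (hU hv) fun g => ?_
  · intro h
    apply ha1
    rw [← ZMod.natCast_eq_natCast_iff, Nat.cast_one]
    exact_mod_cast h
  · rw [natCast_zsmul]
    exact hc g

/-- `β_* e_q v = T_q v - ε (q+1) v`, all `v`, all primes `q ∤ N`. -/
theorem embPW_pushB {q : ℕ} [NeZero q] (hq : q.Prime) (hqN : ¬ q ∣ N) (ε : ℤ) (v : JZero N) :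
    SS.pushB N q (Raise.emb N q ε v) = heckeOperatorBar N ⟨q, hq⟩ v - (ε * ((q : ℤ) + 1)) • v := by
  have : Fact q.Prime := ⟨hq⟩
  rw [Raise.emb_apply, map_sub, map_zsmul, pushB_pullB N q hq hqN, pushB_pullA_all N q hqN]
  generalize heckeOperatorBar N ⟨q, hq⟩ v = t
  have h1 : (q + 1) • v = ((q : ℤ) + 1) • v := by
    rw [← natCast_zsmul]; push_cast; rfl
  rw [h1]
  module

/-- **(EMB)**, Hecke form, all primes `q ∤ N`. -/
theorem embPW_mem_ker {q : ℕ} [NeZero q] (hq : q.Prime) (hqN : ¬ q ∣ N) {ε : ℤ}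
    (hε : ε * ε = 1) {v : JZero N}
    (hc : heckeOperatorBar N ⟨q, hq⟩ v = (ε * ((q : ℤ) + 1)) • v) :
    SS.pushA N q (Raise.emb N q ε v) = 0 ∧ SS.pushB N q (Raise.emb N q ε v) = 0 := by
  rw [Raise.pushA_emb hq hqN hε, embPW_pushB hq hqN ε, hc, sub_self, smul_zero, neg_zero]
  exact ⟨rfl, rfl⟩

/-- **(EMB)** at `q = p`. -/
theorem emb_mem_ker_signP [NeZero p] {T : Finset ℕ}
    (b : Module.Basis (Fin 2) (ZMod p) (TorsW W p))
    (C : MCtx p T W.apOfModel (rbarB b)) (hsP : SignP W p eP) (S : Finset ℕ) (hTS : T ⊆ S)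
    (hS : ∀ r : ℕ, r.Prime → r ∣ N * p → r ∈ S) (hpN : ¬ p ∣ N) {s1 : GQ}
    (hs : (Ap p).IsFrobeniusAt s1 p) (a1 : ℤ) (ha1 : (a1 : ZMod p) ≠ 1)
    {v : JZero N} (hv : v ∈ thetaPart N p (↑S : Set ℕ) W.apOfModel)
    (hc : ∀ g : GQ, s1 • g • v + a1 • s1⁻¹ • g • v = (eP s1 * (1 + a1)) • g • v) :
    SS.pushA N p (Raise.emb N p (eP s1) v) = 0 ∧ SS.pushB N p (Raise.emb N p (eP s1) v) = 0 :=
  embPW_mem_ker hp.out hpN (by rcases hsP.1 s1 with h | h <;> rw [h] <;> norm_num)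
    (tp_of_signP b C hsP S hTS hS hpN hs a1 ha1 hv hc)

end Fermat.Agent.ML.AtP
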