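import Fermat.Agent.S56.Flat.Ord.Main
import Fermat.Agent.ML.Gen.Ord
import Fermat.Agent.ML.Gen.Card

/-!
# ML / AtP / FlatStrict : the local condition "flat AND strict" at `p` : a SAVING OF ONE.

Case (Mb) of AT-P : `W` multiplicative at `p`, `θ` occurs at a level prime to `p`, `p` is a raising prime.  As long as `p` is not raised the
coordinate `c_p = T_p - ε (p + 1) = unit * (u - ε)` belongs to `J`, and (GEN) must save `1` at `p` modulo `J`.
Modulo `J` the tangent vectors are flat and have CONSTANT TRACE on `D_p`.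

`S56/Flat/Ord` : `L^flat = ZordF ⊔ B¹`, `ZordF = {c upper triangular on D, diagonal 0 on I, (0,1) entry peu ramifié}`, `#ZordF ≤ q * #USet ≤ q³`.
* `ZordF0` := `{c ∈ ZordF | diagonal 0 on D}`, `card_ZordF0_le : #ZordF0 ≤ q²`, `card_ZordF0_sup_le : #(ZordF0 ⊔ B¹) ≤ q³`.
* `FlatStrictTanM p h2 rbar` : `∃ L`, `B¹ ≤ L ≤ Z¹`, `#L ≤ q³`, containing `res_p (coc r₁)` for every `FlatLift r₁` with constant trace on `D_p`.
* `exists_flat_strict_condition` : `FlatStrictTanM` when `rbar|_{D_p}` has a stable line.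
-/

set_option autoImplicit false
set_option linter.unusedSectionVars false

open ExtCitation

namespace Fermat.Agent.ML

open Fermat.Agent.S56 Fermat.Agent.S56.Flat Fermat.Agent.S56.Font
open CFT (levS levAll decomp Z1 B1 Qb d01)

variable {p : ℕ} [Fact p.Prime] {k : Type} [Field k] {ζ : Qb}

/-- the flat-ordinary cocycles in upper triangular form with zero diagonal -/
noncomputable def ZordF0 (rbar : GQ →* M2 k) (ζ : Qb) (hζ : ζ ^ p = 1) :
    Submodule k (↥(Dp p) → sl2 k) where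
  carrier := {c | c ∈ ZordF rbar ζ hζ ∧ ∀ σ, ((c σ : sl2 k) : M2 k) 0 0 = 0}
  add_mem' := by
    rintro a b ⟨ha1, ha2⟩ ⟨hb1, hb2⟩
    exact ⟨add_mem ha1 hb1, fun σ => by simp [ha2 σ, hb2 σ]⟩
  zero_mem' := ⟨zero_mem _, fun σ => by simp⟩
  smul_mem' := by
    rintro t a ⟨ha1, ha2⟩
    exact ⟨Submodule.smul_mem _ t ha1, fun σ => by simp [ha2 σ]⟩

variable {rbar : GQ →* M2 k}

variable [Finite k] [CharP k p]

/-- `#ZordF0 ≤ q²` -/
theorem card_ZordF0_le (hp2 : p ≠ 2) (hζ1 : ζ ≠ 1) (hζ : ζ ^ p = 1) (rbar : GQ →* M2 k)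
    (hdet : ∀ σ, (rbar σ).det = (chiK p k σ : k)) (hUT : IsUT p rbar) :
    Finite ↥(ZordF0 rbar ζ hζ) ∧ Nat.card ↥(ZordF0 rbar ζ hζ) ≤ Nat.card k ^ 2 := by
  obtain ⟨hUfin, hUcard⟩ := card_USet_le hp2 hζ1 hζ hUT.psi (hUT.psi_eq_chi hdet)
  let T : ↥(ZordF0 rbar ζ hζ) → USet hUT.psi ζ := fun c =>
    ⟨fun σ => ((c.1 σ : sl2 k) : M2 k) 0 1, fun g h => by
      obtain ⟨z', -, -, h2⟩ := ZordF.coc c.2.1 hUT g h
      rw [c.2.2 h] at h2
      show ((c.1 (g * h) : sl2 k) : M2 k) 0 1 = ((c.1 g : sl2 k) : M2 k) 0 1 +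
        (hUT.psi g : k) * ((c.1 h : sl2 k) : M2 k) 0 1
      rw [h2]
      ring, c.2.1.2.2.2⟩
  have hT : Function.Injective T := by
    intro c c' h
    apply Subtype.ext
    funext σ
    apply Subtype.ext
    have h1 : ((c.1 σ : sl2 k) : M2 k) 0 1 = ((c'.1 σ : sl2 k) : M2 k) 0 1 :=
      congrFun (congrArg Subtype.val h) σ
    rw [sl2_form _ (c.2.1.2.1 σ), sl2_form _ (c'.2.1.2.1 σ), c.2.2 σ, c'.2.2 σ, h1]
  exact ⟨Finite.of_injective T hT, (Nat.card_le_card_of_injective T hT).trans hUcard⟩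

omit [Finite k] in
lemma d01_mem_ZordF0 (hζ : ζ ^ p = 1)
    (hB : B1loc (adRep rbar) (pPrime p) ≤ Z1loc (adRep rbar) (pPrime p))
    (hdet : ∀ σ, (rbar σ).det = (chiK p k σ : k)) (hUT : IsUT p rbar)
    (hb : Peu ζ (fun σ : ↥(Dp p) => rbar σ 0 1)) (w : sl2 k) (hw : (w : M2 k) 1 0 = 0) :
    CFT.d01 (locRep (adRep rbar) (pPrime p)) w ∈ ZordF0 rbar ζ hζ := by
  refine ⟨d01_mem_ZordF hζ hB hdet hUT hb w hw, fun σ => ?_⟩
  have hcoe : ((CFT.d01 (locRep (adRep rbar) (pPrime p)) w σ : sl2 k) : M2 k) =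
      ((adRep rbar σ w : sl2 k) : M2 k) - (w : M2 k) := rfl
  obtain ⟨z', -, h2⟩ := hUT.ad_coe σ w hw
  rw [hcoe, h2, Matrix.sub_apply]
  simp

/-- `#(ZordF0 ⊔ B¹) ≤ q³` -/
theorem card_ZordF0_sup_le (hp2 : p ≠ 2) (hζ1 : ζ ≠ 1) (hζ : ζ ^ p = 1) (rbar : GQ →* M2 k)
    (hcont : GaloisFactorsThroughFiniteLevel rbar)
    (hdet : ∀ σ, (rbar σ).det = (chiK p k σ : k)) (hUT : IsUT p rbar)
    (hb : Peu ζ (fun σ : ↥(Dp p) => rbar σ 0 1)) :
    Finite ↥(ZordF0 rbar ζ hζ ⊔ B1loc (adRep rbar) (pPrime p)) ∧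
      Nat.card ↥(ZordF0 rbar ζ hζ ⊔ B1loc (adRep rbar) (pPrime p)) ≤ Nat.card k ^ 3 := by
  have hB : B1loc (adRep rbar) (pPrime p) ≤ Z1loc (adRep rbar) (pPrime p) :=
    B1loc_le_Z1loc _ (isSmooth_adRep rbar hcont) _
  obtain ⟨hZfin, hZcard⟩ := card_ZordF0_le hp2 hζ1 hζ rbar hdet hUT
  set ZZ := ZordF0 rbar ζ hζ with hZZ
  let F : ZZ × k → ↥(ZZ ⊔ B1loc (adRep rbar) (pPrime p)) := fun x =>
    ⟨(x.1 : ↥(Dp p) → sl2 k) + x.2 • CFT.d01 (locRep (adRep rbar) (pPrime p)) (e21 k),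
      Submodule.add_mem _ (Submodule.mem_sup_left x.1.2)
        (Submodule.smul_mem _ _ (Submodule.mem_sup_right ⟨_, rfl⟩))⟩
  have hF : Function.Surjective F := by
    rintro ⟨y, hy⟩
    obtain ⟨c, hc, b, ⟨w, rfl⟩, rfl⟩ := Submodule.mem_sup.1 hy
    set s : k := (w : M2 k) 1 0 with hs
    have hw1 : ((w - s • e21 k : sl2 k) : M2 k) 1 0 = 0 := by
      have : ((w - s • e21 k : sl2 k) : M2 k) = (w : M2 k) - s • !![0, 0; 1, 0] := rfl
      rw [this]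
      simp [hs]
    have hmem : CFT.d01 (locRep (adRep rbar) (pPrime p)) (w - s • e21 k) ∈ ZZ :=
      d01_mem_ZordF0 hζ hB hdet hUT hb _ hw1
    refine ⟨(⟨c + CFT.d01 (locRep (adRep rbar) (pPrime p)) (w - s • e21 k),
      ZZ.add_mem hc hmem⟩, s), ?_⟩
    apply Subtype.ext
    show c + CFT.d01 (locRep (adRep rbar) (pPrime p)) (w - s • e21 k) +
      s • CFT.d01 (locRep (adRep rbar) (pPrime p)) (e21 k)
        = c + CFT.d01 (locRep (adRep rbar) (pPrime p)) w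
    rw [map_sub, map_smul]
    abel
  refine ⟨Finite.of_surjective F hF, (Nat.card_le_card_of_surjective F hF).trans ?_⟩
  rw [Nat.card_prod, pow_succ]
  exact Nat.mul_le_mul_right _ hZcard

/-- a flat lift of an ordinary `rbar` : its cocycle is in `ZordF` up to a coboundary  (the proof of `S56.Flat.flatTanM_of_isUT`). -/
theorem exists_sub_mem_ZordF (hp2 : p ≠ 2) (h2 : (2 : k) ≠ 0) (hζ : ζ ^ p = 1) (rbar : GQ →* M2 k)
    (hcont : GaloisFactorsThroughFiniteLevel rbar)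
    (hdet : ∀ σ, (rbar σ).det = (chiK p k σ : k)) (hUT : IsUT p rbar)
    {r₁ : GQ →* M2 (DualNumber k)} (h : FlatLift p rbar r₁) :
    ∃ m : sl2 k, resLoc k (pPrime p) (coc h2 r₁) - d01 (locRep (adRep rbar) (pPrime p)) m ∈
      ZordF rbar ζ hζ := by
  have hsm := isSmooth_adRep rbar hcont
  obtain ⟨m, hm⟩ := exists_upper_of_flatLift hp2 h2 rbar hdet hUT h
  refine ⟨m, ?_⟩
  -- continuity of the cocycle
  have hZ : resLoc k (pPrime p) (coc h2 r₁) ∈ Z1loc (adRep rbar) (pPrime p) := by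
    obtain ⟨L, hLfin, hL⟩ := h.cont
    refine resLoc_mem_Z1loc' _ (coc_mem_Z1 h2 levAll h.lift ?_) _
    refine ⟨(IntermediateField.normalClosure ℚ L Qb).fixingSubgroup,
      ⟨_, normalClosure.is_finiteDimensional ℚ L Qb, normalClosure.normal ℚ L Qb, rfl⟩,
      fun s hs => hL s (fun x hx => ?_)⟩
    exact hs ⟨x, IntermediateField.le_normalClosure L hx⟩
  have hB : d01 (locRep (adRep rbar) (pPrime p)) m ∈ B1loc (adRep rbar) (pPrime p) := ⟨m, rfl⟩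
  set c' : ↥(Dp p) → sl2 k :=
    resLoc k (pPrime p) (coc h2 r₁) - d01 (locRep (adRep rbar) (pPrime p)) m with hc'
  have hc'v : ∀ σ : ↥(Dp p), c' σ = coc h2 r₁ σ - (adRep rbar σ m - m) := fun σ => rfl
  have hc'Z : c' ∈ Z1loc (adRep rbar) (pPrime p) := sub_mem hZ (B1loc_le_Z1loc _ hsm _ hB)
  have h10 : ∀ σ : ↥(Dp p), ((c' σ : sl2 k) : M2 k) 1 0 = 0 := fun σ => by
    rw [hc'v]; exact (hm σ σ.2).1
  have h11 : ∀ σ : ↥(Dp p), (σ : GQ) ∈ Ip p → ((c' σ : sl2 k) : M2 k) 1 1 = 0 := fun σ hσ => by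
    rw [hc'v]; exact (hm σ σ.2).2 hσ
  have h00 : ∀ σ : ↥(Dp p), (σ : GQ) ∈ Ip p → ((c' σ : sl2 k) : M2 k) 0 0 = 0 := fun σ hσ => by
    have ht := (mem_sl2 _).1 (c' σ).2
    rw [Matrix.trace_fin_two, h11 σ hσ, add_zero] at ht
    exact ht
  have hcoc : ∀ σ τ : ↥(Dp p), c' (σ * τ) = c' σ + adRep rbar σ (c' τ) := by
    intro σ τ
    have h1 := congrFun (LinearMap.mem_ker.1 hc'Z.1) (σ, τ)
    have h2' : adRep rbar (σ : GQ) (c' τ) - c' (σ * τ) + c' σ = 0 := h1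
    have h3 : c' (σ * τ) = adRep rbar (σ : GQ) (c' τ) + c' σ := by
      have h4 : adRep rbar (σ : GQ) (c' τ) + c' σ - c' (σ * τ) = 0 := by
        rw [← h2']; abel
      exact (sub_eq_zero.1 h4).symm
    rw [h3, add_comm]
  have hpeu : Peu ζ (fun σ => ((c' σ : sl2 k) : M2 k) 0 1) := by
    refine peu_of_hasFlat hζ (X := Fin 2 → DualNumber k) (fun x => ?_) (matAct (Ip p) r₁) h.flat _
      ?_ ?_
    · funext i
      have hp0 : ((p : ℕ) : DualNumber k) = 0 := by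
        have : ((p : ℕ) : DualNumber k) = TrivSqZeroExt.inl ((p : ℕ) : k) :=
          (map_natCast (TrivSqZeroExt.inlHom k k) p).symm
        rw [this, CharP.cast_eq_zero k p, TrivSqZeroExt.inl_zero]
      rw [Pi.smul_apply, nsmul_eq_mul, hp0, zero_mul]
      rfl
    · intro σ τ hσ hτ
      have hσi : (σ : GQ)⁻¹ ∈ Ip p := (Ip p).inv_mem hσ
      rw [hcoc σ τ, Submodule.coe_add, Matrix.add_apply, adRep_apply_coe]
      congr 1
      rw [Matrix.mul_apply, Fin.sum_univ_two, Matrix.mul_apply, Fin.sum_univ_two,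
        Matrix.mul_apply, Fin.sum_univ_two, h00 τ hτ, h10 τ, h11 τ hτ, hUT.one _ hσi,
        hUT.apply_zero_zero hdet hσ]
      ring
    · intro σ hσ hα
      have hr1 : r₁ (σ : GQ) = 1 := eq_one_of_matAct_eq_one (Ip p) r₁ ⟨σ, hσ⟩ hα
      have hrb : rbar (σ : GQ) = 1 := by
        rw [← h.lift σ, hr1, map_fst_one]
      have hrbi : rbar (σ : GQ)⁻¹ = 1 := by
        have := rbar_inv_mul rbar (σ : GQ)
        rwa [hrb, mul_one] at this
      have e1 : coc h2 r₁ (σ : GQ) = 0 := by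
        unfold coc cocM
        rw [hr1, map_snd_one, zero_mul, map_zero]
      have e2 : adRep rbar (σ : GQ) m = m := by
        apply Subtype.ext
        rw [adRep_apply_coe, hrb, hrbi, one_mul, mul_one]
      show ((c' σ : sl2 k) : M2 k) 0 1 = 0
      rw [hc'v, e1, e2]
      simp
  exact ⟨hc'Z, h10, h11, hpeu⟩

omit [Fact p.Prime] [Finite k] [CharP k p] in
/-- the variation of the trace in terms of the cocycle; it does not see the coboundaries. -/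
theorem trace_coc_sub_mul (h2 : (2 : k) ≠ 0) {rbar : GQ →* M2 k} {r₁ : GQ →* M2 (DualNumber k)}
    (hl : IsLift rbar r₁) (hd : ∀ σ, (r₁ σ).det = TrivSqZeroExt.inl (rbar σ).det) (m : sl2 k)
    (σ : GQ) :
    (((coc h2 r₁ σ - (adRep rbar σ m - m) : sl2 k) : M2 k) * rbar σ).trace =
      (r₁ σ).trace.snd := by
  have e1 : ((coc h2 r₁ σ - (adRep rbar σ m - m) : sl2 k) : M2 k) =
      cocM r₁ σ - (rbar σ * (m : M2 k) * rbar σ⁻¹ - (m : M2 k)) := by
    rw [← coc_coe_of_det h2 hl hd σ]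
    rfl
  have e2 : rbar σ⁻¹ * rbar σ = 1 := by rw [← map_mul, inv_mul_cancel, map_one]
  have e3 : cocM r₁ σ * rbar σ = (r₁ σ).map TrivSqZeroExt.snd := by
    rw [cocM, hl σ⁻¹, mul_assoc, e2, mul_one]
  rw [e1, sub_mul, sub_mul, e3, mul_assoc, e2, mul_one, Matrix.trace_sub, Matrix.trace_sub,
    Matrix.trace_mul_comm (rbar σ), sub_self, sub_zero, Matrix.trace_fin_two, Matrix.trace_fin_two]
  simp

omit [Finite k] [CharP k p] in
/-- the conclusion : `#L ≤ q³` for the flat lifts with constant trace on `D_p`. -/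
def FlatStrictTanM (p : ℕ) [Fact p.Prime] {k : Type} [Field k] (h2 : (2 : k) ≠ 0)
    (rbar : GQ →* M2 k) : Prop :=
  ∃ L : Submodule k (↥(Dp p) → sl2 k),
    B1loc (adRep rbar) (pPrime p) ≤ L ∧ L ≤ Z1loc (adRep rbar) (pPrime p) ∧
    Finite ↥L ∧ Nat.card ↥L ≤ Nat.card k ^ 3 ∧
    ∀ r₁ : GQ →* M2 (DualNumber k), FlatLift p rbar r₁ →
      (∀ σ ∈ Dp p, (r₁ σ).trace = TrivSqZeroExt.inl (rbar σ).trace) →
      resLoc k (pPrime p) (coc h2 r₁) ∈ L

/-- if there is no flat lift take `L = B1loc`. -/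
theorem flatStrictTanM_of_not_exists (h2 : (2 : k) ≠ 0) (rbar : GQ →* M2 k)
    (hcont : GaloisFactorsThroughFiniteLevel rbar)
    (hex : ¬ ∃ r₁ : GQ →* M2 (DualNumber k), FlatLift p rbar r₁) : FlatStrictTanM p h2 rbar := by
  have hsm := isSmooth_adRep rbar hcont
  have hfin : Finite ↥(B1loc (adRep rbar) (pPrime p)) := by
    unfold B1loc B1
    exact Set.finite_range _
  refine ⟨B1loc (adRep rbar) (pPrime p), le_rfl, B1loc_le_Z1loc _ hsm _, hfin, ?_,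
    fun r₁ h _ => absurd ⟨r₁, h⟩ hex⟩
  have h1 : Nat.card ↥(B1loc (adRep rbar) (pPrime p)) ≤ Nat.card ↥(sl2 k) := by
    unfold B1loc B1
    exact Nat.card_le_card_of_surjective
      (LinearMap.rangeRestrict (d01 (locRep (adRep rbar) (pPrime p))))
      (LinearMap.surjective_rangeRestrict _)
  exact h1.trans LocQ.card_sl2_le

/-- `rbar` in ordinary shape. -/
theorem flatStrictTanM_of_isUT (hp2 : p ≠ 2) (h2 : (2 : k) ≠ 0) (rbar : GQ →* M2 k)
    (hcont : GaloisFactorsThroughFiniteLevel rbar)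
    (hdet : ∀ σ, (rbar σ).det = (chiK p k σ : k)) (hUT : IsUT p rbar) :
    FlatStrictTanM p h2 rbar := by
  by_cases hex : ∃ r₁ : GQ →* M2 (DualNumber k), FlatLift p rbar r₁
  swap
  · exact flatStrictTanM_of_not_exists h2 rbar hcont hex
  obtain ⟨r₀, hr₀⟩ := hex
  obtain ⟨ζ, hζ1, hζ⟩ := exists_zeta p
  have hsm := isSmooth_adRep rbar hcont
  have hflat : HasFlat (Ap p).valuation (matAct (Ip p) rbar) :=
    hasFlat_matAct_residual rbar r₀ hr₀.lift hr₀.flat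
  have hb := peu_rbar hζ hUT hdet hflat
  obtain ⟨hfin, hcard⟩ := card_ZordF0_sup_le hp2 hζ1 hζ rbar hcont hdet hUT hb
  refine ⟨ZordF0 rbar ζ hζ ⊔ B1loc (adRep rbar) (pPrime p), le_sup_right,
    sup_le (fun c hc => hc.1.1) (B1loc_le_Z1loc _ hsm _), hfin, hcard, fun r₁ h htr => ?_⟩
  obtain ⟨m, hm⟩ := exists_sub_mem_ZordF hp2 h2 hζ rbar hcont hdet hUT h
  have hB : d01 (locRep (adRep rbar) (pPrime p)) m ∈ B1loc (adRep rbar) (pPrime p) := ⟨m, rfl⟩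
  set c' : ↥(Dp p) → sl2 k :=
    resLoc k (pPrime p) (coc h2 r₁) - d01 (locRep (adRep rbar) (pPrime p)) m with hc'
  have hc'v : ∀ σ : ↥(Dp p), c' σ = coc h2 r₁ σ - (adRep rbar σ m - m) := fun σ => rfl
  -- `a σ (x σ - z σ) = 0`
  have hkey : ∀ σ : ↥(Dp p), ((c' σ : sl2 k) : M2 k) 0 0 * (rbar σ 0 0 - rbar σ 1 1) = 0 := by
    intro σ
    have h1 := trace_coc_sub_mul h2 h.lift h.det m (σ : GQ)
    rw [htr σ σ.2, TrivSqZeroExt.snd_inl, ← hc'v σ, sl2_form _ (hm.2.1 σ),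
      Matrix.eta_fin_two (rbar (σ : GQ)), hUT.tri σ σ.2] at h1
    simp only [Matrix.trace_fin_two, Matrix.mul_apply, Fin.sum_univ_two, Matrix.of_apply,
      Matrix.cons_val_zero, Matrix.cons_val_one, Matrix.cons_val', Matrix.cons_val_fin_one] at h1
    linear_combination h1
  have h00 : ∀ σ : ↥(Dp p), (σ : GQ) ∈ Ip p → ((c' σ : sl2 k) : M2 k) 0 0 = 0 := fun σ hσ => by
    have ht := (mem_sl2 _).1 (c' σ).2
    rw [Matrix.trace_fin_two, hm.2.2.1 σ hσ, add_zero] at ht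
    exact ht
  obtain ⟨φ, hφ⟩ := exists_isFrobeniusAt (pPrime p).2 (liesOverPrime_primeLocalPlace (pPrime p))
  have hφD := hφ.mem_decompositionSubgroup
  let φ' : ↥(Dp p) := ⟨φ, hφD⟩
  have haφ : ((c' φ' : sl2 k) : M2 k) 0 0 = 0 := by
    by_cases hxz : rbar φ' 0 0 = rbar φ' 1 1
    · obtain ⟨τ₀, hτ₀, hχ₀⟩ := chiK_inert_ne_one (p := p) (k := k) hp2
      let τ' : ↥(Dp p) := ⟨τ₀, inert_le_decomp _ hτ₀⟩
      obtain ⟨-, -, hadd, -⟩ := ZordF.coc hm hUT φ' τ'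
      rw [h00 τ' hτ₀, add_zero] at hadd
      rw [← hadd]
      refine (mul_eq_zero.1 (hkey (φ' * τ'))).resolve_right ?_
      have e0 : rbar ((φ' * τ' : ↥(Dp p)) : GQ) 0 0 = rbar φ' 0 0 * (chiK p k τ₀ : k) := by
        rw [Subgroup.coe_mul, map_mul, Matrix.mul_apply, Fin.sum_univ_two,
          hUT.tri τ₀ (inert_le_decomp _ hτ₀), mul_zero, add_zero,
          hUT.apply_zero_zero hdet hτ₀]
      have e1 : rbar ((φ' * τ' : ↥(Dp p)) : GQ) 1 1 = rbar φ' 1 1 := by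
        rw [Subgroup.coe_mul, map_mul, Matrix.mul_apply, Fin.sum_univ_two,
          hUT.tri φ hφD, zero_mul, zero_add, hUT.one τ₀ hτ₀, mul_one]
      rw [e0, e1, ← hxz]
      intro h0
      have hx0 : rbar φ' 0 0 ≠ 0 := by
        obtain ⟨x', -, -, -, -, e3, -, -⟩ := hUT.shape φ'
        exact left_ne_zero_of_mul_eq_one e3
      have h1 : rbar φ' 0 0 * ((chiK p k τ₀ : k) - 1) = 0 := by linear_combination h0
      exact hχ₀ (Units.ext (sub_eq_zero.1 ((mul_eq_zero.1 h1).resolve_left hx0)))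
    · exact (mul_eq_zero.1 (hkey φ')).resolve_right (sub_ne_zero.2 hxz)
  have hdiag : ∀ σ, ((c' σ : sl2 k) : M2 k) 0 0 = 0 := by
    intro σ
    have := eq_zero_of_unramified (Representation.trivial k GQ k) (pPrime p) hφ hφD
      (ZordF.diag_mem hm hUT) (fun σ hσ => h00 σ hσ) haφ
    exact congrFun this σ
  have hmem : c' ∈ ZordF0 rbar ζ hζ := ⟨hm, hdiag⟩
  have : resLoc k (pPrime p) (coc h2 r₁) = c' + d01 (locRep (adRep rbar) (pPrime p)) m := by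
    rw [hc']; abel
  rw [this]
  exact Submodule.add_mem_sup hmem hB

local notation "liftU" g₀ =>
  Units.map (RingHom.toMonoidHom (RingHom.mapMatrix (TrivSqZeroExt.inlHom _ _))) g₀

omit [Fact p.Prime] [Finite k] [CharP k p] in
lemma trace_conjRep {A : Type} [CommRing A] (M : (M2 A)ˣ) (r : GQ →* M2 A) (σ : GQ) :
    (S53.conjRep M r σ).trace = (r σ).trace := by
  rw [S53.conjRep_apply, Matrix.trace_mul_comm, ← mul_assoc, Units.inv_mul, one_mul]

/-- conjugation invariance (the proof of `S56.Flat.flatTanM_of_conj`). -/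
theorem flatStrictTanM_of_conj (h2 : (2 : k) ≠ 0) (rbar : GQ →* M2 k) (g₀ : (M2 k)ˣ)
    (h : FlatStrictTanM p h2 (S53.conjRep g₀ rbar)) : FlatStrictTanM p h2 rbar := by
  obtain ⟨L', hB, hZ, hfin, hcard, hL'⟩ := h
  let AdC : (↥(Dp p) → sl2 k) ≃ₗ[k] (↥(Dp p) → sl2 k) :=
    LinearEquiv.piCongrRight fun _ => AdSl g₀
  have hAdC : ∀ c, AdC c = (AdSl g₀ : sl2 k →ₗ[k] sl2 k) ∘ c := fun c => rfl
  have hAd : ∀ (g : ↥(Dp p)) (v : sl2 k),
      (AdSl g₀ : sl2 k →ₗ[k] sl2 k) (locRep (adRep rbar) (pPrime p) g v) =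
      locRep (adRep (S53.conjRep g₀ rbar)) (pPrime p) g ((AdSl g₀ : sl2 k →ₗ[k] sl2 k) v) :=
    fun g v => AdSl_adRep g₀ rbar g v
  have hAds : ∀ (g : ↥(Dp p)) (v : sl2 k),
      ((AdSl g₀).symm : sl2 k →ₗ[k] sl2 k) (locRep (adRep (S53.conjRep g₀ rbar)) (pPrime p) g v) =
      locRep (adRep rbar) (pPrime p) g (((AdSl g₀).symm : sl2 k →ₗ[k] sl2 k) v) := by
    intro g v
    show (AdSl g₀).symm _ = _
    rw [LinearEquiv.symm_apply_eq]
    have := hAd g ((AdSl g₀).symm v)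
    simp only [LinearEquiv.coe_coe, LinearEquiv.apply_symm_apply] at this
    exact this.symm
  let E : ↥(L'.comap (AdC : (↥(Dp p) → sl2 k) →ₗ[k] (↥(Dp p) → sl2 k))) ≃ₗ[k] ↥L' :=
    LinearEquiv.ofSubmodule' AdC L'
  refine ⟨L'.comap (AdC : (↥(Dp p) → sl2 k) →ₗ[k] (↥(Dp p) → sl2 k)), ?_, ?_, ?_, ?_, ?_⟩
  · intro b hb
    exact hB (CFT.comp_mem_B1 (AdSl g₀ : sl2 k →ₗ[k] sl2 k) hAd hb)
  · intro c hc
    have h1 := CFT.comp_mem_Z1 ((AdSl g₀).symm : sl2 k →ₗ[k] sl2 k) hAds (hZ hc)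
    convert h1 using 1
    funext g
    show c g = (AdSl g₀).symm (AdSl g₀ (c g))
    rw [LinearEquiv.symm_apply_apply]
  · exact Finite.of_equiv _ E.symm.toEquiv
  · rw [Nat.card_congr E.toEquiv]
    exact hcard
  · intro r₁ hr₁ htr
    have h1 := hL' _ (hr₁.conj g₀) (fun σ hσ => by
      rw [trace_conjRep, trace_conjRep, htr σ hσ])
    show AdC (resLoc k (pPrime p) (coc h2 r₁)) ∈ L'
    convert h1 using 1
    funext g
    exact (coc_conjRep_const h2 g₀ r₁ g).symm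

/-- **[FLAT-STRICT]** : `rbar|_{D_p}` reducible : the flat lifts with constant trace on `D_p` lie in a local condition with
`#L ≤ #k³` (one less than the flat, resp. the strict ordinary condition). -/
theorem exists_flat_strict_condition (hp2 : p ≠ 2) (h2 : (2 : k) ≠ 0) (rbar : GQ →* M2 k)
    (hcont : GaloisFactorsThroughFiniteLevel rbar)
    (hdet : ∀ σ, (rbar σ).det = (chiK p k σ : k))
    (hred : ∃ w : Fin 2 → k, w ≠ 0 ∧ ∀ σ ∈ Dp p, ∃ c : k, (rbar σ).mulVec w = c • w) :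
    FlatStrictTanM p h2 rbar := by
  by_cases hex : ∃ r₁ : GQ →* M2 (DualNumber k), FlatLift p rbar r₁
  swap
  · exact flatStrictTanM_of_not_exists h2 rbar hcont hex
  obtain ⟨r₀, hr₀⟩ := hex
  have hflat : HasFlat (Ap p).valuation (matAct (Ip p) rbar) :=
    hasFlat_matAct_residual rbar r₀ hr₀.lift hr₀.flat
  obtain ⟨g₀, hg₀⟩ := exists_isUT hp2 rbar hcont hdet hred hflat
  refine flatStrictTanM_of_conj h2 rbar g₀ (flatStrictTanM_of_isUT hp2 h2 _ ?_ ?_ hg₀)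
  · obtain ⟨L, hL, h⟩ := hcont
    refine ⟨L, hL, fun σ hσ => ?_⟩
    show (g₀ : M2 k) * rbar σ * ((g₀⁻¹ : (M2 k)ˣ) : M2 k) = 1
    rw [h σ hσ, mul_one, Units.mul_inv]
  · intro σ
    show ((g₀ : M2 k) * rbar σ * ((g₀⁻¹ : (M2 k)ˣ) : M2 k)).det = _
    rw [Matrix.det_mul, Matrix.det_mul, mul_right_comm, ← Matrix.det_mul, Units.mul_inv,
      Matrix.det_one, one_mul, hdet]

/-! ### how to get the hypotheses -/

omit [Fact p.Prime] [Finite k] [CharP k p] in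
lemma trace_fst_of_isLift {rbar : GQ →* M2 k} {r₁ : GQ →* M2 (DualNumber k)} (hl : IsLift rbar r₁)
    (σ : GQ) : (r₁ σ).trace.fst = (rbar σ).trace := by
  rw [← hl σ, Matrix.trace_fin_two, Matrix.trace_fin_two]
  rfl

omit [Finite k] in
/-- a triangular model (helper55's `TriModel`) has constant trace on `D_p`. -/
theorem trace_of_triModel {rbar : GQ →* M2 k} {r₁ : GQ →* M2 (DualNumber k)} (hl : IsLift rbar r₁)
    (ht : TriModel p r₁) :
    ∀ σ ∈ Dp p, (r₁ σ).trace = TrivSqZeroExt.inl (rbar σ).trace := by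
  obtain ⟨r', M, hM, hD, -⟩ := ht
  intro σ hσ
  obtain ⟨z, β, -, hr⟩ := hD σ hσ
  have e1 : (r₁ σ).trace = (r' σ).trace := by
    rw [S53.eq_conjRep_of_mul_eq hM, trace_conjRep]
  have e2 : (r₁ σ).trace = TrivSqZeroExt.inl ((chiK p k σ : k) * z + z) := by
    rw [e1, hr, Matrix.trace_fin_two_of, TrivSqZeroExt.inl_add]
  rw [e2, ← trace_fst_of_isLift hl σ, e2, TrivSqZeroExt.fst_inl]

/-- the strict ordinary operator identity (helper55's `StrictOp`) gives a constant trace on `D_p`. -/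
theorem trace_of_strictOp (hp2 : p ≠ 2) (h2 : (2 : k) ≠ 0) {rbar : GQ →* M2 k}
    (hdet : ∀ σ, (rbar σ).det = (chiK p k σ : k)) {r₁ : GQ →* M2 (DualNumber k)}
    (hl : IsLift rbar r₁) (hd : ∀ σ, (r₁ σ).det = TrivSqZeroExt.inl (rbar σ).det)
    (hs : StrictOp p r₁) :
    ∀ σ ∈ Dp p, (r₁ σ).trace = TrivSqZeroExt.inl (rbar σ).trace :=
  trace_of_triModel hl (triModel_of_strictOp hp2 h2 rbar hdet r₁ hd hs)

/-- a stable line of `rbar|_{D_p}` from the operator identity `(rbar σ - a σ)(rbar τ - e τ) = 0`, `e = 1` on `I_p`. -/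
theorem exists_line_of_op (hp2 : p ≠ 2) {rbar : GQ →* M2 k}
    (hdet : ∀ σ, (rbar σ).det = (chiK p k σ : k)) (a e : GQ → k)
    (he : ∀ σ ∈ Ip p, e σ = 1)
    (hs : ∀ σ ∈ Dp p, ∀ τ ∈ Dp p,
      (rbar σ - a σ • (1 : M2 k)) * (rbar τ - e τ • (1 : M2 k)) = 0) :
    ∃ w : Fin 2 → k, w ≠ 0 ∧ ∀ σ ∈ Dp p, ∃ c : k, (rbar σ).mulVec w = c • w := by
  obtain ⟨τ₀, hτ₀, hχ₀⟩ := chiK_inert_ne_one (p := p) (k := k) hp2
  have hτD : τ₀ ∈ Dp p := inert_le_decomp _ hτ₀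
  have hne : rbar τ₀ - (1 : M2 k) ≠ 0 := by
    intro h0
    apply hχ₀
    apply Units.ext
    rw [← hdet τ₀, sub_eq_zero.1 h0, Matrix.det_one]
    rfl
  obtain ⟨v, hv⟩ : ∃ v : Fin 2 → k, (rbar τ₀ - (1 : M2 k)).mulVec v ≠ 0 := by
    by_contra hcon
    push Not at hcon
    apply hne
    ext i j
    have := congrFun (hcon (Pi.single j 1)) i
    rw [Matrix.mulVec_single_one] at this
    simpa using this
  refine ⟨_, hv, fun σ hσ => ⟨a σ, ?_⟩⟩
  have h1 := hs σ hσ τ₀ hτD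
  rw [he τ₀ hτ₀, one_smul] at h1
  have h3 := congrArg (fun X : M2 k => X.mulVec v) h1
  simp only [← Matrix.mulVec_mulVec, Matrix.zero_mulVec, Matrix.sub_mulVec, Matrix.smul_mulVec,
    Matrix.one_mulVec] at h3
  simp only [Matrix.sub_mulVec, Matrix.one_mulVec]
  exact sub_eq_zero.1 h3

section Push

variable {Λ A : Type} [CommRing Λ] [Algebra Λ k] [CommRing A] [Algebra Λ A]

open Fermat.Agent.S56.Gen

omit [Fact p.Prime] [Finite k] [CharP k p] in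
/-- `tr rA σ ∈ Λ + J` ⟹ the tangent vectors killing `J` have constant trace at `σ`. -/
theorem trace_pushRep_of_mem {rbar : GQ →* M2 k} {π : A →ₐ[Λ] k} {rA : GQ →* M2 A}
    (hlift : ∀ σ, (rA σ).map π = rbar σ) {J : Ideal A} {φ : A →ₐ[Λ] DualNumber k}
    (hφ : φ ∈ TanSet π J) {σ : GQ} (h : ∃ c : Λ, (rA σ).trace - algebraMap Λ A c ∈ J) :
    (pushRep φ rA σ).trace = TrivSqZeroExt.inl (rbar σ).trace := by
  obtain ⟨c, hc⟩ := h
  have h1 : φ (rA σ).trace = algebraMap Λ (DualNumber k) c := by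
    have := hφ.2 _ hc
    rwa [map_sub, AlgHom.commutes, sub_eq_zero] at this
  have h3 : (pushRep φ rA σ).trace = TrivSqZeroExt.inl (algebraMap Λ k c) := by
    rw [trace_pushRep, h1]
    rfl
  rw [h3, ← trace_fst_of_isLift (isLift_pushRep hlift hφ.1) σ, h3, TrivSqZeroExt.fst_inl]

omit [Finite k] [CharP k p] in
/-- the field `atp` of (GEN), weight one : flat and `tr rA σ ∈ Λ + J` on `D_p`. -/
theorem atp_of_flat_trace (h2 : (2 : k) ≠ 0) {rbar : GQ →* M2 k} {π : A →ₐ[Λ] k}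
    {rA : GQ →* M2 A} (hlift : ∀ σ, (rA σ).map π = rbar σ)
    (hdetA : ∀ σ, ∃ c : Λ, (rA σ).det = algebraMap Λ A c) {T : Finset Nat.Primes}
    (hlev : ∃ U ∈ (levS T).carrier, ∀ s ∈ U, rA s = 1) {J : Ideal A}
    (htr : ∀ σ ∈ Dp p, ∃ c : Λ, (rA σ).trace - algebraMap Λ A c ∈ J)
    {L : Submodule k (↥(Dp p) → sl2 k)}
    (hL : ∀ r₁ : GQ →* M2 (DualNumber k), FlatLift p rbar r₁ →
      (∀ σ ∈ Dp p, (r₁ σ).trace = TrivSqZeroExt.inl (rbar σ).trace) →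
      resLoc k (pPrime p) (coc h2 r₁) ∈ L)
    {φ : A →ₐ[Λ] DualNumber k} (hφ : φ ∈ TanSet π J)
    (hflat : HasFlat (Ap p).valuation (matAct (Ip p) (pushRep φ rA))) :
    resLoc k (pPrime p) (coc h2 (pushRep φ rA)) ∈ L :=
  hL _ ⟨isLift_pushRep hlift hφ.1, det_pushRep hlift hdetA φ, cont_pushRep hlev φ, hflat⟩
    (fun σ hσ => trace_pushRep_of_mem hlift hφ (htr σ hσ))

end Push

/-! ### the budget and the generators : weight one at `p` -/

/-- the budget of `strictFam` when `#Lp ≤ #k³`. -/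
theorem prod_card_strictFam_le_p (rbar : GQ →* M2 k) (S₀ R : Finset Nat.Primes)
    (hpS : pPrime p ∈ S₀) (hR : R ⊆ S₀) (hpR : pPrime p ∉ R)
    (Lp : Submodule k (↥(decomp (pPrime p)) → sl2 k)) (hLpcard : Nat.card ↥Lp ≤ Nat.card k ^ 3)
    (w : Nat.Primes → ℕ)
    (hw : ∀ v ∈ R, Nat.card ↥(B1loc (adRep rbar) v) * Nat.card k ^ w v ≤ Nat.card k ^ 3) :
    (∏ v ∈ S₀, Nat.card ↥(strictFam rbar Lp R v)) * Nat.card k ^ (∑ v ∈ R, w v + 1) ≤
      Nat.card k ^ (3 * S₀.card + 1 + 0) := by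
  classical
  have hRe : R ⊆ S₀.erase (pPrime p) := fun v hv =>
    Finset.mem_erase.2 ⟨fun e => hpR (e ▸ hv), hR hv⟩
  rw [pow_succ, ← Finset.mul_prod_erase S₀ _ hpS, strictFam_not_mem rbar Lp hpR, locFam_p,
    ← Finset.prod_sdiff hRe, ← Finset.prod_pow_eq_pow_sum]
  have h1 : (∏ v ∈ R, Nat.card ↥(strictFam rbar Lp R v)) * ∏ v ∈ R, Nat.card k ^ w v ≤
      (Nat.card k ^ 3) ^ R.card := by
    rw [← Finset.prod_mul_distrib]
    refine Finset.prod_le_pow_card _ _ _ fun v hv => ?_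
    rw [strictFam_mem rbar Lp hv]
    exact hw v hv
  have h2' : ∏ v ∈ S₀.erase (pPrime p) \ R, Nat.card ↥(strictFam rbar Lp R v) ≤
      (Nat.card k ^ 3) ^ (S₀.erase (pPrime p) \ R).card := by
    refine Finset.prod_le_pow_card _ _ _ fun v hv => ?_
    obtain ⟨hv1, hv2⟩ := Finset.mem_sdiff.1 hv
    rw [strictFam_not_mem rbar Lp hv2, locFam_ne rbar Lp (Finset.ne_of_mem_erase hv1), ← card_sl2]
    exact (card_Lur_le (adRep rbar) v).2
  have hc : (S₀.erase (pPrime p) \ R).card + R.card + 1 = S₀.card := by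
    rw [Finset.card_sdiff_add_card_eq_card hRe, Finset.card_erase_add_one hpS]
  calc Nat.card ↥Lp * ((∏ v ∈ S₀.erase (pPrime p) \ R, Nat.card ↥(strictFam rbar Lp R v)) *
        ∏ v ∈ R, Nat.card ↥(strictFam rbar Lp R v)) * ((∏ v ∈ R, Nat.card k ^ w v) * Nat.card k)
      = Nat.card ↥Lp * (∏ v ∈ S₀.erase (pPrime p) \ R, Nat.card ↥(strictFam rbar Lp R v)) *
        ((∏ v ∈ R, Nat.card ↥(strictFam rbar Lp R v)) * ∏ v ∈ R, Nat.card k ^ w v) *
          Nat.card k := by ring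
    _ ≤ Nat.card k ^ 3 * (Nat.card k ^ 3) ^ (S₀.erase (pPrime p) \ R).card *
        (Nat.card k ^ 3) ^ R.card * Nat.card k :=
          Nat.mul_le_mul_right _ (Nat.mul_le_mul (Nat.mul_le_mul hLpcard h2') h1)
    _ = Nat.card k ^ (3 * S₀.card + 1 + 0) := by
        rw [← hc, ← pow_mul, ← pow_mul, ← pow_add, ← pow_add, ← pow_succ]; congr 1; ring

/-- generators for `GenHypS` with `#Lp ≤ #k³` : ONE GENERATOR LESS than `TWCard.gens_strict_sub`. -/
theorem TWCard.gens_strict_sub_p {h2 : (2 : k) ≠ 0} {rbar : GQ →* M2 k}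
    {S₀ Q : Finset Nat.Primes} (W : TWCard p h2 rbar S₀ Q)
    (hcont : GaloisFactorsThroughFiniteLevel rbar)
    (hpS : pPrime p ∈ S₀) {R : Finset Nat.Primes} (hR : R ⊆ S₀) (hpR : pPrime p ∉ R)
    (w : Nat.Primes → ℕ)
    (hw : ∀ v ∈ R, Nat.card ↥(B1loc (adRep rbar) v) * Nat.card k ^ w v ≤ Nat.card k ^ 3)
    {Lp : Submodule k (↥(decomp (pPrime p)) → sl2 k)} (hLpB : B1loc (adRep rbar) (pPrime p) ≤ Lp)
    (hLpZ : Lp ≤ Z1loc (adRep rbar) (pPrime p)) (hLpcard : Nat.card ↥Lp ≤ Nat.card k ^ 3)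
    {Λ F A : Type} [CommRing Λ] [Field F] [Algebra Λ F] [Algebra F k] [Algebra Λ k]
    [IsScalarTower Λ F k] [CommRing A] [Algebra Λ A]
    (hΛ : Function.Surjective (algebraMap Λ F)) {π0 : A →ₐ[Λ] F} {rA : GQ →* M2 A} {J : Ideal A}
    (H : GenHypS p h2 rbar S₀ Q R Lp (piKL k π0) rA J) :
    ∑ v ∈ R, w v + 1 ≤ Q.card ∧ ∃ x : Fin (Q.card - (∑ v ∈ R, w v + 1)) → A,
      (∀ i, π0 (x i) = 0) ∧
      RingHom.ker (π0 : A →+* F) ≤ J ⊔ Ideal.span (Set.range x) ⊔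
        RingHom.ker (π0 : A →+* F) ^ 2 ⊔ (RingHom.ker (algebraMap Λ F)).map (algebraMap Λ A) := by
  classical
  have hsmA : CFT.IsSmooth levAll (adRep rbar) := isSmooth_adRep rbar hcont
  exact W.gens_sub (L := strictFam rbar Lp R)
    (fun v _ => by
      by_cases hvR : v ∈ R
      · rw [strictFam_mem rbar Lp hvR]
      rw [strictFam_not_mem rbar Lp hvR]
      by_cases hv : v = pPrime p
      · subst hv; rw [locFam_p]; exact hLpB
      · rw [locFam_ne rbar Lp hv]; exact B1loc_le_Lur _ hsmA v)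
    (fun v _ => by
      by_cases hvR : v ∈ R
      · rw [strictFam_mem rbar Lp hvR]; exact B1loc_le_Z1loc _ hsmA v
      rw [strictFam_not_mem rbar Lp hvR]
      by_cases hv : v = pPrime p
      · subst hv; rw [locFam_p]; exact hLpZ
      · rw [locFam_ne rbar Lp hv]; exact Lur_le_Z1loc _ v)
    (d := ∑ v ∈ R, w v + 1) (e := 0)
    (prod_card_strictFam_le_p rbar S₀ R hpS hR hpR Lp hLpcard w hw)
    hΛ H.toL

end Fermat.Agent.ML
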