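import Fermat.Agent.S33.Geo.Main
import Fermat.Agent.SS.Top35.Geo
import Fermat.Agent.NP.Mod.Main

/-!
# ML / AtP / Frob : (M2) [P-FROB], geometric part, residue characteristic `p`, exponent `p ^ k`

At a rigid level `M` (`4 ∣ M` or `9 ∣ M`), `p ∤ M`: the subgroup `Z` of the TORIC classes in the
`p`-new part `K_p[p ^ k] = ker (pushA, pushB)` of `J₀(M p)[p ^ k]`:

* `(τ - 1) K_p[p ^ k] ≤ Z`, `τ` in the inertia group at `p`        (`SS.isToric_smul_sub`);
* `(σ² - 1) K_p[p ^ k] ≤ Z`, `σ` a Frobenius lift at `p`            (`SS.isToric_frob_sq`, `q = p`);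
* `δ` in the inertia group, non trivial on `μ_p`: no fixed point `≠ 0` on `Z`  (`NP.newP`, dévissage).
-/

set_option autoImplicit false
set_option linter.style.haveILetI false
set_option linter.unusedSectionVars false

noncomputable section

open AlgebraicCurve ModularCurve IsLocalRing

namespace Fermat.Agent.ML

open Fermat.Agent.SS Fermat.Agent.S32 Fermat.Agent.S33
open Fermat.Agent.RED hiding Kb
open Fermat.Agent.S24
open Fermat.Agent.RED.Cusp (Fb jb)

/-- **[P-FROB], geometric part** (rigid levels). -/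
theorem exists_toricNew {M p : ℕ} [NeZero M] [hp : Fact p.Prime] (hpM : ¬ p ∣ M)
    (h49 : 4 ∣ M ∨ 9 ∣ M) (k : ℕ) (P : ValuationSubring Kb) (hP : P.LiesOverPrime p) :
    ∃ Z : AddSubgroup (JZero (M * p)),
      (∀ z ∈ Z, p ^ k • z = 0 ∧ pushA M p z = 0 ∧ pushB M p z = 0) ∧
      (∀ τ ∈ P.inertiaSubgroupIn ℚ, ∀ x : JZero (M * p), p ^ k • x = 0 → pushA M p x = 0 →
        pushB M p x = 0 → τ • x - x ∈ Z) ∧
      (∀ σ : GQ, P.IsFrobeniusAt σ p → ∀ x : JZero (M * p), p ^ k • x = 0 → pushA M p x = 0 →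
        pushB M p x = 0 → σ • σ • x - x ∈ Z) ∧
      (∀ δ ∈ P.inertiaSubgroupIn ℚ, ∀ a : ℕ, (∀ ζ : Kb, ζ ^ p = 1 → δ ζ = ζ ^ a) →
        ¬ a ≡ 1 [MOD p] → ∀ z ∈ Z, δ • z = z → z = 0) := by
  haveI : IsAlgClosed (ResidueField P) := GalEq.isAlgClosed_residueField P
  haveI : CharP (ResidueField P) p := GalEq.charP_residueField hp.out hP
  obtain ⟨𝒩, hI, -⟩ := exists_nodalData_compat hpM P h49 hP
  have hm : p ^ k ≠ 0 := pow_ne_zero _ hp.out.ne_zero
  have htors : ∀ (g : GQ) (x : JZero (M * p)), p ^ k • x = 0 → p ^ k • (g • x) = 0 := by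
    intro g x hx
    rw [smul_comm (p ^ k) g x, hx, smul_zero]
  refine ⟨toricSub (twoRed hpM (residue P) residue_surjective) (p ^ k) ⊓ (pushA M p).ker ⊓
    (pushB M p).ker, ?_, ?_, ?_, ?_⟩
  · rintro z ⟨⟨h1, h2⟩, h3⟩
    exact ⟨IsToric.nsmul_eq_zero h1, h2, h3⟩
  · intro τ hτ x hx e1 e2
    refine ⟨⟨?_, ?_⟩, ?_⟩
    · exact isToric_smul_sub 𝒩 (RB.isSepParam_jF (M * p)) hm (hI τ hτ) (y := x) hx
    · show pushA M p (τ • x - x) = 0
      rw [map_sub, pushA_smul, e1, sub_zero]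
      exact smul_zero (A := JZero M) τ
    · show pushB M p (τ • x - x) = 0
      rw [map_sub, pushB_smul, e2, sub_zero]
      exact smul_zero (A := JZero M) τ
  · intro σ hσ x hx e1 e2
    refine ⟨⟨?_, ?_⟩, ?_⟩
    · obtain ⟨D, rfl⟩ := Pic0.mk_surjective x
      obtain ⟨f, hf⟩ := TorsES.exists_isDiv_of_nsmul_eq_zero hx
      obtain ⟨h, -, hh⟩ := exists_normAlong_eq_of_pushPic0_eq_zero _ _ _ _
        (RB.isSepParam_jF M) hm hf e1
      obtain ⟨h', -, hh'⟩ := exists_normAlong_eq_of_pushPic0_eq_zero _ _ _ _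
        (RB.isSepParam_jF M) hm hf e2
      have h1 := isToric_frob_sq hpM P h49 hP (normRedA hpM _ _) (normRedB hpM _ _) hm hσ hf hh hh'
      have h3 : ∀ z : JZero (M * p), gal (M * p) (σ * σ) • z = σ • σ • z := by
        intro z
        rw [gal, map_mul, mul_smul]
        rfl
      rw [h3] at h1
      exact h1
    · show pushA M p (σ • σ • x - x) = 0
      rw [map_sub, pushA_smul, pushA_smul, e1, sub_zero, smul_zero (A := JZero M) σ]
      exact smul_zero (A := JZero M) σ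
    · show pushB M p (σ • σ • x - x) = 0
      rw [map_sub, pushB_smul, pushB_smul, e2, sub_zero, smul_zero (A := JZero M) σ]
      exact smul_zero (A := JZero M) σ
  · rintro δ hδ a ha ha1 x ⟨⟨hx, e1⟩, e2⟩ e3
    have hk : p ^ k • x = 0 := IsToric.nsmul_eq_zero hx
    cases k with
    | zero => simpa using hk
    | succ j =>
      haveI : CharP (Fb (ResidueField P) M) p :=
        charP_of_injective_algebraMap (algebraMap (ResidueField P) (Fb (ResidueField P) M)).injective p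
      let S : AddSubgroup (JZero (M * p)) :=
        toricSub (twoRed hpM (residue P) residue_surjective) (p ^ (j + 1)) ⊓ (pushA M p).ker ⊓
          (pushB M p).ker ⊓
          (DistribSMul.toAddMonoidHom (JZero (M * p)) δ - AddMonoidHom.id _).ker
      refine eq_zero_of_pow_nsmul S ?_ (j + 1) x
        ⟨⟨⟨hx, e1⟩, e2⟩, by
          show δ • x - x = 0
          rw [e3, sub_self]⟩ hk
      rintro y ⟨⟨⟨hy, f1⟩, f2⟩, f3⟩ hpy
      have f3' : δ • y = y := by
        have f4 : δ • y - y = 0 := f3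
        exact sub_eq_zero.1 f4
      have ht := IsToric.of_pow (RB.isSepParam_jF (M * p)) hy hpy
      have h1 := NP.newP hpM h49 P hP δ hδ a ha y hpy ht f1 f2
      exact eq_zero_of_nsmul_eq hp.out ha1 hpy (h1.symm.trans f3')

end Fermat.Agent.ML
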