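import Fermat.Agent.ML.AtP.Cell
import Fermat.Agent.ML.AtP.MaNew

/-!
# ML / AtP / LocTheta : the field `atp` of `IsCell` in the case (Ma) (`p ∣ L₀`), at EVERY cell level

`p ∣ L₀`, `P ⊆ Pfin`, `Lc = cellLevel L₀ P`.   The whole `p^a`-torsion of the `θ`-part of the level `lvl Lc (extP qv) t` is strictly
ordinary at `p` with the sign character `eP` of `W` :

* `LCtx.dvd_disc_of_dvd` : `p ∣ L₀ ⟹ p ∣ Δ_W`;
* `LCtx.not_dvd_lvl_old`, `LCtx.four_dvd_cell_old` : `p ∤ lvl (cellLevel L₁ P) (extP qv) t`, `4 ∣ cellLevel L₁ P`;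
* `LCtx.locPSt_theta` : `LocPSt p eP a (RIB.Rho.thTors (lvl Lc (extP qv) t) p (p^a) (cutS T qv) a_W)`;
* `LCtx.locPSt_of_le` : `LocPSt p eP a G` for EVERY subgroup `G ≤ thetaPart`, `p^a G = 0`   (= `IsCell.atp`; no other hypothesis on `G`);
* `LCtx.mtw_cell` : `MTW` at a cell level from a frame;   `LCtx.atp_of_not_mem` : the field `IsCell.atp` VERBATIM when `p ∉ P`.
-/

set_option autoImplicit false
set_option linter.style.haveILetI false

noncomputable section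

open AlgebraicCurve ModularCurve

namespace Fermat.Agent.ML

open Fermat.Agent.RIB Fermat.Agent.ML.ESide

local notation "Qbar" => AlgebraicClosure ℚ
local notation "GQ" => (AlgebraicClosure ℚ ≃ₐ[ℚ] AlgebraicClosure ℚ)
local notation "M₂" => Matrix (Fin 2) (Fin 2)

variable {W : WeierstrassCurve ℤ} {p : ℕ} [Fact p.Prime] {T : Finset ℕ}
  {b : Module.Basis (Fin 2) (ZMod p) (TorsW W p)} {L₀ : ℕ} [NeZero L₀] {eps : ℕ → ℤ} {eP : GQ → ℤ}

/-- in the case (Ma) `W` is bad at `p`. -/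
theorem LCtx.dvd_disc_of_dvd (X : LCtx W p T b L₀ eps eP) (hpL : p ∣ L₀) : (p : ℤ) ∣ W.Δ := by
  by_contra h
  exact X.BP.goodp h hpL

theorem LCtx.four_dvd_cell_old (X : LCtx W p T b L₀ eps eP) {L₁ : ℕ} (hL : L₀ = L₁ * p)
    (P : Finset ℕ) : 4 ∣ cellLevel L₁ P := by
  have hp : p.Prime := Fact.out
  obtain ⟨M, hM, -, -⟩ := X.BP.shape
  have h1 : 4 ∣ L₁ * p := by rw [← hL, hM]; exact Dvd.intro_left M rfl
  have hcop : Nat.Coprime 4 p := by
    have : Nat.Coprime (2 ^ 2) p :=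
      Nat.Coprime.pow_left 2 ((Nat.coprime_primes Nat.prime_two hp).2 (Ne.symm X.C.hp2))
    simpa using this
  exact (hcop.dvd_of_dvd_mul_right h1).mul_right _

theorem LCtx.not_dvd_lvl_old (X : LCtx W p T b L₀ eps eP) {L₁ : ℕ} (hL : L₀ = L₁ * p)
    {P : Finset ℕ} (hP : P ⊆ Pfin W (rbarB b) L₀) {t : ℕ} {qv : Fin t → Nat.Primes}
    (hqv : ∀ i, ((qv i : Nat.Primes) : ℕ) ∉ T) : ¬ p ∣ lvl (cellLevel L₁ P) (extP qv) t := by
  have hp : p.Prime := Fact.out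
  have hpL : p ∣ L₀ := Dvd.intro_left L₁ hL.symm
  have hpT : p ∈ T := X.BP.levT p hp (Dvd.intro_left L₀ rfl)
  intro hd
  rcases dvd_lvl_cases t hp hd with h | ⟨j, hj⟩
  · unfold cellLevel at h
    rcases (Nat.Prime.dvd_mul hp).1 h with h | h
    · obtain ⟨M, hM, -, hsq⟩ := X.BP.shape
      have h1 : p * p ∣ M * 4 := by
        rw [← hM, hL]
        exact Nat.mul_dvd_mul_right h p
      have hcop : Nat.Coprime p 4 := by
        have : Nat.Coprime p (2 ^ 2) :=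
          Nat.Coprime.pow_right 2 ((Nat.coprime_primes hp Nat.prime_two).2 X.C.hp2)
        simpa using this
      have h2 : Nat.Coprime (p * p) 4 := Nat.Coprime.mul_left hcop hcop
      exact hp.one_lt.ne' (Nat.isUnit_iff.1 (hsq p (h2.dvd_of_dvd_mul_right h1)))
    · obtain ⟨q, hq, hpq⟩ := (Prime.dvd_finsetProd_iff hp.prime _).1 h
      have hqP := hP (Finset.mem_of_mem_erase hq)
      have hqpr := X.prime_of_mem_Pfin hqP
      exact X.p_not_mem_Pfin hpL ((Nat.prime_dvd_prime_iff_eq hp hqpr).1 hpq ▸ hqP)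
  · exact hqv j (hj ▸ hpT)

/-- **(Ma)** : the `p^a`-torsion of the `θ`-part of a cell level is strictly ordinary at `p`, with the sign character of `W`. -/
theorem LCtx.locPSt_theta (hLow : LowerStmt) (X : LCtx W p T b L₀ eps eP) (hpL : p ∣ L₀)
    {P : Finset ℕ} (hP : P ⊆ Pfin W (rbarB b) L₀) (Lc : ℕ) [NeZero Lc]
    (hLc : Lc = cellLevel L₀ P) {t n : ℕ} {qv : Fin t → Nat.Primes}
    (TC : MTW p T W.apOfModel Lc t n qv) (a : ℕ) :
    LocPSt p eP a
      (Rho.thTors (lvl Lc (extP qv) t) p (p ^ a) (↑(cutS T qv) : Set ℕ) W.apOfModel :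
        Set (JZero (lvl Lc (extP qv) t))) := by
  have hp : p.Prime := Fact.out
  obtain ⟨L₁, hL⟩ : ∃ L₁, L₀ = L₁ * p := by
    obtain ⟨c, hc⟩ := hpL
    exact ⟨c, by rw [hc, mul_comm]⟩
  have hLc' : Lc = cellLevel L₁ P * p := by rw [hLc, hL, cellLevel_mul]
  haveI : NeZero (cellLevel L₁ P) := ⟨fun h0 => NeZero.ne Lc (by rw [hLc', h0, zero_mul])⟩
  have h4 := X.four_dvd_cell_old hL P
  have TC' : MTW p T W.apOfModel (cellLevel L₁ P) t n qv :=
    TC.of_dvd (Dvd.intro _ hLc'.symm) h4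
  obtain ⟨h, hpush⟩ := X.cell_push_eq_zero hLow hL hP (cellLevel L₁ P) rfl TC' Lc hLc
  exact X.locPSt_of_new (G := Rho.thTors (lvl Lc (extP qv) t) p (p ^ a) (↑(cutS T qv) : Set ℕ)
    W.apOfModel) (X.dvd_disc_of_dvd hpL) h (X.not_dvd_lvl_old hL hP TC.notT)
    (Or.inl (h4.trans (dvd_lvl _ _ _))) (subset_cutS T qv) (fun r hr hd => TC.mem_cutS t hr hd)
    (fun x hx => hx.1) (fun g x hx => Rho.smul_mem_thTors g hx)
    (fun x hx => hx.2) (fun x hx => hpush x hx.1)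

/-- **(Ma), the field `IsCell.atp`** for an arbitrary subgroup of the `θ`-part killed by `p^a`. -/
theorem LCtx.locPSt_of_le (hLow : LowerStmt) (X : LCtx W p T b L₀ eps eP) (hpL : p ∣ L₀)
    {P : Finset ℕ} (hP : P ⊆ Pfin W (rbarB b) L₀) (Lc : ℕ) [NeZero Lc]
    (hLc : Lc = cellLevel L₀ P) {t n : ℕ} {qv : Fin t → Nat.Primes}
    (TC : MTW p T W.apOfModel Lc t n qv) {a : ℕ}
    {G : AddSubgroup (JZero (lvl Lc (extP qv) t))}
    (hle : G ≤ thetaPart (lvl Lc (extP qv) t) p (↑(cutS T qv) : Set ℕ) W.apOfModel)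
    (hGa : ∀ x ∈ G, p ^ a • x = 0) : LocPSt p eP a (G : Set (JZero (lvl Lc (extP qv) t))) :=
  fun s₁ h₁ s₂ h₂ x hx =>
    X.locPSt_theta hLow hpL hP Lc hLc TC a s₁ h₁ s₂ h₂ x ⟨hle hx, hGa x hx⟩

/-! ### the same from a frame -/

/-- the primes of a cell level are in `T`. -/
theorem LCtx.locTheta_mem_T (X : LCtx W p T b L₀ eps eP) {P : Finset ℕ}
    (hP : P ⊆ Pfin W (rbarB b) L₀) {r : ℕ} (hr : r.Prime) (hd : r ∣ cellLevel L₀ P * p) :
    r ∈ T := by
  rcases (Nat.Prime.dvd_mul hr).1 hd with h | h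
  · unfold cellLevel at h
    rcases (Nat.Prime.dvd_mul hr).1 h with h | h
    · exact X.BP.levT r hr (h.mul_right p)
    · obtain ⟨q, hq, hrq⟩ := (Prime.dvd_finsetProd_iff hr.prime _).1 h
      have hqP := hP (Finset.mem_of_mem_erase hq)
      have hqpr := X.prime_of_mem_Pfin hqP
      rw [(Nat.prime_dvd_prime_iff_eq hr hqpr).1 hrq]
      exact X.hbadT q hqpr (X.dvd_of_mem_Pfin hqP)
  · exact X.BP.levT r hr (h.mul_left L₀)

theorem LCtx.locTheta_four_dvd (X : LCtx W p T b L₀ eps eP) (P : Finset ℕ) :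
    4 ∣ cellLevel L₀ P := by
  obtain ⟨M, hM, -, -⟩ := X.BP.shape
  exact (hM ▸ Dvd.intro_left M rfl : 4 ∣ L₀).mul_right _

/-- the Taylor-Wiles context at a cell level, from a frame. -/
theorem LCtx.mtw_cell (X : LCtx W p T b L₀ eps eP) {P : Finset ℕ}
    (hP : P ⊆ Pfin W (rbarB b) L₀) {hp2 : p ≠ 2} {t F₀ C₀ a m n K : ℕ} {qv : Fin t → Nat.Primes}
    (F : Frm p hp2 T W.apOfModel (rbarB b) t F₀ C₀ a m n K qv) {Lc : ℕ}
    (hLc : Lc = cellLevel L₀ P) : MTW p T W.apOfModel Lc t n qv :=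
  F.tw Lc (fun _ hr hd => X.locTheta_mem_T hP hr (hLc ▸ hd))
    (hLc ▸ X.locTheta_four_dvd P)

/-- `p` divides a cell level only if it divides `L₀` or has been raised. -/
theorem LCtx.dvd_of_dvd_cellLevel (X : LCtx W p T b L₀ eps eP) {P : Finset ℕ}
    (hP : P ⊆ Pfin W (rbarB b) L₀) (hpP : p ∉ P) (h : p ∣ cellLevel L₀ P) : p ∣ L₀ := by
  have hp : p.Prime := Fact.out
  unfold cellLevel at h
  rcases (Nat.Prime.dvd_mul hp).1 h with h | h
  · exact h
  · obtain ⟨q, hq, hpq⟩ := (Prime.dvd_finsetProd_iff hp.prime _).1 h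
    have hqP := Finset.mem_of_mem_erase hq
    exact absurd ((Nat.prime_dvd_prime_iff_eq hp (X.prime_of_mem_Pfin (hP hqP))).1 hpq ▸ hqP) hpP

/-- **the field `IsCell.atp`, VERBATIM, for every state `P` in which `p` has not been raised**  (Base, Step at `2`, soft, hard) :
any subgroup `G` of the `θ`-part which lies in the box. -/
theorem LCtx.atp_of_not_mem (hLow : LowerStmt) (X : LCtx W p T b L₀ eps eP) {P : Finset ℕ}
    (hP : P ⊆ Pfin W (rbarB b) L₀) (hpP : p ∉ P) {hp2 : p ≠ 2} {t F₀ C₀ a m n K : ℕ}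
    {qv : Fin t → Nat.Primes} (F : Frm p hp2 T W.apOfModel (rbarB b) t F₀ C₀ a m n K qv)
    (Lc : ℕ) [NeZero Lc] (hLc : Lc = cellLevel L₀ P)
    {G : AddSubgroup (JZero (lvl Lc (extP qv) t))}
    (hle : G ≤ thetaPart (lvl Lc (extP qv) t) p (↑(cutS T qv) : Set ℕ) W.apOfModel)
    (hbox : ∀ x ∈ G, InBox p qv a x) :
    p ∣ Lc → LocPSt p eP a (G : Set (JZero (lvl Lc (extP qv) t))) := fun hd =>
  X.locPSt_of_le hLow (X.dvd_of_dvd_cellLevel hP hpP (hLc ▸ hd)) hP Lc hLc (X.mtw_cell hP F hLc) hle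
    fun x hx => (hbox x hx).1

end Fermat.Agent.ML
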