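import Fermat.Agent.ML.AtP.Op
import Fermat.Agent.ML.AtP.Frob

/-!
# ML / AtP / Main : case (M) of AT-P, assembled for `Rho.IsRhoK`

`X ≤ J₀(M p)[p^(k+1)]` Galois stable and `p`-NEW (killed by `pushA`, `pushB`), `M` rigid, `p ∤ M`;
`YE` = the `E`-side (`W[p^(k+1)]`), which controls `rE` and satisfies the operator form `StrictMod` of [E-ORD].

* `toric_new` : `Toric` for `X` from `ML.exists_toricNew`.
* `IsRhoK.exists_strict` : (STRICT) for `ρ`;   `IsRhoK.strictOp_mapRep` : `ML.StrictOp p (S53.mapRep φ ρ)`.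
-/

set_option autoImplicit false
set_option linter.unusedSectionVars false
set_option linter.style.haveILetI false

open IsLocalRing ModularCurve

namespace Fermat.Agent.ML.AtP

open Fermat.Agent.S33 Fermat.Agent.S53 Fermat.Agent.SS

local notation "Qbar" => AlgebraicClosure ℚ

/-- the `J`-side. -/
theorem toric_new {M p : ℕ} [NeZero M] [hp : Fact p.Prime] (hpM : ¬ p ∣ M) (h49 : 4 ∣ M ∨ 9 ∣ M)
    (k : ℕ) (X : AddSubgroup (JZero (M * p))) [DistribMulAction GQ ↥X]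
    (hcoe : ∀ (g : GQ) (x : ↥X), ((g • x : ↥X) : JZero (M * p)) = g • (x : JZero (M * p)))
    (hX : ∀ x ∈ X, p ^ k • x = 0 ∧ pushA M p x = 0 ∧ pushB M p x = 0)
    {P : ValuationSubring Qbar} (hP : P.LiesOverPrime p) {φ : GQ} (hφ : P.IsFrobeniusAt φ p)
    {δ : GQ} (hδ : δ ∈ P.inertiaSubgroupIn ℚ) {a : ℕ} (ha : ∀ ζ : Qbar, ζ ^ p = 1 → δ ζ = ζ ^ a)
    (ha1 : ¬ a ≡ 1 [MOD p]) : Toric (P.inertiaSubgroupIn ℚ) φ δ ↥X := by
  obtain ⟨Z, -, h1, h2, h3⟩ := exists_toricNew hpM h49 k P hP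
  refine ⟨Z.comap X.subtype, fun τ hτ y => ?_, fun y => ?_, fun z hz hδz => ?_⟩
  · obtain ⟨e1, e2, e3⟩ := hX y.1 y.2
    have := h1 τ hτ y.1 e1 e2 e3
    rw [AddSubgroup.mem_comap, map_sub]
    show ((τ • y : ↥X) : JZero (M * p)) - y.1 ∈ Z
    rwa [hcoe]
  · obtain ⟨e1, e2, e3⟩ := hX y.1 y.2
    have := h2 φ hφ y.1 e1 e2 e3
    rw [AddSubgroup.mem_comap, map_sub]
    show ((φ • φ • y : ↥X) : JZero (M * p)) - y.1 ∈ Z
    rwa [hcoe, hcoe]
  · apply Subtype.ext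
    refine h3 δ hδ a ha ha1 z.1 hz ?_
    rw [← hcoe, hδz]

/-- the exponent of `δ` on `μ_m` is not `1` modulo `p`. -/
theorem cycloChar_val_not_modEq {p m : ℕ} [NeZero m] (hp : p.Prime) (hpm : p ∣ m) {δ : GQ} {a : ℕ}
    (ha : ∀ ζ : Qbar, ζ ^ p = 1 → δ ζ = ζ ^ a) (ha1 : ¬ a ≡ 1 [MOD p]) :
    ¬ ((GAL.cycloChar m δ : (ZMod m)ˣ) : ZMod m).val ≡ 1 [MOD p] := by
  intro h
  apply ha1
  obtain ⟨ζ, hζ⟩ := MAZ.exists_primitiveRoot_Qb (r := p) hp.ne_zero
  have h1 := ha ζ hζ.pow_eq_one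
  have h2 := GAL.cycloChar_spec m δ (ζ := ζ) (by
    obtain ⟨d, hd⟩ := hpm
    rw [hd, pow_mul, hζ.pow_eq_one, one_pow])
  have hfin : IsOfFinOrder ζ :=
    isOfFinOrder_iff_pow_eq_one.mpr ⟨_, hp.pos, hζ.pow_eq_one⟩
  have h3 := hfin.pow_eq_pow_iff_modEq.mp (h1.symm.trans h2)
  rw [← hζ.eq_orderOf] at h3
  exact h3.trans h

/-- identities of `ℤ[G_ℚ]` transfer from `Y` to `ρ`. -/
theorem Ann.lift_eq_zero {Y : Type*} [AddCommGroup Y] [DistribMulAction GQ Y] {R : Type}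
    [CommRing R] {ρ : GQ →* M2 R} (h : Ann Y ρ) {f : MonoidAlgebra ℤ GQ} (hf : actY Y f = 0) :
    MonoidAlgebra.lift ℤ (M2 R) GQ ρ f = 0 := by
  rw [MonoidAlgebra.lift_apply]
  exact h f.coeff fun y => by rw [← actY_apply, hf]; rfl

/-- `(ρ δ - a)(ρ τ - 1) = 0` from the operator identity on `Y`. -/
theorem Ann.mul_eq_zero {Y : Type*} [AddCommGroup Y] [DistribMulAction GQ Y] {R : Type}
    [CommRing R] {ρ : GQ →* M2 R} (h : Ann Y ρ) {δ τ : GQ} {a : ℤ}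
    (hY : ∀ y : Y, δ • (τ • y - y) = a • (τ • y - y)) :
    (ρ δ - (a : R) • (1 : M2 R)) * (ρ τ - 1) = 0 := by
  have h1 := h.lift_eq_zero
    (f := (MonoidAlgebra.of ℤ GQ δ - a • 1) * (MonoidAlgebra.of ℤ GQ τ - 1)) (by
      refine LinearMap.ext fun y => ?_
      rw [map_mul, map_sub, map_sub, map_zsmul, map_one, Module.End.mul_apply, LinearMap.sub_apply,
        LinearMap.sub_apply, actY_of, Module.End.one_apply, actY_of, LinearMap.smul_apply,
        Module.End.one_apply, hY, sub_self]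
      rfl)
  rw [map_mul, map_sub, map_sub, map_zsmul, map_one, MonoidAlgebra.lift_of,
    MonoidAlgebra.lift_of] at h1
  rw [← h1, Int.cast_smul_eq_zsmul]

section RhoK

variable {M p k m : ℕ} [NeZero M] [hp : Fact p.Prime] [NeZero (M * p)] [NeZero m]

theorem inertia_le_decomposition (P : ValuationSubring Qbar) :
    P.inertiaSubgroupIn ℚ ≤ P.decompositionSubgroup ℚ := by
  rintro _ ⟨τ, -, rfl⟩
  exact τ.2

/-- **(STRICT)** for the `ρ` of `Rho.IsRhoK`, `X` new at `p`, `W` multiplicative at `p`. -/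
theorem exists_strict_of_isRhoK (hp2 : p ≠ 2) (hpM : ¬ p ∣ M) (h49 : 4 ∣ M ∨ 9 ∣ M)
    (hm : m = p ^ (k + 1))
    {X : AddSubgroup (JZero (M * p))} {rE : GQ →* M2 (ZMod m)}
    {R : Type} [CommRing R] [IsLocalRing R] [Finite R] [Algebra (ZMod m) R]
    [Module R ↥X] {πE : R →ₐ[ZMod m] ZMod m} {ρ : GQ →* M2 R}
    {Φ : M2 R →ₐ[R] Module.End R ↥X} (H : Rho.IsRhoK (M * p) m X rE πE ρ Φ)
    (hX : ∀ x ∈ X, m • x = 0 ∧ pushA M p x = 0 ∧ pushB M p x = 0)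
    (hcont : GaloisFactorsThroughFiniteLevel ρ)
    {YE : Type*} [AddCommGroup YE] [Finite YE] [DistribMulAction GQ YE] (hAnnE : Ann YE rE)
    (hmE : ∀ y : YE, m • y = 0)
    (hE : ∀ P : ValuationSubring Qbar, P.LiesOverPrime p →
      StrictMod (P.decompositionSubgroup ℚ) (P.inertiaSubgroupIn ℚ) m YE)
    {P : ValuationSubring Qbar} (hP : P.LiesOverPrime p) :
    ∃ e : GQ → R, (∀ σ ∈ P.inertiaSubgroupIn ℚ, e σ = 1) ∧
      (∀ σ ∈ P.decompositionSubgroup ℚ, e σ * e σ = 1) ∧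
      ∀ σ ∈ P.decompositionSubgroup ℚ, ∀ τ ∈ P.decompositionSubgroup ℚ,
        (ρ σ - ((ρ σ).det * e σ) • (1 : M2 R)) * (ρ τ - e τ • (1 : M2 R)) = 0 := by
  have hpm : p ∣ m := hm ▸ dvd_pow_self p (Nat.succ_ne_zero k)
  letI iG : DistribMulAction GQ ↥X :=
    DistribMulAction.compHom ↥X (((Φ : M2 R →ₐ[R] Module.End R ↥X) : M2 R →* Module.End R ↥X).comp ρ)
  have hact : ∀ (g : GQ) (x : ↥X), Φ (ρ g) x = g • x := fun _ _ => rfl
  have hcoe : ∀ (g : GQ) (x : ↥X), ((g • x : ↥X) : JZero (M * p)) = g • (x : JZero (M * p)) :=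
    fun g x => H.act g x
  haveI iF : Finite ↥X :=
    Set.Finite.to_subtype ((RIB.finite_torsion_JZero (M * p) m (NeZero.ne m)).subset
      fun x hx => (hX x hx).1)
  have hann : Ann (↥X × YE) ρ :=
    ann_joint (πE : R →+* ZMod m) ρ rE Φ hact H.toE H.faithful hAnnE
  -- `p` is not a unit
  have hm0 : ((m : ℕ) : R) = 0 := by
    rw [← map_natCast (algebraMap (ZMod m) R), ZMod.natCast_self, map_zero]
  have hpR : (p : R) ∈ maximalIdeal R := by
    rw [mem_maximalIdeal, mem_nonunits_iff]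
    intro hu
    have : IsUnit ((m : ℕ) : R) := by
      rw [hm, Nat.cast_pow]
      exact hu.pow _
    rw [hm0] at this
    exact not_isUnit_zero this
  have hdet : (ofMat ρ (matCont_of_cont hcont)).DetIsCyclotomic p :=
    detIsCyclotomic_ofMat hp.out hm hpR ρ _ H.det
  -- the data at each place
  have hdata : ∀ P : ValuationSubring Qbar, P.LiesOverPrime p →
      ∃ δ ∈ P.inertiaSubgroupIn ℚ, ∃ a : ℕ, (∀ ζ : Qbar, ζ ^ p = 1 → δ ζ = ζ ^ a) ∧
        ¬ a ≡ 1 [MOD p] := fun P hP => exists_inertia_pow hp.out hp2 P hP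
  refine exists_strictOp hp.out hp2 ρ hcont hdet hann (fun P hP => ?_) (fun P hP => ?_) hP
  · obtain ⟨φ, hφ⟩ := S56.exists_isFrobeniusAt hp.out hP
    obtain ⟨δ, hδ, a, ha, ha1⟩ := hdata P hP
    refine ⟨φ, hφ, δ, hδ, (toric_new hpM h49 (k + 1) X hcoe (hm ▸ hX) hP hφ hδ ha ha1).prod ?_⟩
    exact (hE P hP).toric (inertia_le_decomposition P) hp.out hm hmE hφ.mem_decompositionSubgroup hδ
      (fun μ hμ => GAL.cycloChar_spec m δ hμ) (cycloChar_val_not_modEq hp.out hpm ha ha1)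
  · obtain ⟨δ, hδ, a, ha, ha1⟩ := hdata P hP
    set a' : ℕ := ((GAL.cycloChar m δ : (ZMod m)ˣ) : ZMod m).val with ha'
    have ha'1 : ¬ a' ≡ 1 [MOD p] := cycloChar_val_not_modEq hp.out hpm ha ha1
    obtain ⟨e, -, heI, hs⟩ := hE P hP
    have hID := inertia_le_decomposition P
    let f : R →+* ZMod p := (ZMod.castHom hpm (ZMod p)).comp (πE : R →+* ZMod m)
    have hf : Function.Surjective f := by
      refine (ZMod.castHom_surjective hpm).comp fun c => ⟨algebraMap (ZMod m) R c, ?_⟩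
      exact πE.commutes c
    have hmapf : ∀ g, (ρ g).map f = (ZMod.castHom hpm (ZMod p)).mapMatrix (rE g) := by
      intro g
      rw [← H.toE g]
      rfl
    refine resLine_of_res f hf ρ _ _ (δ := δ) (a := ((a' : ℕ) : ZMod p)) ?_ ?_ ?_
    · intro h1
      apply ha'1
      rw [← ZMod.natCast_eq_natCast_iff, h1, Nat.cast_one]
    · have e1 : ((ρ δ).map f).det = f (ρ δ).det := (RingHom.map_det f (ρ δ)).symm
      rw [e1, H.det, RIB.Rho.chiM_apply]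
      show ZMod.castHom hpm (ZMod p) (πE (algebraMap (ZMod m) R _)) = _
      rw [πE.commutes, ← ZMod.natCast_zmod_val ((GAL.cycloChar m δ : (ZMod m)ˣ) : ZMod m)]
      exact map_natCast _ _
    · intro τ hτ
      have h1 : (rE δ - ((a' : ℤ) : ZMod m) • (1 : M2 (ZMod m))) * (rE τ - 1) = 0 :=
        hAnnE.mul_eq_zero fun y => by
          have := hs δ (hID hδ) τ (hID hτ) y a' (fun μ hμ => GAL.cycloChar_spec m δ hμ)
          rwa [heI δ hδ, heI τ hτ, one_smul, mul_one] at this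
      have h2 := congrArg (ZMod.castHom hpm (ZMod p)).mapMatrix h1
      rw [map_mul, map_sub, map_sub, map_one, map_zero] at h2
      rw [hmapf, hmapf, ← h2]
      congr 2
      have e2 : ((a' : ℤ) : ZMod m) • (1 : M2 (ZMod m)) = ((a' : ℕ) : M2 (ZMod m)) := by
        rw [Int.cast_natCast, Nat.cast_smul_eq_nsmul, nsmul_eq_mul, mul_one]
      have e3 : ((a' : ℕ) : ZMod p) • (1 : Matrix (Fin 2) (Fin 2) (ZMod p)) =
          ((a' : ℕ) : Matrix (Fin 2) (Fin 2) (ZMod p)) := by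
        rw [Nat.cast_smul_eq_nsmul, nsmul_eq_mul, mul_one]
      rw [e2, e3, map_natCast]

/-- the determinant after a push-forward to `k[ε]`. -/
theorem map_det_eq_chiK {kk : Type} [Field kk] [CharP kk p] (hpm : p ∣ m) {R : Type} [CommRing R]
    [Algebra (ZMod m) R] (φ : R →+* DualNumber kk) {ρ : GQ →* M2 R}
    (hdet : ∀ g, (ρ g).det = algebraMap (ZMod m) R (RIB.Rho.chiM m g)) (σ : GQ) :
    φ ((ρ σ).det) = TrivSqZeroExt.inl (S56.chiK p kk σ : kk) := by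
  haveI : NeZero p := ⟨hp.out.ne_zero⟩
  rw [hdet, RIB.Rho.chiM_apply, ← ZMod.natCast_zmod_val ((GAL.cycloChar m σ : (ZMod m)ˣ) : ZMod m),
    map_natCast, map_natCast, S56.chiK_coe, S56.natCast_dual]
  congr 1
  rw [CharP.natCast_eq_natCast kk p]
  obtain ⟨ζ, hζ⟩ := MAZ.exists_primitiveRoot_Qb (r := p) hp.out.ne_zero
  have h1 := GAL.cycloChar_spec p σ hζ.pow_eq_one
  have h2 := GAL.cycloChar_spec m σ (ζ := ζ) (by
    obtain ⟨d, hd⟩ := hpm
    rw [hd, pow_mul, hζ.pow_eq_one, one_pow])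
  have hfin : IsOfFinOrder ζ :=
    isOfFinOrder_iff_pow_eq_one.mpr ⟨_, hp.out.pos, hζ.pow_eq_one⟩
  have h3 := hfin.pow_eq_pow_iff_modEq.mp (h2.symm.trans h1)
  rw [← hζ.eq_orderOf] at h3
  exact h3

/-- **the field `atp`** : `ML.StrictOp` for every push-forward of `ρ` to `k[ε]`
(feed it to `ML.exists_ord_condition_op`). -/
theorem strictOp_of_isRhoK (hp2 : p ≠ 2) (hpM : ¬ p ∣ M) (h49 : 4 ∣ M ∨ 9 ∣ M)
    (hm : m = p ^ (k + 1))
    {X : AddSubgroup (JZero (M * p))} {rE : GQ →* M2 (ZMod m)}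
    {R : Type} [CommRing R] [IsLocalRing R] [Finite R] [Algebra (ZMod m) R]
    [Module R ↥X] {πE : R →ₐ[ZMod m] ZMod m} {ρ : GQ →* M2 R}
    {Φ : M2 R →ₐ[R] Module.End R ↥X} (H : Rho.IsRhoK (M * p) m X rE πE ρ Φ)
    (hX : ∀ x ∈ X, m • x = 0 ∧ pushA M p x = 0 ∧ pushB M p x = 0)
    (hcont : GaloisFactorsThroughFiniteLevel ρ)
    {YE : Type*} [AddCommGroup YE] [Finite YE] [DistribMulAction GQ YE] (hAnnE : Ann YE rE)
    (hmE : ∀ y : YE, m • y = 0)
    (hE : ∀ P : ValuationSubring Qbar, P.LiesOverPrime p →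
      StrictMod (P.decompositionSubgroup ℚ) (P.inertiaSubgroupIn ℚ) m YE)
    {kk : Type} [Field kk] [CharP kk p] (φ : R →+* DualNumber kk) :
    StrictOp p (S53.mapRep φ ρ) := by
  obtain ⟨e, he1, -, hs⟩ := exists_strict_of_isRhoK hp2 hpM h49 hm H hX hcont hAnnE hmE hE
    (S56.liesOverPrime_primeLocalPlace (ExtCitation.pPrime p))
  exact strictOp_mapRep φ ρ (fun σ => (ρ σ).det) e
    (fun σ _ => map_det_eq_chiK (hm ▸ dvd_pow_self p (Nat.succ_ne_zero k)) φ H.det σ) he1 hs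

end RhoK

end Fermat.Agent.ML.AtP
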