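import Fermat.Agent.ML.AtP.Strict
import Fermat.Agent.ML.Rho.Loc
import Fermat.Agent.ML.Rho.Joint
import Fermat.Agent.ML.Gen.Ord

/-!
# ML / AtP / Op : case (M) of AT-P, the matrix / operator forms

* `resLine_of_res` : the residual line from `(rbar δ - a)(rbar τ - 1) = 0`, `det rbar δ = a ≠ 1`  (`rbar = ρ mod 𝔪`).
* `detIsCyclotomic_ofMat` : `det ρ = χ mod p^k ⟹ DetIsCyclotomic`.
* `StrictMod.toric` : the operator form of [E-ORD] gives `Toric`.
* `RhoAct.ann`, `ann_of_isRhoK` : the two forms of (RHO) give `Ann`.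
* `exists_strictOp` : the identity (STRICT) for `ρ` over `R`, in the shape of `ML.strictOp_mapRep`.
-/

set_option autoImplicit false
set_option linter.unusedSectionVars false

open IsLocalRing

namespace Fermat.Agent.ML.AtP

open Fermat.Agent.S33 Fermat.Agent.S53

local notation "Qbar" => AlgebraicClosure ℚ

/-! ### the residual line -/

/-- the kernel of a non zero `2 × 2` matrix over a field is contained in a line. -/
theorem exists_ker_line {k : Type*} [Field k] (M : Matrix (Fin 2) (Fin 2) k) (hM : M ≠ 0) :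
    ∃ e : Fin 2 → k, e ≠ 0 ∧ ∀ w : Fin 2 → k, M.mulVec w = 0 → ∃ c : k, w = c • e := by
  obtain ⟨i, hi⟩ : ∃ i, M i 0 ≠ 0 ∨ M i 1 ≠ 0 := by
    by_contra hcon
    push Not at hcon
    apply hM
    ext i j
    fin_cases j
    · exact (hcon i).1
    · exact (hcon i).2
  refine ⟨![M i 1, -M i 0], ?_, fun w hw => ?_⟩
  · intro h
    have h0 := congrFun h 0
    have h1 := congrFun h 1
    simp only [Matrix.cons_val_zero, Matrix.cons_val_one, Pi.zero_apply, neg_eq_zero] at h0 h1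
    rcases hi with hi | hi
    · exact hi h1
    · exact hi h0
  · have h1 : M i 0 * w 0 + M i 1 * w 1 = 0 := by
      have := congrFun hw i
      simpa [Matrix.mulVec, dotProduct, Fin.sum_univ_two] using this
    by_cases h0 : M i 0 = 0
    · have h11 : M i 1 ≠ 0 := hi.resolve_left (not_not.2 h0)
      have hw1 : w 1 = 0 := by
        rw [h0, zero_mul, zero_add] at h1
        exact (mul_eq_zero.1 h1).resolve_left h11
      refine ⟨w 0 / M i 1, ?_⟩
      ext j
      fin_cases j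
      · simp [div_mul_cancel₀ _ h11]
      · simp [h0, hw1]
    · refine ⟨-(w 1) / M i 0, ?_⟩
      ext j
      fin_cases j
      · simp only [Fin.zero_eta, Pi.smul_apply, Matrix.cons_val_zero, smul_eq_mul]
        field_simp
        linear_combination h1
      · show w 1 = -(w 1) / M i 0 * -M i 0
        field_simp

section Res

variable {R : Type} [CommRing R] [IsLocalRing R]

/-- **the residual line.** -/
theorem resLine_of_res {k : Type*} [Field k] (f : R →+* k) (hf : Function.Surjective f)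
    (ρ : GQ →* M2 R) (hc : MatCont R ρ) (I : Subgroup GQ) {δ : GQ} {a : k} (ha : a ≠ 1)
    (hdet : ((ρ δ).map f).det = a)
    (h : ∀ τ ∈ I, ((ρ δ).map f - a • 1) * ((ρ τ).map f - 1) = 0) :
    ∃ e₀ : (ofMat ρ hc).V, ResLine (ofMat ρ hc) I e₀ := by
  have hker : ∀ x : R, f x = 0 → x ∈ maximalIdeal R := by
    intro x hx
    rw [mem_maximalIdeal, mem_nonunits_iff]
    intro hu
    exact (hu.map f).ne_zero hx
  have hM : (ρ δ).map f - a • (1 : Matrix (Fin 2) (Fin 2) k) ≠ 0 := by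
    intro h0
    rw [sub_eq_zero] at h0
    rw [h0, Matrix.det_smul, Matrix.det_one, Fintype.card_fin, mul_one] at hdet
    have ha0 : a ≠ 0 := by
      intro h00
      have hu : IsUnit (ρ δ).det := by
        have : IsUnit (ρ δ) := (Group.isUnit δ).map ρ
        exact (Matrix.isUnit_iff_isUnit_det _).1 this
      have h2 : f (ρ δ).det = ((ρ δ).map f).det := RingHom.map_det f (ρ δ)
      rw [h0, Matrix.det_smul, Matrix.det_one, h00] at h2
      simp at h2
      exact (hu.map f).ne_zero h2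
    apply ha
    have : a * (a - 1) = 0 := by linear_combination hdet
    exact sub_eq_zero.1 ((mul_eq_zero.1 this).resolve_left ha0)
  obtain ⟨e, he, hline⟩ := exists_ker_line _ hM
  choose e₀ he₀ using fun i => hf (e i)
  refine ⟨e₀, ⟨fun hmem => ?_, fun τ hτ v => ?_⟩⟩
  · apply he
    have h1 := (S53.mem_smul_top_pi_iff (maximalIdeal R ^ 1) e₀).1 hmem
    ext i
    rw [← he₀ i, Pi.zero_apply]
    have h2 := h1 i
    rw [pow_one, mem_maximalIdeal, mem_nonunits_iff] at h2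
    by_contra h3
    obtain ⟨y, hy⟩ := hf (f (e₀ i))⁻¹
    have h4 : f (e₀ i * y - 1) = 0 := by rw [map_sub, map_mul, hy, map_one, mul_inv_cancel₀ h3, sub_self]
    have h5 := hker _ h4
    apply h2
    have h6 : IsUnit (e₀ i * y) := by
      by_contra h7
      have h8 : e₀ i * y ∈ maximalIdeal R := (mem_maximalIdeal _).2 h7
      have h9 : (1 : R) ∈ maximalIdeal R := by
        have := Ideal.sub_mem _ h8 h5
        rwa [sub_sub_cancel] at this
      exact (Ideal.ne_top_iff_one _).1 (Ideal.IsMaximal.ne_top inferInstance) h9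
    exact isUnit_of_mul_isUnit_left h6
  · -- the reduction of `(ρ τ - 1) v` lies in the kernel
    have h1 : ((ρ δ).map f - a • 1).mulVec (((ρ τ).map f - 1).mulVec (f ∘ v)) = 0 := by
      rw [Matrix.mulVec_mulVec, h τ hτ, Matrix.zero_mulVec]
    obtain ⟨c, hc'⟩ := hline _ h1
    obtain ⟨c₀, hc₀⟩ := hf c
    have h2 : (ofMat ρ hc).ρ τ v - v = c₀ • e₀ + ((ρ τ).mulVec v - v - c₀ • e₀) := by
      show (ρ τ).mulVec v - v = _
      abel
    rw [h2]
    refine Submodule.add_mem_sup (Submodule.smul_mem _ _ (Submodule.mem_span_singleton_self _)) ?_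
    rw [S53.mem_smul_top_pi_iff, pow_one]
    intro i
    apply hker
    have h3 := congrFun hc' i
    rw [Matrix.sub_mulVec, Matrix.one_mulVec, Pi.sub_apply, Pi.smul_apply, smul_eq_mul,
      ← RingHom.map_mulVec] at h3
    rw [Pi.sub_apply, Pi.sub_apply, Pi.smul_apply, smul_eq_mul, map_sub, map_sub, map_mul, hc₀, he₀]
    rw [sub_eq_zero]
    exact h3

end Res

/-! ### the determinant -/

section Det

variable {R : Type} [CommRing R] [IsLocalRing R]

theorem detIsCyclotomic_ofMat {p k m : ℕ} [NeZero m] (hp : p.Prime) (hm : m = p ^ k)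
    [Algebra (ZMod m) R] (hpR : (p : R) ∈ maximalIdeal R) (ρ : GQ →* M2 R) (hc : MatCont R ρ)
    (hdet : ∀ g, (ρ g).det = algebraMap (ZMod m) R (RIB.Rho.chiM m g)) :
    (ofMat ρ hc).DetIsCyclotomic p := by
  refine ⟨hpR, fun n σ a ha => ?_⟩
  rw [det_ofMat, hdet, RIB.Rho.chiM_apply]
  set c : ℕ := ((GAL.cycloChar m σ : (ZMod m)ˣ) : ZMod m).val with hcdef
  have hc1 : ((GAL.cycloChar m σ : (ZMod m)ˣ) : ZMod m) = (c : ZMod m) :=
    (ZMod.natCast_zmod_val _).symm
  rw [hc1, map_natCast]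
  obtain ⟨ζ, hζ⟩ := MAZ.exists_primitiveRoot_Qb (r := p ^ (min n k)) (pow_ne_zero _ hp.ne_zero)
  have h1 : σ ζ = ζ ^ a := ha ζ (by
    obtain ⟨d, hd⟩ : p ^ (min n k) ∣ p ^ n := pow_dvd_pow p (min_le_left n k)
    rw [hd, pow_mul, hζ.pow_eq_one, one_pow])
  have h2 : σ ζ = ζ ^ c := GAL.cycloChar_spec m σ (by
    obtain ⟨d, hd⟩ : p ^ (min n k) ∣ m := hm ▸ pow_dvd_pow p (min_le_right n k)
    rw [hd, pow_mul, hζ.pow_eq_one, one_pow])
  have hfin : IsOfFinOrder ζ :=
    isOfFinOrder_iff_pow_eq_one.mpr ⟨_, pow_pos hp.pos _, hζ.pow_eq_one⟩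
  have h3 : a ≡ c [MOD p ^ (min n k)] := by
    have := hfin.pow_eq_pow_iff_modEq.mp (h1.symm.trans h2)
    rwa [← hζ.eq_orderOf] at this
  obtain ⟨d, hd⟩ := (Nat.modEq_iff_dvd.1 h3)
  have h4 : (c : R) - (a : R) = ((p ^ (min n k) : ℕ) : R) * (d : R) := by
    have := congrArg (Int.cast : ℤ → R) hd
    push_cast at this ⊢
    exact this
  rw [h4]
  rcases le_total n k with hnk | hnk
  · rw [min_eq_left hnk]
    exact Ideal.mul_mem_right _ _ (Ideal.mem_span_singleton_self _)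
  · rw [min_eq_right hnk, ← hm]
    have h5 : ((m : ℕ) : R) = 0 := by
      rw [← map_natCast (algebraMap (ZMod m) R), ZMod.natCast_self, map_zero]
    rw [h5, zero_mul]
    exact Ideal.zero_mem _

end Det

/-! ### the operator form of [E-ORD] gives `Toric` -/

/-- the operator form of strictness on a module. -/
def StrictMod (D I : Subgroup GQ) (m : ℕ) (Y : Type*) [AddCommGroup Y] [DistribMulAction GQ Y] :
    Prop :=
  ∃ e : GQ → ℤ, (∀ s, e s * e s = 1) ∧ (∀ s ∈ I, e s = 1) ∧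
    ∀ s₁ ∈ D, ∀ s₂ ∈ D, ∀ (y : Y) (a : ℕ), (∀ μ : Qbar, μ ^ m = 1 → s₁ μ = μ ^ a) →
      s₁ • (s₂ • y - e s₂ • y) = ((a : ℤ) * e s₁) • (s₂ • y - e s₂ • y)

theorem StrictMod.toric {D I : Subgroup GQ} (hID : I ≤ D) {p k m : ℕ} [NeZero m] (hp : p.Prime)
    (hm : m = p ^ k) {Y : Type*} [AddCommGroup Y] [DistribMulAction GQ Y]
    (hmY : ∀ y : Y, m • y = 0) (h : StrictMod D I m Y) {φ δ : GQ} (hφ : φ ∈ D) (hδ : δ ∈ I)
    {a : ℕ} (ha : ∀ μ : Qbar, μ ^ m = 1 → δ μ = μ ^ a) (ha1 : ¬ a ≡ 1 [MOD p]) :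
    Toric I φ δ Y := by
  obtain ⟨e, he2, heI, hs⟩ := h
  let Z : AddSubgroup Y := AddSubgroup.closure {w | ∃ s ∈ D, ∃ y : Y, w = s • y - e s • y}
  have hgen : ∀ s ∈ D, ∀ y : Y, s • y - e s • y ∈ Z :=
    fun s hs' y => AddSubgroup.subset_closure ⟨s, hs', y, rfl⟩
  have hZ : ∀ s₁ ∈ D, ∀ b : ℕ, (∀ μ : Qbar, μ ^ m = 1 → s₁ μ = μ ^ b) → ∀ z ∈ Z,
      s₁ • z = ((b : ℤ) * e s₁) • z := by
    intro s₁ h₁ b hb z hz
    induction hz using AddSubgroup.closure_induction with
    | mem w hw =>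
      obtain ⟨s, hs', y, rfl⟩ := hw
      exact hs s₁ h₁ s hs' y b hb
    | zero => rw [smul_zero, smul_zero]
    | add u v _ _ hu hv => rw [smul_add, hu, hv, smul_add]
    | neg u _ hu => rw [smul_neg, hu, smul_neg]
  refine ⟨Z, fun τ hτ y => ?_, fun y => ?_, fun z hz hδz => ?_⟩
  · have := hgen τ (hID hτ) y
    rwa [heI τ hτ, one_smul] at this
  · have h1 : φ • φ • y - y = φ • (φ • y - e φ • y) + e φ • (φ • y - e φ • y) := by
      rw [smul_sub, smul_sub, smul_comm φ (e φ) y, smul_smul (e φ) (e φ) y, he2, one_smul]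
      abel
    rw [h1, hZ φ hφ _ (fun μ hμ => GAL.cycloChar_spec m φ hμ) _ (hgen φ hφ y)]
    exact Z.add_mem (Z.zsmul_mem (hgen φ hφ y) _) (Z.zsmul_mem (hgen φ hφ y) _)
  · have h1 := hZ δ (hID hδ) a ha z hz
    rw [heI δ hδ, mul_one, hδz] at h1
    have h2 : ((a : ℤ) - 1) • z = 0 := by rw [sub_smul, one_smul, ← h1, sub_self]
    have h3 : ((p : ℤ) ^ k) • z = 0 := by
      have := hmY z
      rw [hm] at this
      rw [← Nat.cast_pow, natCast_zsmul, this]
    have hcop : IsCoprime ((a : ℤ) - 1) ((p : ℤ) ^ k) := by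
      apply IsCoprime.pow_right
      rw [isCoprime_comm, (Nat.prime_iff_prime_int.1 hp).coprime_iff_not_dvd]
      intro hdvd
      apply ha1
      exact ((Nat.modEq_iff_dvd.2 (by simpa using hdvd)) : 1 ≡ a [MOD p]).symm
    obtain ⟨u, v, huv⟩ := hcop
    calc z = (u * ((a : ℤ) - 1) + v * (p : ℤ) ^ k) • z := by rw [huv, one_smul]
      _ = 0 := by rw [add_smul, mul_smul, mul_smul, h2, h3, smul_zero, smul_zero, add_zero]

/-! ### (RHO) gives `Ann` -/

section AnnSec

theorem ann_of_rhoAct {R V : Type} [CommRing R] [AddCommGroup V] [Module R V]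
    [DistribMulAction GQ V] {ρ : GQ →* M2 R} {Φ : M2 R →ₐ[R] Module.End R V}
    (H : RhoAct ρ Φ) : Ann V ρ := by
  intro x hx
  refine H.inj _ fun v => ?_
  rw [Finsupp.sum, map_sum, LinearMap.sum_apply, ← hx v, Finsupp.sum]
  refine Finset.sum_congr rfl fun σ _ => ?_
  rw [map_zsmul, LinearMap.smul_apply, H.act]

/-- joint faithfulness gives `Ann` for the product. -/
theorem ann_joint {R Λ : Type} [CommRing R] [CommRing Λ] {XX : Type} [AddCommGroup XX] [Module R XX]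
    [DistribMulAction GQ XX] {YE : Type*} [AddCommGroup YE] [DistribMulAction GQ YE]
    (πE : R →+* Λ) (ρ : GQ →* M2 R) (rE : GQ →* M2 Λ) (Φ : M2 R →ₐ[R] Module.End R XX)
    (hact : ∀ (g : GQ) (x : XX), Φ (ρ g) x = g • x) (htoE : ∀ g, (ρ g).map πE = rE g)
    (hfaith : ∀ a : R, (∀ x : XX, a • x = 0) → πE a = 0 → a = 0) (hE : Ann YE rE) :
    Ann (XX × YE) ρ := by
  intro x hx
  have hx1 : ∀ y : XX, (x.sum fun σ a => a • σ • y) = 0 := by
    intro y
    have := congrArg Prod.fst (hx (y, 0))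
    rw [Finsupp.sum, Prod.fst_sum] at this
    exact this
  have hx2 : ∀ y : YE, (x.sum fun σ a => a • σ • y) = 0 := by
    intro y
    have := congrArg Prod.snd (hx (0, y))
    rw [Finsupp.sum, Prod.snd_sum] at this
    exact this
  set A : M2 R := x.sum fun σ a => a • ρ σ with hA
  have hΦ : ∀ y : XX, Φ A y = 0 := by
    intro y
    rw [hA, Finsupp.sum, map_sum, LinearMap.sum_apply, ← hx1 y, Finsupp.sum]
    refine Finset.sum_congr rfl fun σ _ => ?_
    rw [map_zsmul, LinearMap.smul_apply, hact]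
  have hπ : πE.mapMatrix A = 0 := by
    rw [hA, Finsupp.sum, map_sum, ← hE x hx2, Finsupp.sum]
    refine Finset.sum_congr rfl fun σ _ => ?_
    rw [map_zsmul, ← htoE σ]
    rfl
  ext i j
  refine hfaith _ (fun y => ?_) ?_
  · exact RIB.entry_smul_eq_zero Φ ⊤ (fun _ _ _ => Submodule.mem_top) A (fun y _ => hΦ y) i j
      (Submodule.mem_top : y ∈ ⊤)
  · exact congrFun (congrFun hπ i) j

end AnnSec

/-! ### the identity (STRICT) -/

section Final

variable {R : Type} [CommRing R] [IsLocalRing R] [Finite R]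

theorem cont_ofMat {ρ : GQ →* M2 R} (hcont : GaloisFactorsThroughFiniteLevel ρ) :
    GaloisFactorsThroughFiniteLevel (ofMat ρ (matCont_of_cont hcont)).ρ := by
  obtain ⟨F, hF, h⟩ := hcont
  refine ⟨F, hF, fun σ hσ => ?_⟩
  show Matrix.toLinAlgEquiv' (ρ σ) = 1
  rw [h σ hσ, map_one]

/-- **(STRICT)** for `ρ` over `R` : the input `hs` of `ML.strictOp_mapRep`. -/
theorem exists_strictOp {p : ℕ} (hp : p.Prime) (hp2 : p ≠ 2) (ρ : GQ →* M2 R)
    (hcont : GaloisFactorsThroughFiniteLevel ρ)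
    (hdet : (ofMat ρ (matCont_of_cont hcont)).DetIsCyclotomic p)
    {Y : Type*} [AddCommGroup Y] [Finite Y] [DistribMulAction GQ Y] (hann : Ann Y ρ)
    (hY : ∀ P : ValuationSubring Qbar, P.LiesOverPrime p →
      ∃ φ : GQ, P.IsFrobeniusAt φ p ∧ ∃ δ ∈ P.inertiaSubgroupIn ℚ,
        Toric (P.inertiaSubgroupIn ℚ) φ δ Y)
    (hres : ∀ P : ValuationSubring Qbar, P.LiesOverPrime p →
      ∃ e₀ : (ofMat ρ (matCont_of_cont hcont)).V,
        ResLine (ofMat ρ (matCont_of_cont hcont)) (P.inertiaSubgroupIn ℚ) e₀)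
    {P : ValuationSubring Qbar} (hP : P.LiesOverPrime p) :
    ∃ e : GQ → R, (∀ σ ∈ P.inertiaSubgroupIn ℚ, e σ = 1) ∧
      (∀ σ ∈ P.decompositionSubgroup ℚ, e σ * e σ = 1) ∧
      ∀ σ ∈ P.decompositionSubgroup ℚ, ∀ τ ∈ P.decompositionSubgroup ℚ,
        (ρ σ - ((ρ σ).det * e σ) • (1 : M2 R)) * (ρ τ - e τ • (1 : M2 R)) = 0 := by
  set hc := matCont_of_cont hcont
  have hannV : AnnV Y (ofMat ρ hc) := hann.annV hc
  have hord : (ofMat ρ hc).IsOrdinaryAt p :=
    isOrdinaryAt_of_ord hp hp2 _ hdet hannV (fun P hP => by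
      obtain ⟨φ, -, δ, hδ, hT⟩ := hY P hP
      exact hT.ord hδ) hres
  obtain ⟨φ, hφ, δ, hδ, hT⟩ := hY P hP
  obtain ⟨e, he1, he2, hs⟩ := exists_strict_op hp (ofMat ρ hc) hord (cont_ofMat hcont) hP hφ
    (fun v => by
      obtain ⟨w, hw⟩ := hT.sq_sub_mem hδ hannV v
      exact ⟨δ, hδ, w, hw⟩)
  refine ⟨e, he1, he2, fun σ hσ τ hτ => ?_⟩
  apply Matrix.toLin'.injective
  refine LinearMap.ext fun v => ?_
  rw [Matrix.toLin'_apply, map_zero, LinearMap.zero_apply, ← Matrix.mulVec_mulVec,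
    Matrix.sub_mulVec, Matrix.sub_mulVec, Matrix.smul_mulVec, Matrix.smul_mulVec,
    Matrix.one_mulVec, Matrix.one_mulVec, sub_eq_zero]
  have := hs σ hσ τ hτ v
  rw [det_ofMat] at this
  exact this

end Final

end Fermat.Agent.ML.AtP
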