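import Fermat.Agent.S33.Line.Main
import Fermat.Agent.S33.Delta
import Fermat.Agent.S33.Wire
import Fermat.Agent.S53.Iface
import Fermat.Prelude.Def_GaloisRep_StrictOrdinary

/-!
# ML / AtP / OrdAbs : (M1) [P-ORD], abstract form

`R` a finite local ring, `ρ : G_ℚ →* M₂(R)`, `Y` a finite abelian group with an action of `G_ℚ` which CONTROLS `ρ`
(`Ann Y ρ` : every element of `ℤ[G_ℚ]` which kills `Y` kills `ρ`).

* `ord_prod` : `S33.Ord` passes to products.
* `isOrdinaryAt_ofMat` : `Ord I_P Y` + the residual line `⟹ (S53.ofMat ρ).IsOrdinaryAt p`.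
* `isStrictOrdinaryAt_of_frob` : ordinary + `det = χ` + `ρ(s)² = det ρ(s)²` on `(ρ(τ) - 1) V` `⟹` strictly ordinary.
-/

set_option autoImplicit false

open IsLocalRing

namespace Fermat.Agent.ML.AtP

open Fermat.Agent.S33 Fermat.Agent.S53

section Prod

variable {G : Type*} [Group G] {I : Subgroup G} {A B : Type*} [AddCommGroup A]
  [DistribMulAction G A] [AddCommGroup B] [DistribMulAction G B]

/-- `Ord` passes to products. -/
theorem ord_prod (hA : S33.Ord I A) (hB : S33.Ord I B) : S33.Ord I (A × B) := by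
  obtain ⟨MA, sA, tA, nA⟩ := hA
  obtain ⟨MB, sB, tB, nB⟩ := hB
  refine ⟨MA.prod MB, fun τ hτ z hz => ⟨sA τ hτ _ hz.1, sB τ hτ _ hz.2⟩,
    fun τ hτ x => ⟨tA τ hτ x.1, tB τ hτ x.2⟩, ?_⟩
  refine NT.of_exact (AddMonoidHom.fst A B) (fun _ _ _ => rfl) ?_ ?_
  · refine (nB.map sB (AddMonoidHom.inr A B) (fun _ _ x => ?_)).mono ?_
    · exact Prod.ext (smul_zero _).symm rfl
    · rintro ⟨a, b⟩ ⟨h1, h2⟩
      have ha : a = 0 := h2
      subst ha
      exact ⟨b, h1.2, rfl⟩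
  · refine nA.mono ?_
    rintro _ ⟨z, hz, rfl⟩
    exact hz.1

end Prod

/-- `Y` controls `ρ`. -/
def Ann (Y : Type*) [AddCommGroup Y] [DistribMulAction GQ Y] {R : Type} [CommRing R]
    (ρ : GQ →* M2 R) : Prop :=
  ∀ x : GQ →₀ ℤ, (∀ y : Y, (x.sum fun σ a => a • σ • y) = 0) → (x.sum fun σ a => a • ρ σ) = 0

section Cont

variable {R : Type} [CommRing R] [IsLocalRing R]

theorem matCont_of_cont {ρ : GQ →* M2 R} (h : GaloisFactorsThroughFiniteLevel ρ) : MatCont R ρ := by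
  obtain ⟨F, hF, h1⟩ := h
  intro n
  refine ⟨F, hF, fun σ hσ i j => ?_⟩
  rw [h1 σ hσ, sub_self]
  exact Ideal.zero_mem _

theorem det_ofMat (ρ : GQ →* M2 R) (hc : MatCont R ρ) (σ : GQ) :
    LinearMap.det ((ofMat ρ hc).ρ σ) = (ρ σ).det := by
  show LinearMap.det (Matrix.toLin' (ρ σ)) = _
  exact LinearMap.det_toLin' _

end Cont

section Ord

variable {R : Type} [CommRing R] [IsLocalRing R]

attribute [local instance] Fermat.Agent.S32.levelDMA

theorem sum_mulVec {R : Type} [CommRing R] (ρ : GQ →* M2 R) (x : GQ →₀ ℤ) (v : Fin 2 → R) :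
    (x.sum fun σ c => c • (ρ σ).mulVec v) = (x.sum fun σ c => c • ρ σ).mulVec v := by
  let ev : M2 R →+ (Fin 2 → R) :=
    { toFun := fun M => M.mulVec v
      map_zero' := Matrix.zero_mulVec v
      map_add' := fun a b => Matrix.add_mulVec a b v }
  show _ = ev _
  rw [Finsupp.sum, Finsupp.sum, map_sum]
  exact Finset.sum_congr rfl fun σ _ => (map_zsmul ev _ _).symm

/-- `Y` controls `ρ₁`. -/
def AnnV (Y : Type*) [AddCommGroup Y] [DistribMulAction GQ Y] (ρ₁ : GaloisRepAdic R) : Prop :=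
  ∀ x : GQ →₀ ℤ, (∀ y : Y, (x.sum fun σ a => a • σ • y) = 0) →
    ∀ v : ρ₁.V, (x.sum fun σ a => a • ρ₁.ρ σ v) = 0

theorem Ann.annV {Y : Type*} [AddCommGroup Y] [DistribMulAction GQ Y] {ρ : GQ →* M2 R}
    (h : Ann Y ρ) (hc : MatCont R ρ) : AnnV Y (ofMat ρ hc) := by
  intro x hx v
  show (x.sum fun σ c => c • (ρ σ).mulVec v) = 0
  rw [sum_mulVec, h x hx, Matrix.zero_mulVec]

variable [Finite R]

theorem ord_level (ρ₁ : GaloisRepAdic R) {Y : Type*} [AddCommGroup Y] [Finite Y]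
    [DistribMulAction GQ Y] (hann : AnnV Y ρ₁) {I : Subgroup GQ} (hY : S33.Ord I Y) (n : ℕ) :
    S33.Ord I (Lev ρ₁ n) := by
  have : Finite (R ⧸ maximalIdeal R ^ n) := Finite.of_surjective _ Ideal.Quotient.mk_surjective
  have : Finite (Lev ρ₁ n) := S32.finite_level ρ₁ (maximalIdeal R ^ n)
  refine Ord.of_annihilator hY fun x hx z => ?_
  induction z using Submodule.Quotient.induction_on with
  | H v =>
    rw [S32.sum_level_mk, Submodule.Quotient.mk_eq_zero, hann x hx v]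
    exact Submodule.zero_mem _

/-- **(M1) [P-ORD]**, abstract form. -/
theorem isOrdinaryAt_of_ord {p : ℕ} (hp : p.Prime) (hp2 : p ≠ 2) (ρ₁ : GaloisRepAdic R)
    (hdet : ρ₁.DetIsCyclotomic p)
    {Y : Type*} [AddCommGroup Y] [Finite Y] [DistribMulAction GQ Y] (hann : AnnV Y ρ₁)
    (hY : ∀ P : ValuationSubring (AlgebraicClosure ℚ), P.LiesOverPrime p →
      S33.Ord (P.inertiaSubgroupIn ℚ) Y)
    (hres : ∀ P : ValuationSubring (AlgebraicClosure ℚ), P.LiesOverPrime p →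
      ∃ e₀ : ρ₁.V, ResLine ρ₁ (P.inertiaSubgroupIn ℚ) e₀) :
    ρ₁.IsOrdinaryAt p := by
  have : Finite (ResidueField R) := Finite.of_surjective _ IsLocalRing.residue_surjective
  intro P hP
  obtain ⟨e₀, he₀⟩ := hres P hP
  obtain ⟨δ, hδ, hδ1, hgen⟩ := exists_delta ρ₁ hp hp2 hdet P hP
  exact exists_line ρ₁ (P.inertiaSubgroupIn ℚ) (P.decompositionSubgroup ℚ)
    (fun σ hσ τ hτ => conj_mem_inertia P hσ hτ) (fun n => ord_level ρ₁ hann (hY P hP) n)
    he₀ hδ hδ1 hgen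

end Ord

section Strict

variable {R : Type} [CommRing R] [IsLocalRing R]

/-- the determinant of an upper triangular endomorphism. -/
theorem det_of_tri (ρ₁ : GaloisRepAdic R) (b : Module.Basis (Fin 2) R ρ₁.V) (f : Module.End R ρ₁.V)
    {x c z : R} (h0 : f (b 0) = x • b 0) (h1 : f (b 1) = c • b 0 + z • b 1) :
    LinearMap.det f = x * z := by
  rw [← LinearMap.det_toMatrix b, Matrix.det_fin_two]
  simp only [LinearMap.toMatrix_apply, h0, h1, map_add, map_smul, b.repr_self, Finsupp.add_apply,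
    Finsupp.smul_apply, Finsupp.single_eq_same, smul_eq_mul, mul_one]
  rw [Finsupp.single_eq_of_ne (by decide), Finsupp.single_eq_of_ne (by decide)]
  ring

theorem smul_basis_inj (ρ₁ : GaloisRepAdic R) (b : Module.Basis (Fin 2) R ρ₁.V) {x y : R}
    (h : x • b 0 = y • b 0) : x = y := by
  have := congrArg (fun w => b.repr w 0) h
  simpa using this

/-- **(M2) ⟹ strict** : ordinary, `det = χ` and `ρ(s)² = det ρ(s)²` on `(ρ(τ) - 1) V`, `s ∈ D`, `τ ∈ I`. -/
theorem isStrictOrdinaryAt_of_frob {p : ℕ} (hp : p.Prime) (hp2 : p ≠ 2) (ρ₁ : GaloisRepAdic R)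
    (hdet : ρ₁.DetIsCyclotomic p) (hord : ρ₁.IsOrdinaryAt p)
    (hfrob : ∀ P : ValuationSubring (AlgebraicClosure ℚ), P.LiesOverPrime p →
      ∀ s ∈ P.decompositionSubgroup ℚ, ∀ τ ∈ P.inertiaSubgroupIn ℚ, ∀ v : ρ₁.V,
        ρ₁.ρ s (ρ₁.ρ s (ρ₁.ρ τ v - v)) =
          (LinearMap.det (ρ₁.ρ s) * LinearMap.det (ρ₁.ρ s)) • (ρ₁.ρ τ v - v)) :
    ρ₁.IsStrictOrdinaryAt p := by
  refine ⟨hdet.1, fun P hP => ?_⟩
  obtain ⟨L, ⟨b, rfl⟩, hD, hI⟩ := hord P hP
  refine ⟨_, ⟨b, rfl⟩, hD, hI, fun σ hσ => ?_⟩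
  have hb0 : b 0 ∈ Submodule.span R {b 0} := Submodule.mem_span_singleton_self _
  obtain ⟨x, hx⟩ := Submodule.mem_span_singleton.1 (hD σ hσ (b 0) hb0)
  have e1 : ρ₁.ρ σ (b 1) = b.repr (ρ₁.ρ σ (b 1)) 0 • b 0 + b.repr (ρ₁.ρ σ (b 1)) 1 • b 1 := by
    conv_lhs => rw [← b.sum_repr (ρ₁.ρ σ (b 1)), Fin.sum_univ_two]
  set c := b.repr (ρ₁.ρ σ (b 1)) 0 with hcdef
  set z := b.repr (ρ₁.ρ σ (b 1)) 1 with hzdef
  have hdσ : LinearMap.det (ρ₁.ρ σ) = x * z := det_of_tri ρ₁ b _ hx.symm e1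
  -- the element `δ`
  obtain ⟨δ, hδ, hδ1⟩ := exists_inertia_det_ne_one ρ₁ hp hp2 hdet P hP
  obtain ⟨t, ht⟩ := Submodule.mem_span_singleton.1 (hI δ hδ (b 0))
  obtain ⟨c', hc'⟩ := Submodule.mem_span_singleton.1 (hI δ hδ (b 1))
  have hdδ : LinearMap.det (ρ₁.ρ δ) = (t + 1) * 1 :=
    det_of_tri ρ₁ b _ (c := c') (by rw [add_smul, one_smul, ht]; abel) (by rw [one_smul, hc']; abel)
  have htu : IsUnit t := by
    have := isUnit_det_sub_one hδ1
    rwa [hdδ, mul_one, add_sub_cancel_right] at this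
  -- `x² = det²`
  have h1 := hfrob P hP σ hσ δ hδ (b 0)
  rw [← ht, map_smul, map_smul, ← hx, map_smul, ← hx, smul_smul, smul_smul, smul_smul] at h1
  have h2 : t * (x * x) = t * (x * z * (x * z)) := by
    have := smul_basis_inj ρ₁ b h1
    rw [hdσ] at this
    linear_combination this
  have h3 : x * x = x * z * (x * z) := htu.mul_left_cancel h2
  have hxu : IsUnit x := by
    have hu : IsUnit (LinearMap.det (ρ₁.ρ σ)) := (ρ₁.det σ).isUnit
    rw [hdσ] at hu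
    exact isUnit_of_mul_isUnit_left hu
  have hz : z * z = 1 := by
    have h4 : (x * x) * (z * z) = (x * x) * 1 := by linear_combination -h3
    exact (hxu.mul hxu).mul_left_cancel h4
  refine ⟨x, z, ?_, ?_, ?_⟩
  · intro w hw
    obtain ⟨a, rfl⟩ := Submodule.mem_span_singleton.1 hw
    rw [map_smul, ← hx, smul_comm]
  · intro v
    rw [← b.sum_repr v, Fin.sum_univ_two, map_add, map_smul, map_smul, ← hx, e1,
      Submodule.mem_span_singleton]
    refine ⟨b.repr v 0 * x + b.repr v 1 * c - z * b.repr v 0, ?_⟩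
    simp only [sub_smul, add_smul, smul_add, smul_smul]
    rw [mul_comm z (b.repr v 1)]
    abel
  · intro n a ha
    have h5 := hdet.2 n σ a ha
    have h6 : x - (a : R) * z = (LinearMap.det (ρ₁.ρ σ) - (a : R)) * z := by
      rw [hdσ]
      linear_combination (-x) * hz
    rw [h6]
    exact Ideal.mul_mem_right _ _ h5

end Strict

end Fermat.Agent.ML.AtP
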