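import Fermat.Agent.ML.AtP.S1

/-!
# ML / AtP / S1K : [P4] of the P-STAGE split : the elements `s₁`, `δ` at `p` and their exponents on `μ_(p^K)`, for every `K`.

`SignP.exists_s1_delta` : from `SignP W p eP` : a Frobenius lift `s₁` at `Ap p`, `δ ∈ I_p`, with, for EVERY `K`, exponents `a₁`, `a_δ`
(`s₁ = (·)^a₁`, `δ = (·)^a_δ` on `μ_(p^K)`), `a₁, a_δ ≢ 1 mod p`, and, for `rbar0 = rbarB b`, `ε = eP s₁` :
`(rbar0 δ - a_δ)(rbar0 t - 1) = 0` (`t ∈ I_p`), `(rbar0 δ - a_δ)(rbar0 s₁ - ε) = 0`, `rbar0 δ - a_δ ≠ 0`, `hdisc`, `tr rbar0 s₁ = ε (a₁ + 1)`.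
-/

set_option autoImplicit false

noncomputable section

open ExtCitation

namespace Fermat.Agent.ML

open Fermat.Agent.RIB Fermat.Agent.ML.ESide Fermat.Agent.S56 Fermat.Agent.S56.Flat
open CFT (decomp)

local notation "Qbar" => AlgebraicClosure ℚ
local notation "GQ" => (AlgebraicClosure ℚ ≃ₐ[ℚ] AlgebraicClosure ℚ)
local notation "M₂" => Matrix (Fin 2) (Fin 2)

variable {W : WeierstrassCurve ℤ} {p : ℕ} [Fact p.Prime] {eP : GQ → ℤ}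

/-- an exponent of `g` on `μ_(p^K)`; its class modulo `p` is `χ(g)`. -/
theorem exists_exponent (g : GQ) (K : ℕ) :
    ∃ a : ℕ, (∀ μ : Qbar, μ ^ (p ^ K) = 1 → g μ = μ ^ a) ∧
      (a : ZMod p) = ((cycloChar p g : (ZMod p)ˣ) : ZMod p) := by
  have hp : p.Prime := Fact.out
  have : NeZero (p ^ (K + 1)) := ⟨pow_ne_zero _ hp.ne_zero⟩
  have : NeZero p := ⟨hp.ne_zero⟩
  set a : ℕ := ((GAL.cycloChar (p ^ (K + 1)) g : (ZMod (p ^ (K + 1)))ˣ) : ZMod (p ^ (K + 1))).val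
    with ha
  refine ⟨a, fun μ hμ => GAL.cycloChar_spec (p ^ (K + 1)) g (by rw [pow_succ, pow_mul, hμ, one_pow]),
    ?_⟩
  obtain ⟨ζ, hζ⟩ := MAZ.exists_primitiveRoot_Qb (r := p) hp.ne_zero
  have h1 : g ζ = ζ ^ a := GAL.cycloChar_spec (p ^ (K + 1)) g (by
    rw [pow_succ', pow_mul, hζ.pow_eq_one, one_pow])
  rw [CFT.cycloChar_eq_gal]
  exact (GAL.cycloChar_eq_of_primitiveRoot p g hζ h1).symm

theorem not_modEq_one_of_cast {a : ℕ} {g : GQ}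
    (ha : (a : ZMod p) = ((cycloChar p g : (ZMod p)ˣ) : ZMod p)) (hg : cycloChar p g ≠ 1) :
    ¬ a ≡ 1 [MOD p] := by
  intro h
  apply hg
  apply Units.ext
  rw [← ha, (ZMod.natCast_eq_natCast_iff a 1 p).2 h, Nat.cast_one]
  rfl

/-- **[P4]** -/
theorem SignP.exists_s1_delta (hs : SignP W p eP) (hp2 : p ≠ 2)
    (b : Module.Basis (Fin 2) (ZMod p) (TorsW W p))
    (hdet : ∀ g : GQ, (rbarB b g).det = ((cycloChar p g : (ZMod p)ˣ) : ZMod p)) :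
    ∃ s₁ δ : GQ, (Ap p).IsFrobeniusAt s₁ p ∧ δ ∈ (Ap p).inertiaSubgroupIn ℚ ∧
      eP s₁ * eP s₁ = 1 ∧ (rbarB b s₁).trace ^ 2 ≠ 4 * (rbarB b s₁).det ∧
      ∀ K : ℕ, ∃ a₁ aδ : ℕ, (∀ μ : Qbar, μ ^ (p ^ K) = 1 → s₁ μ = μ ^ a₁) ∧
        (∀ μ : Qbar, μ ^ (p ^ K) = 1 → δ μ = μ ^ aδ) ∧ ¬ a₁ ≡ 1 [MOD p] ∧ ¬ aδ ≡ 1 [MOD p] ∧
        (rbarB b s₁).trace = ((eP s₁ * (1 + a₁) : ℤ) : ZMod p) ∧
        rbarB b δ - (aδ : ZMod p) • (1 : M₂ (ZMod p)) ≠ 0 ∧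
        (∀ t ∈ (Ap p).inertiaSubgroupIn ℚ,
          (rbarB b δ - (aδ : ZMod p) • (1 : M₂ (ZMod p))) * (rbarB b t - 1) = 0) ∧
        (rbarB b δ - (aδ : ZMod p) • (1 : M₂ (ZMod p))) *
          (rbarB b s₁ - ((eP s₁ : ℤ) : ZMod p) • (1 : M₂ (ZMod p))) = 0 := by
  obtain ⟨s₁, hs₁, hχ₁, htr, hdisc⟩ := hs.exists_s1 hp2 b hdet
  obtain ⟨δ, hδ, hχδ⟩ := exists_inert_cycloChar_ne_one (p := p) hp2
  have hδD : δ ∈ decomp (pPrime p) := inert_le_decomp _ hδ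
  have hsD : s₁ ∈ decomp (pPrime p) := hs₁.mem_decompositionSubgroup
  have hee : eP s₁ * eP s₁ = 1 := by
    rcases hs.1 s₁ with h | h <;> rw [h] <;> norm_num
  -- the operator identity with `σ = δ`
  have hop : ∀ t ∈ decomp (pPrime p),
      (rbarB b δ - ((cycloChar p δ : (ZMod p)ˣ) : ZMod p) • (1 : M₂ (ZMod p))) *
        (rbarB b t - ((eP t : ℤ) : ZMod p) • (1 : M₂ (ZMod p))) = 0 := by
    intro t ht
    have h1 := rEB_sub_mul_sub_eq_zero_int b δ t _ _ (fun x => hs.smul_sub hδD ht x)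
    rw [← rbarB_eq_rEB, hs.2.1 δ hδ, mul_one, Int.cast_natCast, ZMod.natCast_val,
      ZMod.cast_id] at h1
    exact h1
  refine ⟨s₁, δ, hs₁, hδ, hee, hdisc, fun K => ?_⟩
  obtain ⟨a₁, h₁, e₁⟩ := exists_exponent (p := p) s₁ K
  obtain ⟨aδ, h₂, e₂⟩ := exists_exponent (p := p) δ K
  refine ⟨a₁, aδ, h₁, h₂, not_modEq_one_of_cast e₁ hχ₁, not_modEq_one_of_cast e₂ hχδ, ?_, ?_,
    fun t ht => ?_, ?_⟩
  · rw [htr, ← e₁]
    push_cast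
    ring
  · -- `det rbar δ = aδ ≠ aδ²`
    intro h0
    have h1 : rbarB b δ = (aδ : ZMod p) • (1 : M₂ (ZMod p)) := sub_eq_zero.1 h0
    have h3 := hdet δ
    rw [h1, ← e₂, Matrix.det_smul, Matrix.det_one, Fintype.card_fin, mul_one] at h3
    have hu : (aδ : ZMod p) ≠ 0 := by rw [e₂]; exact (cycloChar p δ).ne_zero
    have h4 : (aδ : ZMod p) = 1 := by
      have : (aδ : ZMod p) * ((aδ : ZMod p) - 1) = 0 := by linear_combination h3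
      exact sub_eq_zero.1 ((mul_eq_zero.1 this).resolve_left hu)
    apply hχδ
    apply Units.ext
    rw [← e₂, h4]
    rfl
  · have := hop t (inert_le_decomp _ ht)
    rwa [hs.2.1 t ht, Int.cast_one, one_smul, ← e₂] at this
  · have := hop s₁ hsD
    rwa [← e₂] at this

end Fermat.Agent.ML
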