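import Fermat.Agent.ML.AtP.OrdAbs
import Fermat.Agent.S56.Tame.Main

/-!
# ML / AtP / Strict : strictness at `p` from the toric part   (case (M) of AT-P)

`ρ₁ : GaloisRepAdic R`, `Y` a finite `G_ℚ`-module which controls `ρ₁` (`AnnV Y ρ₁`).

* `Toric I φ δ Y` : there is a subgroup `Z ≤ Y` with `(τ - 1) Y ≤ Z` (`τ ∈ I`), `(φ² - 1) Y ≤ Z` and without non zero
  fixed point of `δ`   (shape of `ML.exists_toricNew`; on the `E`-side `Z = C_k`).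
* `Toric.ord` : `S33.Ord I Y`.      `Toric.prod`.
* `isStrictOrdinaryAt_of_sq` : ordinary + `det = χ` + `(ρ(φ)² - 1) V ⊆ ⋃ (ρ(τ) - 1) V` for ONE Frobenius lift `φ`.
* `isStrictOrdinaryAt_of_toric` : the final form.
-/

set_option autoImplicit false

open IsLocalRing

namespace Fermat.Agent.ML.AtP

open Fermat.Agent.S33 Fermat.Agent.S53

/-- the toric part. -/
def Toric (I : Subgroup GQ) (φ δ : GQ) (Y : Type*) [AddCommGroup Y] [DistribMulAction GQ Y] : Prop :=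
  ∃ Z : AddSubgroup Y, (∀ τ ∈ I, ∀ y : Y, τ • y - y ∈ Z) ∧ (∀ y : Y, φ • φ • y - y ∈ Z) ∧
    ∀ z ∈ Z, δ • z = z → z = 0

section Toric

variable {I : Subgroup GQ} {φ δ : GQ} {Y Y' : Type*} [AddCommGroup Y] [DistribMulAction GQ Y]
  [AddCommGroup Y'] [DistribMulAction GQ Y']

theorem Toric.ord [Finite Y] (h : Toric I φ δ Y) (hδ : δ ∈ I) : S33.Ord I Y := by
  obtain ⟨Z, h1, -, h3⟩ := h
  refine ⟨Z, fun τ hτ z hz => ?_, h1, nt_of_injective hδ h3⟩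
  have := Z.add_mem (h1 τ hτ z) hz
  rwa [sub_add_cancel] at this

theorem Toric.prod (h : Toric I φ δ Y) (h' : Toric I φ δ Y') : Toric I φ δ (Y × Y') := by
  obtain ⟨Z, h1, h2, h3⟩ := h
  obtain ⟨Z', h1', h2', h3'⟩ := h'
  refine ⟨Z.prod Z', fun τ hτ y => ⟨h1 τ hτ y.1, h1' τ hτ y.2⟩, fun y => ⟨h2 y.1, h2' y.2⟩, ?_⟩
  rintro ⟨a, b⟩ ⟨ha, hb⟩ hab
  exact Prod.ext (h3 a ha (congrArg Prod.fst hab)) (h3' b hb (congrArg Prod.snd hab))

/-- an equivariant injection. -/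
theorem Toric.of_injective (h : Toric I φ δ Y') (j : Y →+ Y') (hj : Function.Injective j)
    (hjσ : ∀ (σ : GQ) (y : Y), j (σ • y) = σ • j y) : Toric I φ δ Y := by
  obtain ⟨Z, h1, h2, h3⟩ := h
  refine ⟨Z.comap j, fun τ hτ y => ?_, fun y => ?_, fun z hz hδz => ?_⟩
  · rw [AddSubgroup.mem_comap, map_sub, hjσ]
    exact h1 τ hτ _
  · rw [AddSubgroup.mem_comap, map_sub, hjσ, hjσ]
    exact h2 _
  · apply hj
    rw [map_zero]
    exact h3 _ hz (by rw [← hjσ, hδz])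

end Toric

section Transfer

variable {R : Type} [CommRing R] [IsLocalRing R]

/-- the action of `ℤ[G_ℚ]` on `Y`. -/
noncomputable def actY (Y : Type*) [AddCommGroup Y] [DistribMulAction GQ Y] :
    MonoidAlgebra ℤ GQ →ₐ[ℤ] Module.End ℤ Y :=
  MonoidAlgebra.lift ℤ (Module.End ℤ Y) GQ (DistribMulAction.toModuleEnd ℤ Y)

theorem actY_apply {Y : Type*} [AddCommGroup Y] [DistribMulAction GQ Y] (f : MonoidAlgebra ℤ GQ)
    (y : Y) : actY Y f y = f.coeff.sum fun σ a => a • σ • y := by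
  rw [actY, MonoidAlgebra.lift_apply, Finsupp.sum, LinearMap.sum_apply]
  rfl

theorem actY_of {Y : Type*} [AddCommGroup Y] [DistribMulAction GQ Y] (σ : GQ) (y : Y) :
    actY Y (MonoidAlgebra.of ℤ GQ σ) y = σ • y := by
  rw [actY, MonoidAlgebra.lift_of]
  rfl

/-- the action of `ℤ[G_ℚ]` on `V`. -/
noncomputable def actV (ρ₁ : GaloisRepAdic R) : MonoidAlgebra ℤ GQ →ₐ[ℤ] Module.End R ρ₁.V :=
  MonoidAlgebra.lift ℤ (Module.End R ρ₁.V) GQ ρ₁.ρ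

theorem actV_of (ρ₁ : GaloisRepAdic R) (σ : GQ) : actV ρ₁ (MonoidAlgebra.of ℤ GQ σ) = ρ₁.ρ σ := by
  rw [actV, MonoidAlgebra.lift_of]

theorem AnnV.act_eq_zero {Y : Type*} [AddCommGroup Y] [DistribMulAction GQ Y]
    {ρ₁ : GaloisRepAdic R} (h : AnnV Y ρ₁) {f : MonoidAlgebra ℤ GQ} (hf : actY Y f = 0) :
    actV ρ₁ f = 0 := by
  refine LinearMap.ext fun v => ?_
  rw [actV, MonoidAlgebra.lift_apply, Finsupp.sum, LinearMap.sum_apply]
  exact h f.coeff (fun y => by rw [← actY_apply, hf]; rfl) v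

theorem exists_iterate_eq_id {Z : Type*} [Finite Z] (g : Z → Z) (hg : Function.Injective g) :
    ∃ r : ℕ, 0 < r ∧ ∀ z, g^[r] z = z := by
  let e : Equiv.Perm Z := Equiv.ofBijective g (Finite.injective_iff_bijective.1 hg)
  refine ⟨orderOf e, orderOf_pos e, fun z => ?_⟩
  have h1 : g^[orderOf e] = ⇑(e ^ orderOf e) := Equiv.Perm.iterate_eq_pow e _
  rw [h1, pow_orderOf_eq_one]
  rfl

/-- `(ρ(φ)² - 1) V ⊆ (ρ(δ) - 1) V`. -/
theorem Toric.sq_sub_mem {I : Subgroup GQ} {φ δ : GQ} {Y : Type*} [AddCommGroup Y] [Finite Y]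
    [DistribMulAction GQ Y] (h : Toric I φ δ Y) (hδ : δ ∈ I) {ρ₁ : GaloisRepAdic R}
    (hann : AnnV Y ρ₁) (v : ρ₁.V) :
    ∃ w : ρ₁.V, ρ₁.ρ φ (ρ₁.ρ φ v) - v = ρ₁.ρ δ w - w := by
  obtain ⟨Z, h1, h2, h3⟩ := h
  let g : Z → Z := fun z => ⟨δ • z.1 - z.1, h1 δ hδ z.1⟩
  have hg : Function.Injective g := by
    intro a b hab
    have e1 : δ • a.1 - a.1 = δ • b.1 - b.1 := congrArg Subtype.val hab
    have e2 : δ • (a.1 - b.1) = a.1 - b.1 := by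
      rw [smul_sub]
      have : δ • a.1 - δ • b.1 - (a.1 - b.1) = (δ • a.1 - a.1) - (δ • b.1 - b.1) := by abel
      rw [← sub_eq_zero, this, e1, sub_self]
    exact Subtype.ext (sub_eq_zero.1 (h3 _ (Z.sub_mem a.2 b.2) e2))
  obtain ⟨r, hr, hgr⟩ := exists_iterate_eq_id g hg
  set d : MonoidAlgebra ℤ GQ := MonoidAlgebra.of ℤ GQ δ - 1 with hd
  set s : MonoidAlgebra ℤ GQ := MonoidAlgebra.of ℤ GQ φ * MonoidAlgebra.of ℤ GQ φ - 1 with hs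
  have hdY : ∀ y : Y, actY Y d y = δ • y - y := by
    intro y
    rw [hd, map_sub, map_one, LinearMap.sub_apply, actY_of, Module.End.one_apply]
  have hsY : ∀ y : Y, actY Y s y = φ • φ • y - y := by
    intro y
    rw [hs, map_sub, map_one, map_mul, LinearMap.sub_apply, Module.End.mul_apply, actY_of, actY_of,
      Module.End.one_apply]
  have hit : ∀ (n : ℕ) (z : Z), (actY Y d ^ n) z.1 = (g^[n] z).1 := by
    intro n
    induction n with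
    | zero => intro z; rfl
    | succ k ih =>
      intro z
      rw [pow_succ, Module.End.mul_apply, hdY, Function.iterate_succ_apply]
      exact ih (g z)
  have hzero : actY Y (d ^ r * s - s) = 0 := by
    refine LinearMap.ext fun y => ?_
    rw [map_sub, map_mul, map_pow, LinearMap.sub_apply, Module.End.mul_apply, hsY,
      hit r ⟨_, h2 y⟩, hgr, sub_self]
    rfl
  have hV := hann.act_eq_zero hzero
  obtain ⟨r', rfl⟩ : ∃ r', r = r' + 1 := ⟨r - 1, by omega⟩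
  have hdV : actV ρ₁ d = ρ₁.ρ δ - 1 := by rw [hd, map_sub, map_one, actV_of]
  have hsV : actV ρ₁ s = ρ₁.ρ φ * ρ₁.ρ φ - 1 := by rw [hs, map_sub, map_one, map_mul, actV_of]
  rw [map_sub, map_mul, map_pow, hdV, hsV, sub_eq_zero, pow_succ'] at hV
  have h4 := congrArg (fun F : Module.End R ρ₁.V => F v) hV
  simp only [Module.End.mul_apply, LinearMap.sub_apply, Module.End.one_apply] at h4
  exact ⟨_, h4.symm⟩

end Transfer

section Sq

variable {R : Type} [CommRing R] [IsLocalRing R]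

/-- the last clause of `IsStrictOrdinaryAt` from `z² = 1`. -/
theorem strict_clause {p : ℕ} (ρ₁ : GaloisRepAdic R) (hdet : ρ₁.DetIsCyclotomic p)
    (b : Module.Basis (Fin 2) R ρ₁.V) (σ : GQ) (hD : ρ₁.ρ σ (b 0) ∈ Submodule.span R {b 0})
    (hz : b.repr (ρ₁.ρ σ (b 1)) 1 * b.repr (ρ₁.ρ σ (b 1)) 1 = 1) :
    ∃ x z : R, (∀ w ∈ Submodule.span R {b 0}, ρ₁.ρ σ w = x • w) ∧
      (∀ v : ρ₁.V, ρ₁.ρ σ v - z • v ∈ Submodule.span R {b 0}) ∧
      ∀ (n a : ℕ), (∀ μ : AlgebraicClosure ℚ, μ ^ p ^ n = 1 → σ μ = μ ^ a) →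
        x - (a : R) * z ∈ Ideal.span {((p ^ n : ℕ) : R)} := by
  obtain ⟨x, hx⟩ := Submodule.mem_span_singleton.1 hD
  have e1 : ρ₁.ρ σ (b 1) = b.repr (ρ₁.ρ σ (b 1)) 0 • b 0 + b.repr (ρ₁.ρ σ (b 1)) 1 • b 1 := by
    conv_lhs => rw [← b.sum_repr (ρ₁.ρ σ (b 1)), Fin.sum_univ_two]
  set c := b.repr (ρ₁.ρ σ (b 1)) 0 with hcdef
  set z := b.repr (ρ₁.ρ σ (b 1)) 1 with hzdef
  have hdσ : LinearMap.det (ρ₁.ρ σ) = x * z := det_of_tri ρ₁ b _ hx.symm e1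
  refine ⟨x, z, ?_, ?_, ?_⟩
  · intro w hw
    obtain ⟨a, rfl⟩ := Submodule.mem_span_singleton.1 hw
    rw [map_smul, ← hx, smul_comm]
  · intro v
    rw [← b.sum_repr v, Fin.sum_univ_two, map_add, map_smul, map_smul, ← hx, e1,
      Submodule.mem_span_singleton]
    refine ⟨b.repr v 0 * x + b.repr v 1 * c - z * b.repr v 0, ?_⟩
    simp only [sub_smul, add_smul, smul_add, smul_smul]
    rw [mul_comm z (b.repr v 1)]
    abel
  · intro n a ha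
    have h5 := hdet.2 n σ a ha
    have h6 : x - (a : R) * z = (LinearMap.det (ρ₁.ρ σ) - (a : R)) * z := by
      rw [hdσ]
      linear_combination (-x) * hz
    rw [h6]
    exact Ideal.mul_mem_right _ _ h5

theorem mem_span_iff_repr (ρ₁ : GaloisRepAdic R) (b : Module.Basis (Fin 2) R ρ₁.V) (w : ρ₁.V) :
    w ∈ Submodule.span R {b 0} ↔ b.repr w 1 = 0 := by
  constructor
  · intro hw
    obtain ⟨a, rfl⟩ := Submodule.mem_span_singleton.1 hw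
    rw [map_smul, Finsupp.smul_apply, b.repr_self, Finsupp.single_eq_of_ne (by decide), smul_zero]
  · intro hw
    rw [← b.sum_repr w, Fin.sum_univ_two, hw, zero_smul, add_zero]
    exact Submodule.smul_mem _ _ (Submodule.mem_span_singleton_self _)

/-- the character of `D` on `V / L` has square one, from ONE Frobenius lift. -/
theorem repr_sq_eq_one {p : ℕ} (hp : p.Prime) (ρ₁ : GaloisRepAdic R)
    (hcont : GaloisFactorsThroughFiniteLevel ρ₁.ρ)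
    {P : ValuationSubring (AlgebraicClosure ℚ)} (hP : P.LiesOverPrime p)
    (b : Module.Basis (Fin 2) R ρ₁.V)
    (hD : ∀ σ ∈ P.decompositionSubgroup ℚ, ∀ v ∈ Submodule.span R {b 0},
      ρ₁.ρ σ v ∈ Submodule.span R {b 0})
    (hI : ∀ σ ∈ P.inertiaSubgroupIn ℚ, ∀ v : ρ₁.V, ρ₁.ρ σ v - v ∈ Submodule.span R {b 0})
    {φ : GQ} (hφ : P.IsFrobeniusAt φ p)
    (hφ2 : ∀ v : ρ₁.V, ∃ τ ∈ P.inertiaSubgroupIn ℚ, ∃ w : ρ₁.V,
        ρ₁.ρ φ (ρ₁.ρ φ v) - v = ρ₁.ρ τ w - w)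
    {σ : GQ} (hσ : σ ∈ P.decompositionSubgroup ℚ) :
    b.repr (ρ₁.ρ σ (b 1)) 1 * b.repr (ρ₁.ρ σ (b 1)) 1 = 1 := by
  have hb0 : b 0 ∈ Submodule.span R {b 0} := Submodule.mem_span_singleton_self _
  -- the character on the quotient
  have key : ∀ g ∈ P.decompositionSubgroup ℚ, ∀ v : ρ₁.V,
      b.repr (ρ₁.ρ g v) 1 = b.repr (ρ₁.ρ g (b 1)) 1 * b.repr v 1 := by
    intro g hg v
    conv_lhs => rw [← b.sum_repr v, Fin.sum_univ_two]
    rw [map_add, map_smul, map_smul, map_add, map_smul, map_smul, Finsupp.add_apply,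
      Finsupp.smul_apply, Finsupp.smul_apply, (mem_span_iff_repr ρ₁ b _).1 (hD g hg _ hb0),
      smul_zero, zero_add, smul_eq_mul, mul_comm]
  have hφD : φ ∈ P.decompositionSubgroup ℚ := hφ.mem_decompositionSubgroup
  set zφ := b.repr (ρ₁.ρ φ (b 1)) 1 with hzφ
  have h11 : b.repr (b 1) 1 = 1 := by rw [b.repr_self, Finsupp.single_eq_same]
  have hzφ2 : zφ * zφ = 1 := by
    obtain ⟨τ, hτ, w, hw⟩ := hφ2 (b 1)
    have h1 := (mem_span_iff_repr ρ₁ b _).1 (hw ▸ hI τ hτ w)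
    rw [map_sub, Finsupp.sub_apply, key φ hφD, h11, sub_eq_zero] at h1
    exact h1
  have hpow : ∀ (n : ℕ) (v : ρ₁.V), b.repr (ρ₁.ρ (φ ^ n) v) 1 = zφ ^ n * b.repr v 1 := by
    intro n
    induction n with
    | zero =>
      intro v
      have e : ρ₁.ρ (φ ^ 0) = 1 := by rw [pow_zero, map_one]
      rw [e, Module.End.one_apply, pow_zero, one_mul]
    | succ k ih =>
      intro v
      rw [pow_succ, map_mul, Module.End.mul_apply, ih, key φ hφD, pow_succ, mul_assoc]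
  obtain ⟨F, hF, hF1⟩ := hcont
  obtain ⟨n, τ, hτ, hστ⟩ := S56.exists_frob_pow_mul_inertia hp hP hφ F hσ
  have hρ : ρ₁.ρ σ = ρ₁.ρ (φ ^ n * τ) := by
    have h1 : ρ₁.ρ ((φ ^ n * τ)⁻¹ * σ) = 1 := hF1 _ fun x hx => by
      rw [AlgEquiv.mul_apply, hστ x hx]
      exact (φ ^ n * τ).symm_apply_apply x
    rw [map_mul] at h1
    calc ρ₁.ρ σ = ρ₁.ρ (φ ^ n * τ) * (ρ₁.ρ (φ ^ n * τ)⁻¹ * ρ₁.ρ σ) := by
          rw [← mul_assoc, ← map_mul, mul_inv_cancel, map_one, one_mul]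
      _ = ρ₁.ρ (φ ^ n * τ) := by rw [h1, mul_one]
  have hτ1 : b.repr (ρ₁.ρ τ (b 1)) 1 = 1 := by
    have h1 := (mem_span_iff_repr ρ₁ b _).1 (hI τ hτ (b 1))
    rwa [map_sub, Finsupp.sub_apply, h11, sub_eq_zero] at h1
  have hz : b.repr (ρ₁.ρ σ (b 1)) 1 = zφ ^ n := by
    rw [hρ, map_mul, Module.End.mul_apply, hpow, hτ1, mul_one]
  rw [hz, ← mul_pow, hzφ2, one_pow]

/-- **strictness from ONE Frobenius lift** : `(ρ(φ)² - 1) V ⊆ ⋃_τ (ρ(τ) - 1) V`. -/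
theorem isStrictOrdinaryAt_of_sq {p : ℕ} (hp : p.Prime) (ρ₁ : GaloisRepAdic R)
    (hdet : ρ₁.DetIsCyclotomic p) (hord : ρ₁.IsOrdinaryAt p)
    (hcont : GaloisFactorsThroughFiniteLevel ρ₁.ρ)
    (hsq : ∀ P : ValuationSubring (AlgebraicClosure ℚ), P.LiesOverPrime p →
      ∃ φ : GQ, P.IsFrobeniusAt φ p ∧ ∀ v : ρ₁.V, ∃ τ ∈ P.inertiaSubgroupIn ℚ, ∃ w : ρ₁.V,
        ρ₁.ρ φ (ρ₁.ρ φ v) - v = ρ₁.ρ τ w - w) :
    ρ₁.IsStrictOrdinaryAt p := by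
  refine ⟨hdet.1, fun P hP => ?_⟩
  obtain ⟨L, ⟨b, rfl⟩, hD, hI⟩ := hord P hP
  obtain ⟨φ, hφ, hφ2⟩ := hsq P hP
  have hb0 : b 0 ∈ Submodule.span R {b 0} := Submodule.mem_span_singleton_self _
  exact ⟨_, ⟨b, rfl⟩, hD, hI, fun σ hσ => strict_clause ρ₁ hdet b σ (hD σ hσ _ hb0)
    (repr_sq_eq_one hp ρ₁ hcont hP b hD hI hφ hφ2 hσ)⟩

/-- the operator form of strictness, on `V`. -/
theorem exists_strict_op {p : ℕ} (hp : p.Prime) (ρ₁ : GaloisRepAdic R) (hord : ρ₁.IsOrdinaryAt p)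
    (hcont : GaloisFactorsThroughFiniteLevel ρ₁.ρ)
    {P : ValuationSubring (AlgebraicClosure ℚ)} (hP : P.LiesOverPrime p)
    {φ : GQ} (hφ : P.IsFrobeniusAt φ p)
    (hφ2 : ∀ v : ρ₁.V, ∃ τ ∈ P.inertiaSubgroupIn ℚ, ∃ w : ρ₁.V,
        ρ₁.ρ φ (ρ₁.ρ φ v) - v = ρ₁.ρ τ w - w) :
    ∃ e : GQ → R, (∀ σ ∈ P.inertiaSubgroupIn ℚ, e σ = 1) ∧
      (∀ σ ∈ P.decompositionSubgroup ℚ, e σ * e σ = 1) ∧
      ∀ σ ∈ P.decompositionSubgroup ℚ, ∀ τ ∈ P.decompositionSubgroup ℚ, ∀ v : ρ₁.V,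
        ρ₁.ρ σ (ρ₁.ρ τ v - e τ • v) =
          (LinearMap.det (ρ₁.ρ σ) * e σ) • (ρ₁.ρ τ v - e τ • v) := by
  obtain ⟨L, ⟨b, rfl⟩, hD, hI⟩ := hord P hP
  have hb0 : b 0 ∈ Submodule.span R {b 0} := Submodule.mem_span_singleton_self _
  have h11 : b.repr (b 1) 1 = 1 := by rw [b.repr_self, Finsupp.single_eq_same]
  have hsq : ∀ σ ∈ P.decompositionSubgroup ℚ,
      b.repr (ρ₁.ρ σ (b 1)) 1 * b.repr (ρ₁.ρ σ (b 1)) 1 = 1 :=
    fun σ hσ => repr_sq_eq_one hp ρ₁ hcont hP b hD hI hφ hφ2 hσ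
  refine ⟨fun σ => b.repr (ρ₁.ρ σ (b 1)) 1, fun σ hσ => ?_, hsq, fun σ hσ τ hτ v => ?_⟩
  · have h1 := (mem_span_iff_repr ρ₁ b _).1 (hI σ hσ (b 1))
    rwa [map_sub, Finsupp.sub_apply, h11, sub_eq_zero] at h1
  · -- `(ρ τ - e τ) v ∈ L`
    have hmem : ρ₁.ρ τ v - b.repr (ρ₁.ρ τ (b 1)) 1 • v ∈ Submodule.span R {b 0} := by
      rw [mem_span_iff_repr]
      conv_lhs => rw [← b.sum_repr v, Fin.sum_univ_two]
      rw [map_add, map_smul, map_smul, map_sub, map_add, map_smul, map_smul, map_smul, map_add,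
        map_smul, map_smul, Finsupp.sub_apply, Finsupp.add_apply, Finsupp.smul_apply,
        Finsupp.smul_apply, Finsupp.smul_apply, Finsupp.add_apply, Finsupp.smul_apply,
        Finsupp.smul_apply, (mem_span_iff_repr ρ₁ b _).1 (hD τ hτ _ hb0), b.repr_self, b.repr_self,
        Finsupp.single_eq_of_ne (by decide), Finsupp.single_eq_same]
      simp only [smul_eq_mul]
      ring
    obtain ⟨a, ha⟩ := Submodule.mem_span_singleton.1 hmem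
    obtain ⟨x, hx⟩ := Submodule.mem_span_singleton.1 (hD σ hσ _ hb0)
    have e1 : ρ₁.ρ σ (b 1) = b.repr (ρ₁.ρ σ (b 1)) 0 • b 0 + b.repr (ρ₁.ρ σ (b 1)) 1 • b 1 := by
      conv_lhs => rw [← b.sum_repr (ρ₁.ρ σ (b 1)), Fin.sum_univ_two]
    have hdσ : LinearMap.det (ρ₁.ρ σ) = x * b.repr (ρ₁.ρ σ (b 1)) 1 :=
      det_of_tri ρ₁ b _ hx.symm e1
    have hx' : LinearMap.det (ρ₁.ρ σ) * b.repr (ρ₁.ρ σ (b 1)) 1 = x := by
      rw [hdσ, mul_assoc, hsq σ hσ, mul_one]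
    show ρ₁.ρ σ (ρ₁.ρ τ v - b.repr (ρ₁.ρ τ (b 1)) 1 • v) = _
    rw [hx', ← ha, map_smul, ← hx, smul_comm]

/-- **strictness at `p` from the toric part**, final abstract form. -/
theorem isStrictOrdinaryAt_of_toric [Finite R] {p : ℕ} (hp : p.Prime) (hp2 : p ≠ 2)
    (ρ₁ : GaloisRepAdic R) (hdet : ρ₁.DetIsCyclotomic p)
    (hcont : GaloisFactorsThroughFiniteLevel ρ₁.ρ)
    {Y : Type*} [AddCommGroup Y] [Finite Y] [DistribMulAction GQ Y] (hann : AnnV Y ρ₁)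
    (hY : ∀ P : ValuationSubring (AlgebraicClosure ℚ), P.LiesOverPrime p →
      ∃ φ : GQ, P.IsFrobeniusAt φ p ∧ ∃ δ ∈ P.inertiaSubgroupIn ℚ,
        Toric (P.inertiaSubgroupIn ℚ) φ δ Y)
    (hres : ∀ P : ValuationSubring (AlgebraicClosure ℚ), P.LiesOverPrime p →
      ∃ e₀ : ρ₁.V, ResLine ρ₁ (P.inertiaSubgroupIn ℚ) e₀) :
    ρ₁.IsStrictOrdinaryAt p := by
  refine isStrictOrdinaryAt_of_sq hp ρ₁ hdet
    (isOrdinaryAt_of_ord hp hp2 ρ₁ hdet hann (fun P hP => ?_) hres) hcont fun P hP => ?_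
  · obtain ⟨φ, -, δ, hδ, hT⟩ := hY P hP
    exact hT.ord hδ
  · obtain ⟨φ, hφ, δ, hδ, hT⟩ := hY P hP
    refine ⟨φ, hφ, fun v => ?_⟩
    obtain ⟨w, hw⟩ := hT.sq_sub_mem hδ hann v
    exact ⟨δ, hδ, w, hw⟩

end Sq

end Fermat.Agent.ML.AtP
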