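import Fermat.Agent.ML.AtP.TP.ES
import Fermat.Agent.RIB.Main.Spec
import Fermat.Agent.RIB.Star

/-!
# ML / AtP / TPMain : [TP-1]  `T_p - ε` is not injective on `W(L)`, `p ∤ L`, `rbar0` ordinary at `p` with unramified quotient character `ε`

* `not_injective_abs` : abstract form.  `R` local, `V ≠ 0` a finite `R`-module, `Φ : M₂(R) → End_R V`, `U ∈ M₂(R)` with a unit entry, `t : V →+ V` with
  `Φ U (t v) ∈ m V` for all `v`.  Then `t` is not injective.
* `tp_not_injective` : (RHO) at the level `L`, `U ≠ 0` in `M₂(𝔽_p)` with `U (rbar0 τ - 1) = 0` (`τ ∈ I_A`), `U (rbar0 s - ε) = 0` (`s` a Frobenius lift at `A ∣ p`).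
  Then there is `x ≠ 0` in `W(L)` with `T_p x = ε x`.
-/

set_option autoImplicit false

noncomputable section

open AlgebraicCurve ModularCurve IsLocalRing

namespace Fermat.Agent.ML.AtP

open Fermat.Agent.RIB

local notation "Qbar" => AlgebraicClosure ℚ
local notation "GQ" => (AlgebraicClosure ℚ ≃ₐ[ℚ] AlgebraicClosure ℚ)
local notation "M₂" => Matrix (Fin 2) (Fin 2)

section Abs

variable {R V : Type*} [CommRing R] [AddCommGroup V] [Module R V]
  (Φ : M₂ R →ₐ[R] Module.End R V)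

/-- a matrix with entries in `J` maps `V` into `J V`. -/
theorem phi_mem_smul_top (J : Ideal R) (X : M₂ R) (hX : ∀ i j, X i j ∈ J) (v : V) :
    Φ X v ∈ J • (⊤ : Submodule R V) := by
  rw [Matrix.matrix_eq_sum_single X, map_sum, LinearMap.sum_apply]
  refine Submodule.sum_mem _ fun i _ => ?_
  rw [map_sum, LinearMap.sum_apply]
  refine Submodule.sum_mem _ fun j _ => ?_
  have : Matrix.single i j (X i j) = X i j • Matrix.single i j (1 : R) := by
    rw [Matrix.smul_single, smul_eq_mul, mul_one]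
  rw [this, map_smul, LinearMap.smul_apply]
  exact Submodule.smul_mem_smul (hX i j) Submodule.mem_top

/-- `R`-linear maps preserve `J V`. -/
theorem map_mem_smul_top (J : Ideal R) (f : V →ₗ[R] V) {v : V} (hv : v ∈ J • (⊤ : Submodule R V)) :
    f v ∈ J • (⊤ : Submodule R V) := by
  have h1 : (J • (⊤ : Submodule R V)).map f ≤ J • (⊤ : Submodule R V) := by
    rw [Submodule.map_smul'']
    exact Submodule.smul_mono le_rfl le_top
  exact h1 ⟨v, hv, rfl⟩

/-- abstract form of [TP-1]. -/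
theorem not_injective_abs [IsLocalRing R] [Finite V] [Nontrivial V] (U : M₂ R) {i j : Fin 2}
    (hu : IsUnit (U i j)) (t : V →+ V)
    (ht : ∀ v, Φ U (t v) ∈ maximalIdeal R • (⊤ : Submodule R V)) : ¬ Function.Injective t := by
  intro hinj
  have hsurj : Function.Surjective t := Finite.injective_iff_surjective.1 hinj
  have h1 : ∀ v, Φ U v ∈ maximalIdeal R • (⊤ : Submodule R V) := by
    intro v
    obtain ⟨w, rfl⟩ := hsurj v
    exact ht w
  have h2 : ∀ v : V, U i j • v ∈ maximalIdeal R • (⊤ : Submodule R V) := by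
    intro v
    have e : U i j • v = Φ (U i j • (1 : M₂ R)) v := by
      rw [map_smul, map_one]; rfl
    rw [e, smul_one_eq_sum_single, map_sum, LinearMap.sum_apply]
    refine Submodule.sum_mem _ fun a _ => ?_
    rw [map_mul, map_mul, Module.End.mul_apply, Module.End.mul_apply]
    exact map_mem_smul_top _ _ (h1 _)
  have h3 : (⊤ : Submodule R V) ≤ maximalIdeal R • (⊤ : Submodule R V) := by
    intro v _
    obtain ⟨w, hw⟩ := hu.exists_left_inv
    have : v = w • (U i j • v) := by rw [← mul_smul, hw, one_smul]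
    rw [this]
    exact Submodule.smul_mem _ _ (h2 v)
  have hfg : (⊤ : Submodule R V).FG := (Module.Finite.of_finite : Module.Finite R V).1
  have h4 := Submodule.eq_bot_of_le_smul_of_le_jacobson_bot (maximalIdeal R) ⊤ hfg h3
    (by rw [IsLocalRing.jacobson_eq_maximalIdeal ⊥ bot_ne_top])
  obtain ⟨x, hx⟩ := exists_ne (0 : V)
  exact hx ((Submodule.mem_bot R).1 (h4 ▸ Submodule.mem_top))

end Abs

/-- **[TP-1]** -/
theorem tp_not_injective {L p : ℕ} [NeZero L] [hp : Fact p.Prime] (hp2 : p ≠ 2) (hpL : ¬ p ∣ L)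
    (S : Set ℕ) (θ : ℕ → ℤ) (rbar0 : GQ →* M₂ (ZMod p)) (hρ : RhoOut L p S θ rbar0)
    (hW : WS L p S θ ≠ ⊥) (A : ValuationSubring Qbar) (hA : A.LiesOverPrime p) {s : GQ}
    (hs : A.IsFrobeniusAt s p) (U : M₂ (ZMod p)) (hU : U ≠ 0)
    (hUI : ∀ τ ∈ A.inertiaSubgroupIn ℚ, U * (rbar0 τ - 1) = 0) (eps : ℤ)
    (hUs : U * (rbar0 s - (eps : ZMod p) • (1 : M₂ (ZMod p))) = 0) :
    ∃ x ∈ WS L p S θ, x ≠ 0 ∧ heckeOperatorBar L ⟨p, hp.out⟩ x = eps • x := by
  have : NeZero p := ⟨hp.out.ne_zero⟩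
  obtain ⟨R, _, _, _, _, _, π0, ρ, Φ, H⟩ := hρ
  -- the kernel of `π0` is contained in the maximal ideal
  have hker : ∀ x : R, π0 x = 0 → x ∈ maximalIdeal R := by
    intro x hx
    rw [mem_maximalIdeal, mem_nonunits_iff]
    intro hu
    have := hu.map π0
    rw [hx] at this
    exact not_isUnit_zero this
  have hnt : Nontrivial ↥(WS L p S θ) := by
    rw [← AddSubgroup.nontrivial_iff_ne_bot] at hW
    exact hW
  set Ut : M₂ R := U.map (algebraMap (ZMod p) R) with hUt
  have hπU : Ut.map π0 = U := by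
    ext i j
    simp [hUt]
  obtain ⟨i, j, hij⟩ : ∃ i j, U i j ≠ 0 := by
    by_contra hcon
    push Not at hcon
    exact hU (by ext i j; exact hcon i j)
  have hu : IsUnit (Ut i j) := by
    rw [hUt, Matrix.map_apply]
    exact (IsUnit.mk0 _ hij).map _
  -- entries in the maximal ideal
  have hent : ∀ X : M₂ R, X.map π0 = 0 → ∀ a b, X a b ∈ maximalIdeal R := by
    intro X hX a b
    exact hker _ (by simpa using congrFun (congrFun hX a) b)
  have hmapmul : ∀ X Y : M₂ R, (X * Y).map π0 = X.map π0 * Y.map π0 := fun X Y =>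
    Matrix.map_mul (f := (π0 : R →+* ZMod p))
  let t : ↥(WS L p S θ) →+ ↥(WS L p S θ) :=
    (heckeWS L p S θ ⟨p, hp.out⟩).toAddMonoidHom - eps • AddMonoidHom.id _
  have ht : ∀ v, ((t v : ↥(WS L p S θ)) : JZero L) =
      heckeOperatorBar L ⟨p, hp.out⟩ (v : JZero L) - eps • (v : JZero L) := fun v => rfl
  -- the augmentation part
  have haug : ∀ w ∈ S33.aug (A.inertiaSubgroupIn ℚ) (WS L p S θ),
      ∃ hw : w ∈ WS L p S θ, Φ Ut ⟨w, hw⟩ ∈ maximalIdeal R • (⊤ : Submodule R ↥(WS L p S θ)) := by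
    intro w hw
    induction hw using AddSubgroup.closure_induction with
    | mem w hw =>
      obtain ⟨τ, hτ, z, hz, rfl⟩ := hw
      refine ⟨(WS L p S θ).sub_mem (smul_mem_WS τ hz) hz, ?_⟩
      have e : (⟨τ • z - z, (WS L p S θ).sub_mem (smul_mem_WS τ hz) hz⟩ : ↥(WS L p S θ)) =
          Φ (ρ τ - 1) ⟨z, hz⟩ := by
        rw [map_sub, map_one, LinearMap.sub_apply, Module.End.one_apply, H.act]
        rfl
      rw [e, ← Module.End.mul_apply, ← map_mul]
      refine phi_mem_smul_top Φ _ _ (hent _ ?_) _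
      rw [hmapmul, hπU, Matrix.map_sub (f := π0) (by intro a b; exact map_sub π0 a b), H.lift,
        Matrix.map_one π0 (map_zero π0) (map_one π0), hUI τ hτ]
    | zero => exact ⟨(WS L p S θ).zero_mem, by
        have : (⟨0, (WS L p S θ).zero_mem⟩ : ↥(WS L p S θ)) = 0 := rfl
        rw [this, map_zero]; exact Submodule.zero_mem _⟩
    | add a b _ _ ha hb =>
      obtain ⟨ha1, ha2⟩ := ha
      obtain ⟨hb1, hb2⟩ := hb
      refine ⟨(WS L p S θ).add_mem ha1 hb1, ?_⟩
      have : (⟨a + b, (WS L p S θ).add_mem ha1 hb1⟩ : ↥(WS L p S θ)) = ⟨a, ha1⟩ + ⟨b, hb1⟩ := rfl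
      rw [this, map_add]
      exact Submodule.add_mem _ ha2 hb2
    | neg a _ ha =>
      obtain ⟨ha1, ha2⟩ := ha
      refine ⟨(WS L p S θ).neg_mem ha1, ?_⟩
      have : (⟨-a, (WS L p S θ).neg_mem ha1⟩ : ↥(WS L p S θ)) = -⟨a, ha1⟩ := rfl
      rw [this, map_neg]
      exact Submodule.neg_mem _ ha2
  have hES := TP.tp_es hp.out hp2 hpL A hA hs 1 (WS L p S θ)
    (fun x hx => by rw [pow_one]; exact hx.2) (fun τ _ z hz => smul_mem_WS τ hz)
    (fun x hx => smul_mem_WS s hx) (fun x hx => smul_mem_WS s⁻¹ hx)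
    (fun x hx => hecke_mem_WS _ hx)
  have hnot := not_injective_abs Φ Ut hu t (fun v => by
    obtain ⟨hw, h1⟩ := haug _ (hES v.1 v.2)
    have h2 : Φ Ut (Φ (ρ s - (eps : R) • (1 : M₂ R)) v) ∈
        maximalIdeal R • (⊤ : Submodule R ↥(WS L p S θ)) := by
      rw [← Module.End.mul_apply, ← map_mul]
      refine phi_mem_smul_top Φ _ _ (hent _ ?_) _
      rw [hmapmul, hπU, Matrix.map_sub (f := π0) (by intro a b; exact map_sub π0 a b), H.lift]
      have : ((eps : R) • (1 : M₂ R)).map π0 = (eps : ZMod p) • (1 : M₂ (ZMod p)) := by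
        ext a b
        simp [Matrix.one_apply, apply_ite π0]
      rw [this, hUs]
    have e : t v = ⟨_, hw⟩ + Φ (ρ s - (eps : R) • (1 : M₂ R)) v := by
      apply Subtype.ext
      rw [ht, map_sub, map_smul, map_one, LinearMap.sub_apply, H.act, LinearMap.smul_apply,
        Module.End.one_apply, Int.cast_smul_eq_zsmul]
      have hp0 : p • (s⁻¹ • (v : JZero L)) = 0 := (smul_mem_WS s⁻¹ v.2).2
      show _ = (heckeOperatorBar L ⟨p, hp.out⟩ (v : JZero L) - s • (v : JZero L) -
        p • (s⁻¹ • (v : JZero L))) + (s • (v : JZero L) - eps • (v : JZero L))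
      rw [hp0]
      abel
    rw [e, map_add]
    exact Submodule.add_mem _ h1 h2)
  rw [injective_iff_map_eq_zero] at hnot
  push Not at hnot
  obtain ⟨x, hx0, hx⟩ := hnot
  refine ⟨x.1, x.2, fun h => hx (Subtype.ext h), ?_⟩
  have := congrArg Subtype.val hx0
  rw [ht] at this
  exact sub_eq_zero.1 this

end Fermat.Agent.ML.AtP
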